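import Mathlib
import Fermat.Agent.S24.FF.Ord
import Fermat.Agent.S17.R.LSpace
import Fermat.Agent.S17.HB.Loc2
import Fermat.Agent.S17.HB.Loc3
import Fermat.Agent.S17.HB.Deg.Defs

/-!
# Program PJ (statement S27), strand L (the local theorem): vocabulary

`F / K` is the function field of the curve, `M / K` the function field of a configuration curve.

* `cen htrF htrM φ c` : the centre on `F` of the embedding `φ : F →ₐ[K] M` at the place `c` of `M`
  (LOC2's `centre`);
* `coinc htrF htrM φ ψ c` : the coincidence order at `c` of the two embeddings: the order at `c`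
  of `φ t - ψ t`, `t` the chosen uniformiser (`S17.HB.Deg.unif`) at the common centre, and `0`
  when the centres differ.  It is symmetric, non-negative, and zero on the diagonal;
* `Data htr M ι μ m B δ` : a PROFILE CONFIGURATION: embeddings `ρ z : F →ₐ[K] M` (`z : ι`) with
  multiplicities `μ z`, a linearly independent family `v j` of `L(B)` and coefficients `cM j : M`
  (`cM 0 = 1`) such that the function `∑ cM j • v j` of the curve over `M` vanishes to order `μ z`
  at the point `ρ z` (jets through the derivation `δ`), `B ≥ 0` of degree `∑ μ z`.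

The local counts of strand L (`L/Loc`, `L/Jet`, `L/Value`, `L/Det`) and the exits (`L/Exit`,
`L/Final`) are typed in this vocabulary.
-/

set_option autoImplicit false

open AlgebraicCurve

namespace Fermat.Agent.S27.L

open Fermat.Agent.S17 Fermat.Agent.S17.HB

variable {K F M : Type*} [Field K] [Field F] [Algebra K F] [Field M] [Algebra K M]

/-- The centre on `F` of the embedding `φ` at the place `c` of `M`. -/
noncomputable def cen (htrF : Algebra.trdeg K F = 1) (htrM : Algebra.trdeg K M = 1)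
    (φ : F →ₐ[K] M) (c : Place K M) : Place K F :=
  Loc2.centre φ (Loc2.algHom_isIntegral htrF htrM φ) c

theorem cen_toValuationSubring (htrF : Algebra.trdeg K F = 1) (htrM : Algebra.trdeg K M = 1)
    (φ : F →ₐ[K] M) (c : Place K M) :
    (cen htrF htrM φ c).toValuationSubring = c.toValuationSubring.comap (φ : F →+* M) := rfl

theorem isCentre_cen (htrF : Algebra.trdeg K F = 1) (htrM : Algebra.trdeg K M = 1)
    (φ : F →ₐ[K] M) (c : Place K M) : Loc3.IsCentre φ c (cen htrF htrM φ c) := rfl

theorem mem_cen_iff (htrF : Algebra.trdeg K F = 1) (htrM : Algebra.trdeg K M = 1)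
    (φ : F →ₐ[K] M) (c : Place K M) (f : F) :
    f ∈ (cen htrF htrM φ c).toValuationSubring ↔ φ f ∈ c.toValuationSubring := Iff.rfl

theorem ord_map (htrF : Algebra.trdeg K F = 1) (htrM : Algebra.trdeg K M = 1)
    (φ : F →ₐ[K] M) (c : Place K M) (f : F) :
    c.ord (φ f) = Loc2.ram φ c * (cen htrF htrM φ c).ord f :=
  Loc2.ord_map φ (Loc2.algHom_isIntegral htrF htrM φ) c f

theorem ram_pos (htrF : Algebra.trdeg K F = 1) (htrM : Algebra.trdeg K M = 1)
    (φ : F →ₐ[K] M) (c : Place K M) : 0 < Loc2.ram φ c :=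
  Loc2.ram_pos φ (Loc2.algHom_isIntegral htrF htrM φ) c

open Classical in
/-- The coincidence order at `c` of the embeddings `φ` and `ψ`. -/
noncomputable def coinc (htrF : Algebra.trdeg K F = 1) (htrM : Algebra.trdeg K M = 1)
    (φ ψ : F →ₐ[K] M) (c : Place K M) : ℤ :=
  if cen htrF htrM φ c = cen htrF htrM ψ c then
    c.ord (φ (Deg.unif (cen htrF htrM φ c)) - ψ (Deg.unif (cen htrF htrM φ c)))
  else 0

theorem coinc_of_eq (htrF : Algebra.trdeg K F = 1) (htrM : Algebra.trdeg K M = 1)
    {φ ψ : F →ₐ[K] M} {c : Place K M} (h : cen htrF htrM φ c = cen htrF htrM ψ c) :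
    coinc htrF htrM φ ψ c =
      c.ord (φ (Deg.unif (cen htrF htrM φ c)) - ψ (Deg.unif (cen htrF htrM φ c))) := by
  unfold coinc
  rw [if_pos h]

theorem coinc_of_ne (htrF : Algebra.trdeg K F = 1) (htrM : Algebra.trdeg K M = 1)
    {φ ψ : F →ₐ[K] M} {c : Place K M} (h : cen htrF htrM φ c ≠ cen htrF htrM ψ c) :
    coinc htrF htrM φ ψ c = 0 := by
  unfold coinc
  rw [if_neg h]

theorem coinc_symm (htrF : Algebra.trdeg K F = 1) (htrM : Algebra.trdeg K M = 1)
    (φ ψ : F →ₐ[K] M) (c : Place K M) :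
    coinc htrF htrM φ ψ c = coinc htrF htrM ψ φ c := by
  by_cases h : cen htrF htrM φ c = cen htrF htrM ψ c
  · rw [coinc_of_eq htrF htrM h, coinc_of_eq htrF htrM h.symm, ← h,
      ← Fermat.Agent.S24.FF.ord_neg, neg_sub]
  · rw [coinc_of_ne htrF htrM h, coinc_of_ne htrF htrM (Ne.symm h)]

theorem coinc_self (htrF : Algebra.trdeg K F = 1) (htrM : Algebra.trdeg K M = 1)
    (φ : F →ₐ[K] M) (c : Place K M) : coinc htrF htrM φ φ c = 0 := by
  rw [coinc_of_eq htrF htrM rfl, sub_self, Place.ord_zero]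

theorem coinc_nonneg (htrF : Algebra.trdeg K F = 1) (htrM : Algebra.trdeg K M = 1)
    (φ ψ : F →ₐ[K] M) (c : Place K M) : 0 ≤ coinc htrF htrM φ ψ c := by
  by_cases h : cen htrF htrM φ c = cen htrF htrM ψ c
  · rw [coinc_of_eq htrF htrM h]
    have ht : Deg.unif (cen htrF htrM φ c) ∈ (cen htrF htrM φ c).toValuationSubring :=
      Fermat.Agent.S24.FF.mem_of_ord_pos _ (by rw [Deg.ord_unif]; exact one_pos)
    have h1 : φ (Deg.unif (cen htrF htrM φ c)) ∈ c.toValuationSubring :=
      (mem_cen_iff htrF htrM φ c _).mp ht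
    have h2 : ψ (Deg.unif (cen htrF htrM φ c)) ∈ c.toValuationSubring :=
      (mem_cen_iff htrF htrM ψ c _).mp (h ▸ ht)
    exact Fermat.Agent.S24.FF.ord_nonneg_of_mem c (sub_mem h1 h2)
  · rw [coinc_of_ne htrF htrM h]

section Profile

variable [IsAlgClosed K] [CharZero K] [Algebra.EssFiniteType K F]

/-- A profile configuration: the hypotheses of the local theorem of strand L.  The points `ρ z`
(`z : ι`) of the curve over `M` carry the multiplicities `μ z`; the function `∑ cM j • v j`
(`v j ∈ L(B)`, `B ≥ 0` of degree `∑ μ z`) vanishes to order `μ z` at `ρ z`. -/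
structure Data (htr : Algebra.trdeg K F = 1) (M : Type*) [Field M] [Algebra K M]
    (ι : Type*) [Fintype ι] (μ : ι → ℕ) (m : ℕ) (B : Divisor K F) (δ : Derivation K F F) where
  v : Fin (m + 1) → F
  v_indep : LinearIndependent K v
  v_mem : ∀ j, v j ∈ riemannRochSpace B
  B_nonneg : 0 ≤ B
  degree_B : Divisor.degree B = ∑ z, (μ z : ℤ)
  ρ : ι → (F →ₐ[K] M)
  ρ_inj : Function.Injective ρ
  cM : Fin (m + 1) → M
  cM_zero : cM 0 = 1
  chain : Loc3.ChainRule htr δ
  jets : ∀ z : ι, ∀ i < μ z, ∑ j, cM j * ρ z ((⇑δ)^[i] (v j)) = 0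

end Profile

end Fermat.Agent.S27.L
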