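import Mathlib
import Fermat.Agent.S17.HB.Loc3.Exit

/-!
# Program PJ (statement S27), strand L: LOC3 for a multiplicity profile

The specialisation theorem of `S17/HB/Loc3.lean`, for a general profile configuration.

`F / K` is the function field of the curve, `M / K` the function field of a configuration curve,
`ρ x : F →ₐ[K] M` (`x : X`, a finite type) pairwise distinct points of the curve over `M` with
multiplicities `μ x`, `B` a constant effective divisor of degree `∑ μ x`, and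
`Φ = ∑ j, cM j ⊗ v j` (`v j ∈ L(B)` linearly independent, `cM j ∈ M`) a function of the curve
over `M` which vanishes to order `μ x` at the point `ρ x` (`jets`: iterated derivatives for a
derivation `∂` of `F` with the chain rule at every place).

For a place `c` of `M` with uniformiser `ϖ` and the exponent `e` which normalises the vector
`cM` at `c`, the specialised function `Ψ_c = ∑ j, (ϖ ^ e * cM j)(c) • v j` is non-zero and

  `div Ψ_c = ∑ x, μ x • (centre of ρ x at c) - B`          (`divOf_spec`),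

and at every place `T` of `F` the local series `∑ j, C j (ϖ) * W j (t)` satisfies the hypotheses
of the normal form LOC1 (`loc1_hyps`), the zeros being the expansions of `ρ x t` for the points
`x` with centre `T`, with multiplicities `μ x`.

The type `(1, g)` of `S17/HB/Loc3.lean` is `X = Option (Fin g)`, `μ = Loc3.mult n`,
`B = n E₀ + Q₀`.
-/

set_option autoImplicit false

open AlgebraicCurve

namespace Fermat.Agent.S27.L.Loc3

open Fermat.Agent.S17 Fermat.Agent.S17.D Fermat.Agent.S17.HB.Loc3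

variable {K F M : Type*} [Field K] [Field F] [Algebra K F] [Field M] [Algebra K M]
variable [IsAlgClosed K] [CharZero K] [Algebra.EssFiniteType K F]

/-- A configuration with multiplicities: points `ρ x` of the curve over `M` with multiplicities `μ x`, and a
function `Φ = ∑ j, cM j ⊗ v j` of `L(B)` over `M` vanishing to order `μ x` at `ρ x`. -/
structure Config (htr : Algebra.trdeg K F = 1) (M : Type*) [Field M] [Algebra K M]
    (ι : Type*) [Fintype ι] {X : Type*} [Fintype X] (μ : X → ℕ) (B : Divisor K F) where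
  B_nonneg : 0 ≤ B
  degree_B : Divisor.degree B = ∑ x, (μ x : ℤ)
  v : ι → F
  v_indep : LinearIndependent K v
  v_mem : ∀ j, v j ∈ riemannRochSpace B
  ρ : X → (F →ₐ[K] M)
  ρ_inj : Function.Injective ρ
  cM : ι → M
  δ : Derivation K F F
  chain : ChainRule htr δ
  jets : ∀ x, ∀ i < μ x, ∑ j, cM j * ρ x ((⇑δ)^[i] (v j)) = 0

/-! ### The space `L(B)` at a place, and the divisor of zeros -/

section LSpace

theorem toNat_pow_mul_mem {B : Divisor K F} (hB : 0 ≤ B) (T : Place K F) {t : F}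
    (ht : T.ord t = 1) {f : F} (hf : f ∈ riemannRochSpace B) :
    t ^ (B T).toNat * f ∈ T.toValuationSubring := by
  rcases eq_or_ne f 0 with rfl | hf0
  · rw [mul_zero]
    exact zero_mem _
  · have h1 := (R.mem_L_of_ne_zero hf0).mp hf T
    have h2 : ((B T).toNat : ℤ) = B T := Int.toNat_of_nonneg (hB T)
    have hne : t ^ (B T).toNat * f ≠ 0 :=
      mul_ne_zero (pow_ne_zero _ (R.Taylor.unif_ne_zero T ht)) hf0
    refine (Fermat.Agent.S24.FF.ord_nonneg_iff T hne).mp ?_
    rw [ord_pow_mul T ht _ hf0]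
    omega

open Classical in
omit [IsAlgClosed K] [CharZero K] [Algebra.EssFiniteType K F] in
theorem zeros_apply {X : Type*} [Fintype X] (μ : X → ℕ) (cen : X → Place K F) (T : Place K F) :
    (∑ x, (μ x : ℤ) • Finsupp.single (cen x) (1 : ℤ)) T =
      ((∑ x : {x : X // cen x = T}, μ x.1 : ℕ) : ℤ) := by
  rw [Finsupp.finsetSum_apply]
  simp only [Finsupp.smul_apply, Finsupp.single_apply, smul_eq_mul, mul_ite, mul_one, mul_zero]
  rw [← Finset.sum_filter]
  push_cast
  rw [← Finset.sum_subtype (Finset.univ.filter fun x => cen x = T) (by simp)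
    (fun x => (μ x : ℤ))]

omit [CharZero K] [Algebra.EssFiniteType K F] in
theorem degree_zeros (htr : Algebra.trdeg K F = 1) {X : Type*} [Fintype X] (μ : X → ℕ)
    (cen : X → Place K F) :
    Divisor.degree (∑ x, (μ x : ℤ) • Finsupp.single (cen x) (1 : ℤ)) = ∑ x, (μ x : ℤ) := by
  rw [map_sum]
  refine Finset.sum_congr rfl fun x _ => ?_
  rw [map_zsmul, Divisor.degree_single, Fermat.Agent.S24.FF.deg_eq_one htr]
  simp

end LSpace

/-! ### The specialised function at a place of `M` -/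

section Main

variable [Algebra.EssFiniteType K M]
variable {htr : Algebra.trdeg K F = 1} {ι : Type*} [Fintype ι] {X : Type*} [Fintype X]
  {μ : X → ℕ} {B : Divisor K F}

/-- The Hasse jets of the local series vanish at the expansion of `ρ x t`, for a point `x` with
centre `T`. -/
theorem jets_loc (htrM : Algebra.trdeg K M = 1) (d : Config htr M ι μ B) (c : Place K M)
    (ϖ : M) (hϖ : c.ord ϖ = 1) (e : ℕ) (he : ∀ j, ϖ ^ e * d.cM j ∈ c.toValuationSubring)
    (T : Place K F) (t : F) (ht : T.ord t = 1) (x : X) (hx : IsCentre (d.ρ x) c T) :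
    ∀ i < μ x, ∑ j, tay htrM c ϖ hϖ (ϖ ^ e * d.cM j) *
      (hasse i (tay htr T t ht (t ^ (B T).toNat * d.v j))).subst
        (tay htrM c ϖ hϖ (d.ρ x t)) = 0 := by
  refine local_van htr htrM d.δ d.chain hx t ht ϖ hϖ (fun j => ϖ ^ e * d.cM j) he
    (fun j => t ^ (B T).toNat * d.v j) (fun j => toNat_pow_mul_mem d.B_nonneg T ht (d.v_mem j))
    (μ x) ?_
  intro i hi
  have h1 := van_mul (d.ρ x) d.δ d.cM i d.v (t ^ (B T).toNat)
    (fun l hl => d.jets x l (by omega))
  calc ∑ j, ϖ ^ e * d.cM j * d.ρ x ((⇑d.δ)^[i] (t ^ (B T).toNat * d.v j))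
      = ϖ ^ e * ∑ j, d.cM j * d.ρ x ((⇑d.δ)^[i] (t ^ (B T).toNat * d.v j)) := by
        rw [Finset.mul_sum]
        exact Finset.sum_congr rfl fun j _ => mul_assoc _ _ _
    _ = 0 := by rw [h1, mul_zero]

/-- The specialised function is non-zero. -/
theorem psi_ne_zero (htrM : Algebra.trdeg K M = 1) (d : Config htr M ι μ B) (c : Place K M)
    (ϖ : M) (hϖ : c.ord ϖ = 1) (e : ℕ) (he : ∀ j, ϖ ^ e * d.cM j ∈ c.toValuationSubring)
    (he0 : ∃ j, d.cM j ≠ 0 ∧ c.ord (ϖ ^ e * d.cM j) = 0) :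
    (∑ j, PowerSeries.constantCoeff (tay htrM c ϖ hϖ (ϖ ^ e * d.cM j)) • d.v j) ≠ 0 := by
  intro h0
  obtain ⟨j₀, hj₀, hord⟩ := he0
  have h1 := (Fintype.linearIndependent_iff.mp d.v_indep) _ h0 j₀
  rw [constantCoeff_tay_eq_zero_iff htrM c ϖ hϖ (he j₀)] at h1
  rcases h1 with h1 | h1
  · exact (mul_ne_zero (pow_ne_zero e (R.Taylor.unif_ne_zero c hϖ)) hj₀) h1
  · omega

omit [Algebra.EssFiniteType K M] in
theorem psi_mem (d : Config htr M ι μ B) (κ : ι → K) :
    (∑ j, κ j • d.v j) ∈ riemannRochSpace B :=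
  sum_mem fun j _ => Submodule.smul_mem _ _ (d.v_mem j)

omit [Algebra.EssFiniteType K M] in
/-- The expansion at `T` of the specialised function is the closed fibre of the local series. -/
theorem tay_psi (d : Config htr M ι μ B) (κ : ι → K) (T : Place K F) (t : F)
    (ht : T.ord t = 1) :
    tay htr T t ht (t ^ (B T).toNat * ∑ j, κ j • d.v j) =
      ∑ j, κ j • tay htr T t ht (t ^ (B T).toNat * d.v j) := by
  have hm : ∀ j, t ^ (B T).toNat * d.v j ∈ T.toValuationSubring := fun j =>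
    toNat_pow_mul_mem d.B_nonneg T ht (d.v_mem j)
  have e1 : t ^ (B T).toNat * ∑ j, κ j • d.v j = ∑ j, κ j • (t ^ (B T).toNat * d.v j) := by
    rw [Finset.mul_sum]
    exact Finset.sum_congr rfl fun j _ => mul_smul_comm _ _ _
  rw [e1, tay_sum htr T t ht _ _ fun j _ => ?_]
  · exact Finset.sum_congr rfl fun j _ => tay_smul htr T t ht _ (hm j)
  · rw [Algebra.smul_def]
    exact mul_mem (T.algebraMap_mem' _) (hm j)

open Classical in
/-- The easy half at a place `T`: the expansion of the specialised function vanishes to the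
order `∑ μ x`, `x` running over the points with centre `T`. -/
theorem X_pow_dvd_tay_psi (htrM : Algebra.trdeg K M = 1) (d : Config htr M ι μ B)
    (c : Place K M) (cen : X → Place K F) (hcen : ∀ x, IsCentre (d.ρ x) c (cen x)) (ϖ : M)
    (hϖ : c.ord ϖ = 1) (e : ℕ) (he : ∀ j, ϖ ^ e * d.cM j ∈ c.toValuationSubring)
    (T : Place K F) (t : F) (ht : T.ord t = 1) :
    (PowerSeries.X : PowerSeries K) ^ (∑ x : {x : X // cen x = T}, μ x.1) ∣
      tay htr T t ht (t ^ (B T).toNat *
        ∑ j, PowerSeries.constantCoeff (tay htrM c ϖ hϖ (ϖ ^ e * d.cM j)) • d.v j) := by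
  have hc : ∀ x : {x : X // cen x = T}, IsCentre (d.ρ x.1) c T := fun x => by
    have h := hcen x.1
    rwa [x.2] at h
  rw [tay_psi d _ T t ht]
  exact (easyHalf K ι).fintype (fun j => tay htrM c ϖ hϖ (ϖ ^ e * d.cM j))
    (fun j => tay htr T t ht (t ^ (B T).toNat * d.v j))
    (fun x : {x : X // cen x = T} => tay htrM c ϖ hϖ (d.ρ x.1 t))
    (fun x => μ x.1)
    (fun x => (tay_map_eq_subst htr htrM (hc x) t ht ϖ hϖ).1)
    (fun x y hxy => Subtype.ext (d.ρ_inj (eq_of_tay_eq htr htrM (hc x) (hc y) t ht ϖ hϖ hxy)))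
    (fun x i hi => jets_loc htrM d c ϖ hϖ e he T t ht x.1 (hc x) i hi)

open Classical in
/-- The easy half in terms of orders. -/
theorem le_ord_psi (htrM : Algebra.trdeg K M = 1) (d : Config htr M ι μ B)
    (c : Place K M) (cen : X → Place K F) (hcen : ∀ x, IsCentre (d.ρ x) c (cen x)) (ϖ : M)
    (hϖ : c.ord ϖ = 1) (e : ℕ) (he : ∀ j, ϖ ^ e * d.cM j ∈ c.toValuationSubring)
    (hΨ : (∑ j, PowerSeries.constantCoeff (tay htrM c ϖ hϖ (ϖ ^ e * d.cM j)) • d.v j) ≠ 0)
    (T : Place K F) :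
    ((∑ x : {x : X // cen x = T}, μ x.1 : ℕ) : ℤ) ≤
      B T + T.ord (∑ j, PowerSeries.constantCoeff (tay htrM c ϖ hϖ (ϖ ^ e * d.cM j)) • d.v j) := by
  obtain ⟨t, ht⟩ := exists_unif T
  have h1 := X_pow_dvd_tay_psi htrM d c cen hcen ϖ hϖ e he T t ht
  have h2 : ((B T).toNat : ℤ) = B T := Int.toNat_of_nonneg (d.B_nonneg T)
  rw [X_pow_dvd_tay_iff htr T t ht (toNat_pow_mul_mem d.B_nonneg T ht (psi_mem d _))] at h1
  rcases h1 with h1 | h1
  · exact absurd h1 (mul_ne_zero (pow_ne_zero _ (R.Taylor.unif_ne_zero T ht)) hΨ)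
  · rw [ord_pow_mul T ht _ hΨ, h2] at h1
    exact h1

end Main

variable [Algebra.EssFiniteType K M]
variable {ι : Type*} [Fintype ι] {X : Type*} [Fintype X] {μ : X → ℕ} {B : Divisor K F}

/-- **LOC3 for a profile, global form.**  The specialised function at a place `c` of `M` is
non-zero and its divisor is `∑ x, μ x • (centre of ρ x at c) - B`. -/
theorem divOf_spec (htr : Algebra.trdeg K F = 1) (htrM : Algebra.trdeg K M = 1)
    (d : Config htr M ι μ B)
    (c : Place K M) (cen : X → Place K F) (hcen : ∀ x, IsCentre (d.ρ x) c (cen x))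
    (ϖ : M) (hϖ : c.ord ϖ = 1) (e : ℕ) (he : ∀ j, ϖ ^ e * d.cM j ∈ c.toValuationSubring)
    (he0 : ∃ j, d.cM j ≠ 0 ∧ c.ord (ϖ ^ e * d.cM j) = 0) :
    (∑ j, PowerSeries.constantCoeff (tay htrM c ϖ hϖ (ϖ ^ e * d.cM j)) • d.v j) ≠ 0 ∧
    R.divOf K (∑ j, PowerSeries.constantCoeff (tay htrM c ϖ hϖ (ϖ ^ e * d.cM j)) • d.v j) =
      ∑ x, (μ x : ℤ) • Finsupp.single (cen x) (1 : ℤ) - B := by
  classical
  have hΨ := psi_ne_zero htrM d c ϖ hϖ e he he0
  refine ⟨hΨ, ?_⟩
  have key : R.divOf K (∑ j, PowerSeries.constantCoeff (tay htrM c ϖ hϖ (ϖ ^ e * d.cM j)) • d.v j)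
      - (∑ x, (μ x : ℤ) • Finsupp.single (cen x) (1 : ℤ) - B) = 0 := by
    apply R.ReducedCore.eq_zero_of_nonneg_of_degree_eq_zero htr
    · rw [Finsupp.le_def]
      intro T
      have h1 := le_ord_psi htrM d c cen hcen ϖ hϖ e he hΨ T
      have h2 := zeros_apply μ cen T
      simp only [Finsupp.coe_zero, Pi.zero_apply, Finsupp.coe_sub, Pi.sub_apply]
      rw [R.divOf_apply htr, h2]
      linarith
    · rw [map_sub, map_sub, R.degree_divOf htr, degree_zeros htr, d.degree_B]
      ring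
  exact sub_eq_zero.mp key

open Classical in
/-- **LOC3 for a profile, orders.**  The order at every place `T` of `F` of the specialised
function. -/
theorem ord_spec (htr : Algebra.trdeg K F = 1) (htrM : Algebra.trdeg K M = 1)
    (d : Config htr M ι μ B)
    (c : Place K M) (cen : X → Place K F) (hcen : ∀ x, IsCentre (d.ρ x) c (cen x))
    (ϖ : M) (hϖ : c.ord ϖ = 1) (e : ℕ) (he : ∀ j, ϖ ^ e * d.cM j ∈ c.toValuationSubring)
    (he0 : ∃ j, d.cM j ≠ 0 ∧ c.ord (ϖ ^ e * d.cM j) = 0) (T : Place K F) :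
    B T + T.ord (∑ j, PowerSeries.constantCoeff (tay htrM c ϖ hϖ (ϖ ^ e * d.cM j)) • d.v j) =
      ((∑ x : {x : X // cen x = T}, μ x.1 : ℕ) : ℤ) := by
  obtain ⟨-, h⟩ := divOf_spec htr htrM d c cen hcen ϖ hϖ e he he0
  have h1 := congrArg (fun D : Place K F →₀ ℤ => D T) h
  simp only [Finsupp.coe_sub, Pi.sub_apply] at h1
  rw [R.divOf_apply htr, zeros_apply] at h1
  linarith

open Classical in
/-- **LOC3 for a profile, local form.**  At every place `T` of `F` (uniformiser `t`) the local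
series `∑ j, C j (ϖ) * W j (t)` satisfies the hypotheses of the normal form LOC1, with the zeros
`r x`, `x` running over the points with centre `T`, of multiplicities `μ x`. -/
theorem loc1_hyps (htr : Algebra.trdeg K F = 1) (htrM : Algebra.trdeg K M = 1)
    (d : Config htr M ι μ B)
    (c : Place K M) (cen : X → Place K F) (hcen : ∀ x, IsCentre (d.ρ x) c (cen x))
    (ϖ : M) (hϖ : c.ord ϖ = 1) (e : ℕ) (he : ∀ j, ϖ ^ e * d.cM j ∈ c.toValuationSubring)
    (he0 : ∃ j, d.cM j ≠ 0 ∧ c.ord (ϖ ^ e * d.cM j) = 0)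
    (T : Place K F) (t : F) (ht : T.ord t = 1)
    (C W : ι → PowerSeries K)
    (hC : ∀ j, C j = tay htrM c ϖ hϖ (ϖ ^ e * d.cM j))
    (hW : ∀ j, W j = tay htr T t ht (t ^ (B T).toNat * d.v j))
    (r : {x : X // cen x = T} → PowerSeries K)
    (hr : ∀ x, r x = tay htrM c ϖ hϖ (d.ρ x.1 t)) :
    (∀ j, t ^ (B T).toNat * d.v j ∈ T.toValuationSubring) ∧
    (∀ x : {x : X // cen x = T}, d.ρ x.1 t ∈ c.toValuationSubring) ∧
    (∀ x, PowerSeries.constantCoeff (r x) = 0) ∧ Function.Injective r ∧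
    (∀ x, ∀ i < μ x.1, ∑ j, C j * (hasse i (W j)).subst (r x) = 0) ∧
    (∑ j, PowerSeries.constantCoeff (C j) • W j).order =
      ((∑ x : {x : X // cen x = T}, μ x.1 : ℕ) : ℕ∞) := by
  have hc : ∀ x : {x : X // cen x = T}, IsCentre (d.ρ x.1) c T := fun x => by
    have h := hcen x.1
    rwa [x.2] at h
  have hΨ := psi_ne_zero htrM d c ϖ hϖ e he he0
  obtain rfl : C = fun j => tay htrM c ϖ hϖ (ϖ ^ e * d.cM j) := funext hC
  obtain rfl : W = fun j => tay htr T t ht (t ^ (B T).toNat * d.v j) := funext hW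
  obtain rfl : r = fun x => tay htrM c ϖ hϖ (d.ρ x.1 t) := funext hr
  refine ⟨fun j => toNat_pow_mul_mem d.B_nonneg T ht (d.v_mem j),
    fun x => (hc x).map_mem (R.Taylor.unif_mem T ht),
    fun x => (tay_map_eq_subst htr htrM (hc x) t ht ϖ hϖ).1,
    fun x y hxy => Subtype.ext (d.ρ_inj (eq_of_tay_eq htr htrM (hc x) (hc y) t ht ϖ hϖ hxy)),
    fun x i hi => jets_loc htrM d c ϖ hϖ e he T t ht x.1 (hc x) i hi, ?_⟩
  have h1 := tay_psi d (fun j => PowerSeries.constantCoeff (tay htrM c ϖ hϖ (ϖ ^ e * d.cM j)))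
    T t ht
  have h2 : ((B T).toNat : ℤ) = B T := Int.toNat_of_nonneg (d.B_nonneg T)
  rw [← h1, order_tay htr T t ht (toNat_pow_mul_mem d.B_nonneg T ht (psi_mem d _))
    (mul_ne_zero (pow_ne_zero _ (R.Taylor.unif_ne_zero T ht)) hΨ), ord_pow_mul T ht _ hΨ, h2,
    ord_spec htr htrM d c cen hcen ϖ hϖ e he he0 T, Int.toNat_natCast]

end Fermat.Agent.S27.L.Loc3
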