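import Mathlib
import Fermat.Agent.S27.L.Defs
import Fermat.Agent.S17.HB.Loc3.OfDivCurve
import Fermat.Agent.S27.L.Loc3

/-!
# Program PJ (statement S27), strand L, leaf LOC: the specialisation at a place

The exits of `S27/L/Loc3.lean` for the hypothesis structure `L.Data` of strand L
(`S27/L/Defs.lean`), with the centres `cen htr htrM (d.ρ z) c` of LOC2:

* `divOf_spec` : the specialisation `Ψ_c` of the function at a place `c` of `M` is non-zero and
  `div Ψ_c = ∑ z, μ z • (centre of ρ z at c) - B`;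
* `ord_spec` : the same in terms of the orders at every place `T` of `F`;
* `loc1_hyps` : at every place `T` of `F` the local series satisfies the hypotheses of the normal
  form LOC1, the zeros being the expansions of `ρ z t` for the points `z` with centre `T`;
* `Loc.exists_exponent` : the normalising exponent `e` exists at every place `c` of `M`
  (`cM 0 = 1`).
-/

set_option autoImplicit false

open AlgebraicCurve

namespace Fermat.Agent.S27.L

open Fermat.Agent.S17 Fermat.Agent.S17.D Fermat.Agent.S17.HB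

variable {K F M : Type*} [Field K] [Field F] [Algebra K F] [Field M] [Algebra K M]
variable [IsAlgClosed K] [CharZero K] [Algebra.EssFiniteType K F] [Algebra.EssFiniteType K M]

omit [Algebra.EssFiniteType K M] in
/-- The configuration of `S27/L/Loc3.lean` of a profile configuration. -/
def Loc.toConfig {htr : Algebra.trdeg K F = 1} {ι : Type*} [Fintype ι] {μ : ι → ℕ} {m : ℕ}
    {B : Divisor K F} {δ : Derivation K F F} (d : Data htr M ι μ m B δ) :
    Loc3.Config htr M (Fin (m + 1)) μ B where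
  B_nonneg := d.B_nonneg
  degree_B := d.degree_B
  v := d.v
  v_indep := d.v_indep
  v_mem := d.v_mem
  ρ := d.ρ
  ρ_inj := d.ρ_inj
  cM := d.cM
  δ := δ
  chain := d.chain
  jets := d.jets

/-- The normalising exponent exists at every place of `M`. -/
theorem Loc.exists_exponent {htr : Algebra.trdeg K F = 1} {ι : Type*} [Fintype ι] {μ : ι → ℕ}
    {m : ℕ} {B : Divisor K F} {δ : Derivation K F F} (d : Data htr M ι μ m B δ) (c : Place K M)
    (ϖ : M) (hϖ : c.ord ϖ = 1) :
    ∃ e : ℕ, (∀ j, ϖ ^ e * d.cM j ∈ c.toValuationSubring) ∧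
      ∃ j, d.cM j ≠ 0 ∧ c.ord (ϖ ^ e * d.cM j) = 0 :=
  HB.Loc3.exists_exponent d.cM 0 d.cM_zero c ϖ hϖ

/-- **LOC (divisor).**  The specialisation `Ψ_c` of the function at a place `c` of `M` is
non-zero and its divisor is `∑ μ z • (centre of z) - B`. -/
theorem divOf_spec (htr : Algebra.trdeg K F = 1) (htrM : Algebra.trdeg K M = 1)
    {ι : Type*} [Fintype ι] {μ : ι → ℕ} {m : ℕ} {B : Divisor K F} {δ : Derivation K F F}
    (d : Data htr M ι μ m B δ) (c : Place K M) (ϖ : M) (hϖ : c.ord ϖ = 1) (e : ℕ)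
    (he : ∀ j, ϖ ^ e * d.cM j ∈ c.toValuationSubring)
    (he0 : ∃ j, d.cM j ≠ 0 ∧ c.ord (ϖ ^ e * d.cM j) = 0) :
    (∑ j, PowerSeries.constantCoeff (Loc3.tay htrM c ϖ hϖ (ϖ ^ e * d.cM j)) • d.v j) ≠ 0 ∧
      R.divOf K (∑ j, PowerSeries.constantCoeff (Loc3.tay htrM c ϖ hϖ (ϖ ^ e * d.cM j)) • d.v j) =
        ∑ z, (μ z : ℤ) • Finsupp.single (cen htr htrM (d.ρ z) c) (1 : ℤ) - B :=
  Loc3.divOf_spec htr htrM (Loc.toConfig d) c (fun z => cen htr htrM (d.ρ z) c)
    (fun z => isCentre_cen htr htrM (d.ρ z) c) ϖ hϖ e he he0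

open Classical in
/-- **LOC (orders).**  The order at every place `T` of `F` of the specialisation. -/
theorem ord_spec (htr : Algebra.trdeg K F = 1) (htrM : Algebra.trdeg K M = 1)
    {ι : Type*} [Fintype ι] {μ : ι → ℕ} {m : ℕ} {B : Divisor K F} {δ : Derivation K F F}
    (d : Data htr M ι μ m B δ) (c : Place K M) (ϖ : M) (hϖ : c.ord ϖ = 1) (e : ℕ)
    (he : ∀ j, ϖ ^ e * d.cM j ∈ c.toValuationSubring)
    (he0 : ∃ j, d.cM j ≠ 0 ∧ c.ord (ϖ ^ e * d.cM j) = 0) (T : Place K F) :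
    B T + T.ord (∑ j, PowerSeries.constantCoeff (Loc3.tay htrM c ϖ hϖ (ϖ ^ e * d.cM j)) • d.v j) =
      ((∑ z : {z : ι // cen htr htrM (d.ρ z) c = T}, μ z.1 : ℕ) : ℤ) :=
  Loc3.ord_spec htr htrM (Loc.toConfig d) c (fun z => cen htr htrM (d.ρ z) c)
    (fun z => isCentre_cen htr htrM (d.ρ z) c) ϖ hϖ e he he0 T

open Classical in
/-- **LOC (Loc1 hypotheses).**  At a place `T` of `F` with uniformiser `t`: the expansions of the
coefficients, of the functions and of the points with centre `T` satisfy the hypotheses of LOC1. -/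
theorem loc1_hyps (htr : Algebra.trdeg K F = 1) (htrM : Algebra.trdeg K M = 1)
    {ι : Type*} [Fintype ι] {μ : ι → ℕ} {m : ℕ} {B : Divisor K F} {δ : Derivation K F F}
    (d : Data htr M ι μ m B δ) (c : Place K M) (ϖ : M) (hϖ : c.ord ϖ = 1) (e : ℕ)
    (he : ∀ j, ϖ ^ e * d.cM j ∈ c.toValuationSubring)
    (he0 : ∃ j, d.cM j ≠ 0 ∧ c.ord (ϖ ^ e * d.cM j) = 0)
    (T : Place K F) (t : F) (ht : T.ord t = 1)
    (C W : Fin (m + 1) → PowerSeries K)
    (hC : ∀ j, C j = Loc3.tay htrM c ϖ hϖ (ϖ ^ e * d.cM j))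
    (hW : ∀ j, W j = Loc3.tay htr T t ht (t ^ (B T).toNat * d.v j))
    (r : {z : ι // cen htr htrM (d.ρ z) c = T} → PowerSeries K)
    (hr : ∀ z, r z = Loc3.tay htrM c ϖ hϖ (d.ρ z.1 t)) :
    (∀ j, t ^ (B T).toNat * d.v j ∈ T.toValuationSubring) ∧
      (∀ z : {z : ι // cen htr htrM (d.ρ z) c = T}, d.ρ z.1 t ∈ c.toValuationSubring) ∧
      (∀ z, PowerSeries.constantCoeff (r z) = 0) ∧ Function.Injective r ∧
      (∀ z, ∀ i < μ z.1, ∑ j, C j * (hasse i (W j)).subst (r z) = 0) ∧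
      (∑ j, PowerSeries.constantCoeff (C j) • W j).order =
        ((∑ z : {z : ι // cen htr htrM (d.ρ z) c = T}, μ z.1 : ℕ) : ℕ∞) :=
  Loc3.loc1_hyps htr htrM (Loc.toConfig d) c (fun z => cen htr htrM (d.ρ z) c)
    (fun z => isCentre_cen htr htrM (d.ρ z) c) ϖ hϖ e he he0 T t ht C W hC hW r hr

end Fermat.Agent.S27.L
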