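import Mathlib
import Fermat.Agent.S17.HB.Loc1
import Fermat.Agent.S17.HB.Loc2
import Fermat.Agent.S17.HB.Deg.Defs

/-!
# Program PJ (statement S27), strand L, leaf DB: the evaluation determinant of a group of points

`σ k : F →ₐ[K] M` (`k : Fin e`) is a finite family of embeddings of the function field `F` of the
curve into a function field `M` of one variable (a group of points of a profile configuration),
`u b` (`b : Fin e`) functions of `L(W)`, `W` any divisor of `F`.  At every place `c` of `M` the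
evaluation determinant `evalDet σ u = det [σ k (u b)]`, when it is not zero, has order at least

  `- ∑ k, ram k * W (centre k) + ∑_{k' < k} coincidence (k, k')`,

the coincidence order of two points with a common centre `T` being the order at `c` of
`σ k t - σ k' t`, `t` the chosen uniformiser `Deg.unif T` (and `0` when the centres differ).
The statement uses landed names only (`Loc2.centre`, `Loc2.ram`, `Deg.unif`), so that it serves
every indexing of the points: for a family `ρ : X → (F →ₐ[K] M)` and a group `j : Fin e → X`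
take `σ := fun k => ρ (j k)`.

Proof: with `t` the chosen uniformiser at the centre `T` of the point `k`, the row `k` is
`σ k (t) ^ (- W T)` times the row of the functions `t ^ (W T) * u b`, regular at `T`; their
expansions at `c` are the substitutions of `r k := expansion of σ k (t)` into the expansions at
`T` (LOC2), and the block Vandermonde divisibility `Loc1.vandermonde_dvd_det` (groups = centres)
gives the product of the differences `r k - r k'` over the pairs `k' < k` with a common centre;
`evalDet ≠ 0` excludes equal rows, i.e. `r k = r k'`.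
-/

set_option autoImplicit false
set_option linter.dupNamespace false
set_option linter.unusedSectionVars false

open AlgebraicCurve

namespace Fermat.Agent.S27.L.DB

open Fermat.Agent.S17 Fermat.Agent.S17.HB

section Aux

variable {K M : Type*} [Field K] [Field M] [Algebra K M]

/-- The order of a finite product of non-zero elements is the sum of the orders. -/
theorem ord_prod_ne_zero (c : Place K M) {ι : Type*} (s : Finset ι) (f : ι → M)
    (hf : ∀ i ∈ s, f i ≠ 0) : c.ord (∏ i ∈ s, f i) = ∑ i ∈ s, c.ord (f i) := by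
  classical
  induction s using Finset.induction_on with
  | empty => simp
  | insert a s ha ih =>
    rw [Finset.prod_insert ha, Finset.sum_insert ha,
      c.ord_mul (hf a (Finset.mem_insert_self a s))
        (Finset.prod_ne_zero_iff.mpr fun i hi => hf i (Finset.mem_insert_of_mem hi)),
      ih fun i hi => hf i (Finset.mem_insert_of_mem hi)]

end Aux

variable {K F M : Type*} [Field K] [Field F] [Algebra K F] [Field M] [Algebra K M]

/-- The evaluation determinant of `e` functions at a group of `e` points. -/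
noncomputable def evalDet {e : ℕ} (σ : Fin e → (F →ₐ[K] M)) (u : Fin e → F) : M :=
  (Matrix.of fun (k : Fin e) (b : Fin e) => σ k (u b)).det

theorem evalDet_def {e : ℕ} (σ : Fin e → (F →ₐ[K] M)) (u : Fin e → F) :
    evalDet σ u = (Matrix.of fun (k : Fin e) (b : Fin e) => σ k (u b)).det := rfl

/-- Two equal points give a zero evaluation determinant. -/
theorem evalDet_eq_zero_of_eq {e : ℕ} (σ : Fin e → (F →ₐ[K] M)) (u : Fin e → F) {k k' : Fin e}
    (hkk' : k ≠ k') (h : σ k = σ k') : evalDet σ u = 0 := by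
  unfold evalDet
  refine Matrix.det_zero_of_row_eq hkk' ?_
  funext b
  simp only [Matrix.of_apply]
  rw [h]

/-- A non-zero evaluation determinant: the points are pairwise distinct. -/
theorem injective_of_evalDet_ne_zero {e : ℕ} (σ : Fin e → (F →ₐ[K] M)) (u : Fin e → F)
    (hG : evalDet σ u ≠ 0) : Function.Injective σ := by
  intro k k' h
  by_contra hkk'
  exact hG (evalDet_eq_zero_of_eq σ u hkk' h)

variable [IsAlgClosed K] [CharZero K] [Algebra.EssFiniteType K F] [Algebra.EssFiniteType K M]

open Classical in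
/-- **DB, local, for a group of points.**  `u b ∈ L(W)`:
`ord_c det [σ k (u b)] ≥ - ∑_k ram k * W (centre k) + ∑_{k' < k} coincidence (k, k')`. -/
theorem ord_evalDet_ge (htr : Algebra.trdeg K F = 1) (htrM : Algebra.trdeg K M = 1) {e : ℕ}
    (σ : Fin e → (F →ₐ[K] M)) (W : Divisor K F) (u : Fin e → F)
    (hu : ∀ b, u b ∈ riemannRochSpace W) (hG : evalDet σ u ≠ 0) (c : Place K M) :
    -(∑ k : Fin e, (Loc2.ram (σ k) c : ℤ) *
        W (Loc2.centre (σ k) (Loc2.algHom_isIntegral htr htrM (σ k)) c)) +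
      ∑ k : Fin e, ∑ k' ∈ Finset.univ.filter (fun k' : Fin e => k' < k),
        (if Loc2.centre (σ k) (Loc2.algHom_isIntegral htr htrM (σ k)) c =
            Loc2.centre (σ k') (Loc2.algHom_isIntegral htr htrM (σ k')) c then
          c.ord (σ k (Deg.unif (Loc2.centre (σ k) (Loc2.algHom_isIntegral htr htrM (σ k)) c)) -
            σ k' (Deg.unif (Loc2.centre (σ k) (Loc2.algHom_isIntegral htr htrM (σ k)) c)))
        else 0) ≤ c.ord (evalDet σ u) := by
  -- centres and uniformisers
  suffices H : ∀ T : Fin e → Place K F,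
      (∀ k, Loc2.centre (σ k) (Loc2.algHom_isIntegral htr htrM (σ k)) c = T k) →
      -(∑ k : Fin e, (Loc2.ram (σ k) c : ℤ) * W (T k)) +
        ∑ k : Fin e, ∑ k' ∈ Finset.univ.filter (fun k' : Fin e => k' < k),
          (if T k = T k' then c.ord (σ k (Deg.unif (T k)) - σ k' (Deg.unif (T k))) else 0) ≤
        c.ord (evalDet σ u) from
    H (fun k => Loc2.centre (σ k) (Loc2.algHom_isIntegral htr htrM (σ k)) c) (fun _ => rfl)
  intro T hcenT
  have hT : ∀ k, (T k).toValuationSubring =
      c.toValuationSubring.comap ((σ k : F →ₐ[K] M) : F →+* M) := by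
    intro k
    rw [← hcenT k]
    rfl
  have hunit0 : ∀ S : Place K F, Deg.unif S ≠ 0 := fun S =>
    D.Taylor.unif_ne_zero S (Deg.ord_unif S)
  have hunitmem : ∀ S : Place K F, Deg.unif S ∈ S.toValuationSubring := fun S =>
    D.Taylor.unif_mem S (Deg.ord_unif S)
  -- the regularised functions `t ^ (W S) * u b` at every place `S`
  have hx : ∀ (S : Place K F) (b : Fin e), Deg.unif S ^ (W S) * u b ∈ S.toValuationSubring := by
    intro S b
    by_cases hub : u b = 0
    · rw [hub, mul_zero]
      exact zero_mem _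
    · have h1 := (mem_riemannRochSpace_iff.mp (hu b) S).resolve_left hub
      have hz : Deg.unif S ^ (W S) ≠ 0 := zpow_ne_zero _ (hunit0 S)
      rw [← Fermat.Agent.S24.FF.ord_nonneg_iff S (mul_ne_zero hz hub), S.ord_mul hz hub,
        S.ord_zpow, Deg.ord_unif, mul_one]
      omega
  -- the expansion at `c`
  obtain ⟨ϖ, hϖ⟩ := Deg.exists_ord_eq_one c
  have hϖm : ϖ ∈ c.toValuationSubring := D.Taylor.unif_mem c hϖ
  obtain ⟨τc, hτcdef⟩ : ∃ τc : ↥c.toValuationSubring →ₐ[K] PowerSeries K,
      τc = D.Taylor.taylor htrM c ϖ hϖ := ⟨_, rfl⟩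
  have hτc : τc ⟨ϖ, hϖm⟩ = PowerSeries.X := by
    rw [hτcdef]
    exact D.Taylor.taylor_unif htrM c ϖ hϖ hϖm
  -- the expansions at the places of `F`
  obtain ⟨τ, hτdef⟩ : ∃ τ : ∀ S : Place K F, ↥S.toValuationSubring →ₐ[K] PowerSeries K,
      τ = fun S => D.Taylor.taylor htr S (Deg.unif S) (Deg.ord_unif S) := ⟨_, rfl⟩
  have hτ : ∀ S, τ S ⟨Deg.unif S, hunitmem S⟩ = PowerSeries.X := by
    intro S
    rw [hτdef]
    exact D.Taylor.taylor_unif htr S (Deg.unif S) (Deg.ord_unif S) (hunitmem S)
  -- the local coordinates of the points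
  have hexp := fun k => Loc2.expansion_of_comap_eq htr htrM (σ k) c (T k) (hT k)
    ⟨Deg.unif (T k), hunitmem (T k)⟩ (Deg.ord_unif (T k)) (τ (T k)) (hτ (T k)) ⟨ϖ, hϖm⟩ hϖ τc hτc
  obtain ⟨r, hrdef⟩ : ∃ r : Fin e → PowerSeries K, r = fun k =>
      τc (Loc2.comapHom (σ k) c (T k) (hT k) ⟨Deg.unif (T k), hunitmem (T k)⟩) := ⟨_, rfl⟩
  have hr0 : ∀ k, PowerSeries.constantCoeff (r k) = 0 := by
    intro k
    rw [hrdef]
    exact (hexp k).1
  -- the matrix of the regularised rows, with entries in the local ring of `c`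
  obtain ⟨A, hAdef⟩ : ∃ A : Matrix (Fin e) (Fin e) ↥c.toValuationSubring,
      A = Matrix.of fun k b => Loc2.comapHom (σ k) c (T k) (hT k)
        ⟨Deg.unif (T k) ^ (W (T k)) * u b, hx (T k) b⟩ := ⟨_, rfl⟩
  obtain ⟨f, hfdef⟩ : ∃ f : Place K F → Fin e → PowerSeries K,
      f = fun S b => τ S ⟨Deg.unif S ^ (W S) * u b, hx S b⟩ := ⟨_, rfl⟩
  have hAexp : τc A.det = Matrix.det (Matrix.of fun k b => (f (T k) b).subst (r k)) := by
    rw [AlgHom.map_det]
    congr 1
    refine Matrix.ext fun k b => ?_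
    rw [hAdef, hfdef, hrdef]
    simp only [AlgHom.mapMatrix_apply, Matrix.map_apply, Matrix.of_apply]
    exact (hexp k).2 _
  -- block Vandermonde
  have hV := Loc1.vandermonde_dvd_det T r hr0 f
  rw [← hAexp] at hV
  -- distinct rows
  have hne : ∀ k k' : Fin e, k ≠ k' → σ k ≠ σ k' := fun k k' hkk' h =>
    hG (evalDet_eq_zero_of_eq σ u hkk' h)
  have hdiff : ∀ k k' : Fin e, k ≠ k' → T k' = T k →
      σ k (Deg.unif (T k)) - σ k' (Deg.unif (T k)) ≠ 0 := by
    intro k k' hkk' hTT h0
    refine hne k k' hkk' (Loc2.eq_of_comap_eq_of_map_unif_eq htr htrM (σ k)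
      (σ k') c (T k) (hT k) ?_ (Deg.unif (T k)) (Deg.ord_unif (T k)) (sub_eq_zero.mp h0))
    rw [← hTT]
    exact hT k'
  -- the coincidence orders as divisibilities
  have hdvd : ∀ k k' : Fin e, k' < k → T k' = T k →
      (PowerSeries.X : PowerSeries K) ^
          (c.ord (σ k (Deg.unif (T k)) - σ k' (Deg.unif (T k)))).toNat ∣ r k - r k' ∧
        0 ≤ c.ord (σ k (Deg.unif (T k)) - σ k' (Deg.unif (T k))) := by
    intro k k' hlt hTT
    obtain ⟨a, ha⟩ : ∃ a : ↥c.toValuationSubring, a =
        Loc2.comapHom (σ k) c (T k) (hT k) ⟨Deg.unif (T k), hunitmem (T k)⟩ -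
          Loc2.comapHom (σ k') c (T k') (hT k') ⟨Deg.unif (T k'), hunitmem (T k')⟩ :=
      ⟨_, rfl⟩
    have hacoe : (a : M) = σ k (Deg.unif (T k)) - σ k' (Deg.unif (T k)) := by
      rw [ha]
      show σ k (Deg.unif (T k)) - σ k' (Deg.unif (T k')) = _
      rw [hTT]
    have hnn : 0 ≤ c.ord (a : M) := Fermat.Agent.S24.FF.ord_nonneg_of_mem c a.2
    have hra : r k - r k' = τc a := by
      rw [hrdef, ha, map_sub]
    refine ⟨?_, by rw [← hacoe]; exact hnn⟩
    rw [hra, hτcdef, D.Taylor.X_pow_dvd_taylor_iff htrM c ϖ hϖ a]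
    right
    rw [← hacoe, Int.toNat_of_nonneg hnn]
  -- the row factors
  obtain ⟨v, hvdef⟩ : ∃ v : Fin e → M,
      v = fun k => (σ k (Deg.unif (T k))) ^ (-(W (T k))) := ⟨_, rfl⟩
  have hρt0 : ∀ k, σ k (Deg.unif (T k)) ≠ 0 := fun k =>
    (map_ne_zero (σ k)).mpr (hunit0 (T k))
  have hv0 : ∀ k, v k ≠ 0 := by
    intro k
    rw [hvdef]
    exact zpow_ne_zero _ (hρt0 k)
  have hordv : ∀ k, c.ord (v k) = -((Loc2.ram (σ k) c : ℤ) * W (T k)) := by
    intro k
    have h1 : (Loc2.centre (σ k) (Loc2.algHom_isIntegral htr htrM (σ k)) c).ord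
        (Deg.unif (T k)) = 1 := by
      rw [hcenT k]
      exact Deg.ord_unif _
    have h2 : v k = (σ k (Deg.unif (T k))) ^ (-(W (T k))) := by
      rw [hvdef]
    rw [h2, c.ord_zpow, Loc2.ord_map (σ k) (Loc2.algHom_isIntegral htr htrM (σ k)) c
      (Deg.unif (T k)), h1]
    ring
  have hAcoe : ((A.det : ↥c.toValuationSubring) : M) =
      (Matrix.of fun k b => σ k (Deg.unif (T k) ^ (W (T k)) * u b)).det := by
    have h1 := RingHom.map_det (c.toValuationSubring.subtype) A
    have h2 : ((A.det : ↥c.toValuationSubring) : M) = c.toValuationSubring.subtype A.det := rfl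
    rw [h2, h1]
    congr 1
    refine Matrix.ext fun k b => ?_
    rw [hAdef]
    rfl
  have hfac : evalDet σ u = (∏ k, v k) * ((A.det : ↥c.toValuationSubring) : M) := by
    rw [hAcoe, ← Matrix.det_mul_column]
    unfold evalDet
    congr 1
    refine Matrix.ext fun k b => ?_
    simp only [Matrix.of_apply]
    have h2 : v k = (σ k (Deg.unif (T k))) ^ (-(W (T k))) := by
      rw [hvdef]
    rw [h2, map_mul, map_zpow₀, ← mul_assoc, ← zpow_add₀ (hρt0 k), neg_add_cancel, zpow_zero,
      one_mul]
  have hPne : (∏ k, v k) ≠ 0 := Finset.prod_ne_zero_iff.mpr fun k _ => hv0 k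
  have hAne : ((A.det : ↥c.toValuationSubring) : M) ≠ 0 := by
    intro h0
    apply hG
    rw [hfac, h0, mul_zero]
  -- the order of `det A`
  have hN : (∑ k : Fin e, ∑ k' ∈ Finset.univ.filter (fun k' : Fin e => k' < k ∧ T k' = T k),
      ((c.ord (σ k (Deg.unif (T k)) - σ k' (Deg.unif (T k)))).toNat : ℤ)) ≤
        c.ord ((A.det : ↥c.toValuationSubring) : M) := by
    have h1 : (PowerSeries.X : PowerSeries K) ^
        (∑ k : Fin e, ∑ k' ∈ Finset.univ.filter (fun k' : Fin e => k' < k ∧ T k' = T k),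
          (c.ord (σ k (Deg.unif (T k)) - σ k' (Deg.unif (T k)))).toNat) ∣ τc A.det := by
      refine dvd_trans ?_ hV
      rw [← Finset.prod_pow_eq_pow_sum]
      refine Finset.prod_dvd_prod_of_dvd _ _ fun k _ => ?_
      rw [← Finset.prod_pow_eq_pow_sum]
      refine Finset.prod_dvd_prod_of_dvd _ _ fun k' hk' => ?_
      rw [Finset.mem_filter] at hk'
      exact (hdvd k k' hk'.2.1 hk'.2.2).1
    rw [hτcdef, D.Taylor.X_pow_dvd_taylor_iff htrM c ϖ hϖ A.det] at h1
    rcases h1 with h1 | h1
    · exact absurd h1 hAne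
    · exact_mod_cast h1
  have hsum : ∑ k : Fin e, ∑ k' ∈ Finset.univ.filter (fun k' : Fin e => k' < k),
        (if T k = T k' then c.ord (σ k (Deg.unif (T k)) - σ k' (Deg.unif (T k))) else 0) =
      ∑ k : Fin e, ∑ k' ∈ Finset.univ.filter (fun k' : Fin e => k' < k ∧ T k' = T k),
        ((c.ord (σ k (Deg.unif (T k)) - σ k' (Deg.unif (T k)))).toNat : ℤ) := by
    refine Finset.sum_congr rfl fun k _ => ?_
    rw [← Finset.filter_filter, Finset.sum_filter
      (s := Finset.univ.filter fun k' : Fin e => k' < k) (p := fun k' => T k' = T k)]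
    refine Finset.sum_congr rfl fun k' hk' => ?_
    rw [Finset.mem_filter] at hk'
    by_cases hTT : T k' = T k
    · rw [if_pos hTT, if_pos hTT.symm, Int.toNat_of_nonneg (hdvd k k' hk'.2 hTT).2]
    · rw [if_neg hTT, if_neg (fun h => hTT h.symm)]
  -- conclusion
  have hordP : c.ord (∏ k, v k) = -(∑ k : Fin e, (Loc2.ram (σ k) c : ℤ) * W (T k)) := by
    rw [ord_prod_ne_zero c Finset.univ v fun k _ => hv0 k, ← Finset.sum_neg_distrib]
    exact Finset.sum_congr rfl fun k _ => hordv k
  rw [hfac, c.ord_mul hPne hAne, hordP, hsum]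
  exact add_le_add_right hN _

end Fermat.Agent.S27.L.DB
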