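import Mathlib
import Fermat.Agent.S17.D.SubstEst
import Fermat.Agent.S17.HB.Loc2
import Fermat.Agent.S17.HB.Deg.Defs
import Fermat.Agent.S27.L.Defs
import Fermat.Agent.S27.L.DB

/-!
# Program PJ (statement S27), strand L: the evaluation determinant detects special tuples

`σ k : F →ₐ[K] M` (`k : Fin e`) a group of points of a configuration, `u b` (`b : Fin e`)
functions spanning `L(W)`, `D = DB.evalDet σ u = det [σ k (u b)] ≠ 0`.  At a place `c` of `M`
with centres `T k`, `DB.ord_evalDet_ge` gives `ord_c D ≥ - ∑ k, ram k * W (T k)`.  Here: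

  if `ord_c D ≤ - ∑ k, ram k * W (T k)` (the bound is attained), then `L(W - ∑ k, T k) = 0`

(`forall_eq_zero_of_ord_evalDet_le`); in particular if `ord_c D = 0` and `W` vanishes at the
centres (`forall_eq_zero_of_ord_evalDet_eq_zero`).  Both conditions fail at finitely many places
only, so this is the PROPAGATION of non-speciality from one place to almost all places: with
`DetNe.evalDet_ne_zero_of_place` (`D ≠ 0` from one place with independent centres), the centres
impose independent conditions on `L(W)` at all places off the support of `div D` and off the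
fibres over the support of `W`.

Proof: a section `f = ∑ a b • u b ≠ 0` of `L(W - ∑ T k)` makes every regularised function
`t ^ (W T) * f` vanish at its centre `T = T k`, so the vector `a ≠ 0` is in the kernel of the
matrix of the values at the centres of the regularised rows; this matrix is the residue at `c` of
the regularised matrix `A` of `DB`, so `det A` vanishes at `c`, and
`ord_c det A = ord_c D + ∑ k, ram k * W (T k)`.
-/

set_option autoImplicit false
set_option linter.dupNamespace false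
set_option linter.unusedSectionVars false

open AlgebraicCurve

namespace Fermat.Agent.S27.L.DetConv

open Fermat.Agent.S17 Fermat.Agent.S17.HB

variable {K F M : Type*} [Field K] [Field F] [Algebra K F] [Field M] [Algebra K M]
variable [IsAlgClosed K] [CharZero K] [Algebra.EssFiniteType K F] [Algebra.EssFiniteType K M]

/-- **The evaluation determinant detects special tuples.**  `u` spans `L(W)`, the determinant is
not zero and its order at `c` is at most the row bound `- ∑ k, ram k * W (centre k)`: then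
`L(W - ∑ centres) = 0`. -/
theorem forall_eq_zero_of_ord_evalDet_le (htr : Algebra.trdeg K F = 1)
    (htrM : Algebra.trdeg K M = 1) {e : ℕ} (σ : Fin e → (F →ₐ[K] M)) (W : Divisor K F)
    (u : Fin e → F) (hu : ∀ b, u b ∈ riemannRochSpace W)
    (hspan : riemannRochSpace W ≤ Submodule.span K (Set.range u))
    (hG : DB.evalDet σ u ≠ 0) (c : Place K M)
    (hord : c.ord (DB.evalDet σ u) ≤
      -(∑ k, (Loc2.ram (σ k) c : ℤ) * W (cen htr htrM (σ k) c))) :
    ∀ f ∈ riemannRochSpace (W - ∑ k, Finsupp.single (cen htr htrM (σ k) c) (1 : ℤ)), f = 0 := by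
  classical
  intro f₀ hf₀
  by_contra hf₀ne
  -- centres and uniformisers
  obtain ⟨T, hTdef⟩ : ∃ T : Fin e → Place K F, T = fun k => cen htr htrM (σ k) c := ⟨_, rfl⟩
  have hT : ∀ k, (T k).toValuationSubring =
      c.toValuationSubring.comap ((σ k : F →ₐ[K] M) : F →+* M) := by
    intro k
    rw [hTdef]
    rfl
  have hcenT : ∀ k, cen htr htrM (σ k) c = T k := by
    intro k
    rw [hTdef]
  have hf₀' : f₀ ∈ riemannRochSpace (W - ∑ k, Finsupp.single (T k) (1 : ℤ)) := by
    rw [hTdef]
    exact hf₀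
  have hord' : c.ord (DB.evalDet σ u) ≤ -(∑ k, (Loc2.ram (σ k) c : ℤ) * W (T k)) := by
    rw [hTdef]
    exact hord
  have hunit0 : ∀ S : Place K F, Deg.unif S ≠ 0 := fun S =>
    D.Taylor.unif_ne_zero S (Deg.ord_unif S)
  have hunitmem : ∀ S : Place K F, Deg.unif S ∈ S.toValuationSubring := fun S =>
    D.Taylor.unif_mem S (Deg.ord_unif S)
  -- the value of the divisor `W - ∑ T k`
  have hval : ∀ S : Place K F, (W - ∑ k, Finsupp.single (T k) (1 : ℤ)) S =
      W S - ∑ k, (if T k = S then (1 : ℤ) else 0) := by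
    intro S
    rw [Finsupp.sub_apply, Finsupp.finsetSum_apply]
    congr 1
    refine Finset.sum_congr rfl fun k _ => ?_
    rw [Finsupp.single_apply]
  have hsum0 : ∀ S : Place K F, (0 : ℤ) ≤ ∑ k, (if T k = S then (1 : ℤ) else 0) := by
    intro S
    refine Finset.sum_nonneg fun k _ => ?_
    split_ifs
    · exact zero_le_one
    · exact le_refl _
  have hsum1 : ∀ k₀ : Fin e, (1 : ℤ) ≤ ∑ k, (if T k = T k₀ then (1 : ℤ) else 0) := by
    intro k₀
    have h := Finset.single_le_sum (f := fun k => if T k = T k₀ then (1 : ℤ) else 0)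
      (fun k _ => by split_ifs <;> simp) (Finset.mem_univ k₀)
    simpa using h
  -- `f₀ ∈ L(W)`
  have hf₀L : f₀ ∈ riemannRochSpace W := by
    rw [mem_riemannRochSpace_iff]
    intro S
    right
    have h := (mem_riemannRochSpace_iff.mp hf₀' S).resolve_left hf₀ne
    rw [hval S] at h
    have h0 := hsum0 S
    omega
  -- the regularised functions `t ^ (W S) * w`, `w ∈ L(W)`, at every place `S`
  have hx : ∀ (S : Place K F) (w : F), w ∈ riemannRochSpace W →
      Deg.unif S ^ (W S) * w ∈ S.toValuationSubring := by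
    intro S w hw
    by_cases hw0 : w = 0
    · rw [hw0, mul_zero]
      exact zero_mem _
    · have h1 := (mem_riemannRochSpace_iff.mp hw S).resolve_left hw0
      have hz : Deg.unif S ^ (W S) ≠ 0 := zpow_ne_zero _ (hunit0 S)
      rw [← Fermat.Agent.S24.FF.ord_nonneg_iff S (mul_ne_zero hz hw0), S.ord_mul hz hw0,
        S.ord_zpow, Deg.ord_unif, mul_one]
      omega
  -- the expansion at `c`
  obtain ⟨ϖ, hϖ⟩ := Deg.exists_ord_eq_one c
  have hϖm : ϖ ∈ c.toValuationSubring := D.Taylor.unif_mem c hϖ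
  obtain ⟨τc, hτcdef⟩ : ∃ τc : ↥c.toValuationSubring →ₐ[K] PowerSeries K,
      τc = D.Taylor.taylor htrM c ϖ hϖ := ⟨_, rfl⟩
  have hτc : τc ⟨ϖ, hϖm⟩ = PowerSeries.X := by
    rw [hτcdef]
    exact D.Taylor.taylor_unif htrM c ϖ hϖ hϖm
  -- the expansions at the places of `F`
  obtain ⟨τ, hτdef⟩ : ∃ τ : ∀ S : Place K F, ↥S.toValuationSubring →ₐ[K] PowerSeries K,
      τ = fun S => D.Taylor.taylor htr S (Deg.unif S) (Deg.ord_unif S) := ⟨_, rfl⟩
  have hτ : ∀ S, τ S ⟨Deg.unif S, hunitmem S⟩ = PowerSeries.X := by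
    intro S
    rw [hτdef]
    exact D.Taylor.taylor_unif htr S (Deg.unif S) (Deg.ord_unif S) (hunitmem S)
  -- the local coordinates of the points
  have hexp := fun k => Loc2.expansion_of_comap_eq htr htrM (σ k) c (T k) (hT k)
    ⟨Deg.unif (T k), hunitmem (T k)⟩ (Deg.ord_unif (T k)) (τ (T k)) (hτ (T k)) ⟨ϖ, hϖm⟩ hϖ τc hτc
  obtain ⟨r, hrdef⟩ : ∃ r : Fin e → PowerSeries K, r = fun k =>
      τc (Loc2.comapHom (σ k) c (T k) (hT k) ⟨Deg.unif (T k), hunitmem (T k)⟩) := ⟨_, rfl⟩
  have hr0 : ∀ k, PowerSeries.constantCoeff (r k) = 0 := by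
    intro k
    rw [hrdef]
    exact (hexp k).1
  -- the matrix of the regularised rows, with entries in the local ring of `c`
  obtain ⟨A, hAdef⟩ : ∃ A : Matrix (Fin e) (Fin e) ↥c.toValuationSubring,
      A = Matrix.of fun k b => Loc2.comapHom (σ k) c (T k) (hT k)
        ⟨Deg.unif (T k) ^ (W (T k)) * u b, hx (T k) (u b) (hu b)⟩ := ⟨_, rfl⟩
  obtain ⟨f, hfdef⟩ : ∃ f : Place K F → Fin e → PowerSeries K,
      f = fun S b => τ S ⟨Deg.unif S ^ (W S) * u b, hx S (u b) (hu b)⟩ := ⟨_, rfl⟩
  have hf_apply : ∀ S b, f S b = τ S ⟨Deg.unif S ^ (W S) * u b, hx S (u b) (hu b)⟩ := by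
    intro S b
    rw [hfdef]
  have hAexp : τc A.det = Matrix.det (Matrix.of fun k b => (f (T k) b).subst (r k)) := by
    rw [AlgHom.map_det]
    congr 1
    refine Matrix.ext fun k b => ?_
    rw [hAdef, hfdef, hrdef]
    simp only [AlgHom.mapMatrix_apply, Matrix.map_apply, Matrix.of_apply]
    exact (hexp k).2 _
  have hAcoe : ((A.det : ↥c.toValuationSubring) : M) =
      (Matrix.of fun k b => σ k (Deg.unif (T k) ^ (W (T k)) * u b)).det := by
    have h1 := RingHom.map_det (c.toValuationSubring.subtype) A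
    have h2 : ((A.det : ↥c.toValuationSubring) : M) = c.toValuationSubring.subtype A.det := rfl
    rw [h2, h1]
    congr 1
    refine Matrix.ext fun k b => ?_
    rw [hAdef]
    rfl
  have hreg : ((A.det : ↥c.toValuationSubring) : M) =
      (∏ k, (σ k (Deg.unif (T k))) ^ (W (T k))) * DB.evalDet σ u := by
    rw [hAcoe, DB.evalDet_def, ← Matrix.det_mul_column]
    congr 1
    refine Matrix.ext fun k b => ?_
    simp only [Matrix.of_apply]
    rw [map_mul, map_zpow₀]
  -- the order of `det A`
  have hρt0 : ∀ k, σ k (Deg.unif (T k)) ≠ 0 := fun k =>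
    (map_ne_zero (σ k)).mpr (hunit0 (T k))
  have hv0 : ∀ k, (σ k (Deg.unif (T k))) ^ (W (T k)) ≠ 0 := fun k => zpow_ne_zero _ (hρt0 k)
  have hPne : (∏ k, (σ k (Deg.unif (T k))) ^ (W (T k))) ≠ 0 :=
    Finset.prod_ne_zero_iff.mpr fun k _ => hv0 k
  have hordv : ∀ k, c.ord ((σ k (Deg.unif (T k))) ^ (W (T k))) =
      (Loc2.ram (σ k) c : ℤ) * W (T k) := by
    intro k
    have h1 : (cen htr htrM (σ k) c).ord (Deg.unif (T k)) = 1 := by
      rw [hcenT k]
      exact Deg.ord_unif _
    rw [c.ord_zpow, ord_map htr htrM (σ k) c (Deg.unif (T k)), h1]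
    ring
  have hordA : c.ord ((A.det : ↥c.toValuationSubring) : M) =
      ∑ k, (Loc2.ram (σ k) c : ℤ) * W (T k) + c.ord (DB.evalDet σ u) := by
    rw [hreg, c.ord_mul hPne hG, DB.ord_prod_ne_zero c Finset.univ _ fun k _ => hv0 k]
    congr 1
    exact Finset.sum_congr rfl fun k _ => hordv k
  have hAne : ((A.det : ↥c.toValuationSubring) : M) ≠ 0 := by
    rw [hreg]
    exact mul_ne_zero hPne hG
  -- the coefficients of `f₀`
  obtain ⟨a, ha⟩ := (Submodule.mem_span_range_iff_exists_fun K).mp (hspan hf₀L)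
  have ha0 : a ≠ 0 := by
    intro h0
    apply hf₀ne
    rw [← ha, h0]
    simp
  have hxk : ∀ k, (⟨Deg.unif (T k) ^ (W (T k)) * f₀, hx (T k) f₀ hf₀L⟩ :
        ↥(T k).toValuationSubring) =
      ∑ b, a b • (⟨Deg.unif (T k) ^ (W (T k)) * u b, hx (T k) (u b) (hu b)⟩ :
        ↥(T k).toValuationSubring) := by
    intro k
    apply Subtype.ext
    have h1 := map_sum (T k).toValuationSubring.subtype
      (fun b => a b • (⟨Deg.unif (T k) ^ (W (T k)) * u b, hx (T k) (u b) (hu b)⟩ :
        ↥(T k).toValuationSubring)) Finset.univ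
    refine Eq.trans ?_ h1.symm
    show Deg.unif (T k) ^ (W (T k)) * f₀ =
      ∑ b, algebraMap K F (a b) * (Deg.unif (T k) ^ (W (T k)) * u b)
    rw [← ha, Finset.mul_sum]
    refine Finset.sum_congr rfl fun b _ => ?_
    rw [Algebra.smul_def]
    ring
  -- the regularised section vanishes at every centre
  have hpos : ∀ k, 0 < (T k).ord (Deg.unif (T k) ^ (W (T k)) * f₀) := by
    intro k
    have h := (mem_riemannRochSpace_iff.mp hf₀' (T k)).resolve_left hf₀ne
    rw [hval (T k)] at h
    have h1 := hsum1 k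
    rw [(T k).ord_mul (zpow_ne_zero _ (hunit0 _)) hf₀ne, (T k).ord_zpow, Deg.ord_unif, mul_one]
    omega
  have hcc : ∀ k, PowerSeries.constantCoeff
      (τ (T k) ⟨Deg.unif (T k) ^ (W (T k)) * f₀, hx (T k) f₀ hf₀L⟩) = 0 := by
    intro k
    refine (Loc2.constantCoeff_eq_iff htr (T k) ⟨Deg.unif (T k), hunitmem (T k)⟩
      (Deg.ord_unif (T k)) (τ (T k)) (hτ (T k))
      ⟨Deg.unif (T k) ^ (W (T k)) * f₀, hx (T k) f₀ hf₀L⟩ 0).mpr (Or.inr ?_)
    rw [map_zero, sub_zero]
    exact hpos k
  have hrow : ∀ k, ∑ b, PowerSeries.constantCoeff (f (T k) b) * a b = 0 := by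
    intro k
    rw [← hcc k, hxk k, map_sum, map_sum]
    refine Finset.sum_congr rfl fun b _ => ?_
    rw [map_smul, ← hf_apply]
    have h := (PowerSeries.coeff (R := K) 0).map_smul (a b) (f (T k) b)
    simp only [PowerSeries.coeff_zero_eq_constantCoeff_apply, smul_eq_mul] at h
    rw [h, mul_comm]
  -- the matrix of the values at the centres is singular
  have hN : (Matrix.of fun k b => PowerSeries.constantCoeff (f (T k) b)).det = 0 := by
    refine Matrix.exists_mulVec_eq_zero_iff.mp ⟨a, ha0, ?_⟩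
    funext k
    simp only [Matrix.mulVec, dotProduct, Matrix.of_apply, Pi.zero_apply]
    exact hrow k
  have hcA : PowerSeries.constantCoeff (τc A.det) = 0 := by
    rw [hAexp, RingHom.map_det, ← hN]
    congr 1
    refine Matrix.ext fun k b => ?_
    simp only [RingHom.mapMatrix_apply, Matrix.map_apply, Matrix.of_apply]
    have h3 := D.SubstEst.dvd_subst_sub_C (f (T k) b) (PowerSeries.X_dvd_iff.mpr (hr0 k))
    rw [PowerSeries.X_dvd_iff, map_sub, PowerSeries.constantCoeff_C, sub_eq_zero] at h3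
    exact h3
  -- `det A` vanishes at `c`
  have hApos : 0 < c.ord ((A.det : ↥c.toValuationSubring) : M) := by
    rw [hτcdef] at hcA
    have h := (D.Taylor.constantCoeff_taylor_eq_iff htrM c ϖ hϖ A.det 0).mp hcA
    rw [map_zero, sub_zero] at h
    rcases h with h | h
    · exact absurd h hAne
    · exact h
  rw [hordA] at hApos
  omega

/-- The same at a place where the determinant is a unit and `W` vanishes at the centres. -/
theorem forall_eq_zero_of_ord_evalDet_eq_zero (htr : Algebra.trdeg K F = 1)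
    (htrM : Algebra.trdeg K M = 1) {e : ℕ} (σ : Fin e → (F →ₐ[K] M)) (W : Divisor K F)
    (u : Fin e → F) (hu : ∀ b, u b ∈ riemannRochSpace W)
    (hspan : riemannRochSpace W ≤ Submodule.span K (Set.range u))
    (hG : DB.evalDet σ u ≠ 0) (c : Place K M) (hord : c.ord (DB.evalDet σ u) = 0)
    (hW : ∀ k, W (cen htr htrM (σ k) c) = 0) :
    ∀ f ∈ riemannRochSpace (W - ∑ k, Finsupp.single (cen htr htrM (σ k) c) (1 : ℤ)), f = 0 := by
  refine forall_eq_zero_of_ord_evalDet_le htr htrM σ W u hu hspan hG c ?_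
  rw [hord, Finset.sum_eq_zero fun k _ => by rw [hW k, mul_zero], neg_zero]

end Fermat.Agent.S27.L.DetConv
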