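import Mathlib
import Fermat.Agent.S17.R.LSpace
import Fermat.Agent.S17.R.LStep
import Fermat.Agent.S17.R.RiemannRoch
import Fermat.Agent.S17.R.NonSpecialStep
import Fermat.Agent.S17.R.SpecialJump
import Fermat.Agent.S17.R.CanonicalOff
import Fermat.Agent.S17.D.SubstEst
import Fermat.Agent.S17.HB.Loc2
import Fermat.Agent.S17.HB.Deg.Defs
import Fermat.Agent.S27.L.Defs
import Fermat.Agent.S27.L.DB

/-!
# Program PJ (statement S27), strand L: the evaluation determinant is not zero (base place)

`σ k : F →ₐ[K] M` (`k : Fin e`) a group of points of a configuration, `u b` (`b : Fin e`)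
linearly independent functions of `L(W)`.  If at ONE place `c` of `M` the centres `T k` of the
points are pairwise distinct and `L(W - ∑ k, T k) = 0` (the centres impose independent conditions
on `L(W)`), then the evaluation determinant `DB.evalDet σ u = det [σ k (u b)]` is not zero.

This is the producer of the hypothesis `hdet` of the exits of strand L (`bound_G`, `bound_F`):
at the base place of a configuration the centres are the points of the base solution, and
`L(W - ∑ T k) = 0` is their non-speciality (`W = W_can - D''`).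

* `evalDet_ne_zero_of_place` : the local statement above;
* `exists_sections` : the curve half.  `E` a set of `gR` places with `l(∑ E) = 1` (non-special),
  `S ⊆ E`: with `W_can` a canonical divisor and `D'' = ∑ (E \ S)`, the divisor `W = W_can - D''`
  has degree `gR + |S| - 2`, `l(W) ≥ |S|` and `L(W - ∑ S) = L(W_can - ∑ E) = 0`;
* `exists_evalDet_ne_zero` : the two together.  If at one place `c` the centres of the points
  `σ k` (`k : Fin e`) are pairwise distinct and lie in a non-special set `E` of `gR` places, there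
  are `W` of degree `gR + e - 2` and `u b ∈ L(W)` with `DB.evalDet σ u ≠ 0`.

Proof: as in `DB`, row `k` of the matrix is `σ k (t) ^ (- W T)` (`t` the uniformiser at the
centre `T = T k`) times the row of the functions `t ^ (W T) * u b`, regular at `T`; if the
determinant vanished, so would the determinant of the values at `c` of the regularised matrix,
which are the values at `T k` of `t ^ (W T) * u b`; a vector `λ ≠ 0` of its kernel gives the
function `w = ∑ λ b • u b` of `L(W)` with `t ^ (W T) * w` vanishing at every centre, i.e.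
`w ∈ L(W - ∑ T k) = 0`, against the linear independence of the `u b`.
-/

set_option autoImplicit false
set_option linter.dupNamespace false
set_option linter.unusedSectionVars false

open AlgebraicCurve

namespace Fermat.Agent.S27.L.DetNe

open Fermat.Agent.S17 Fermat.Agent.S17.HB

variable {K F M : Type*} [Field K] [Field F] [Algebra K F] [Field M] [Algebra K M]
variable [IsAlgClosed K] [CharZero K] [Algebra.EssFiniteType K F] [Algebra.EssFiniteType K M]

/-- **The evaluation determinant is not zero.**  Centres pairwise distinct at one place `c`,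
`u` linearly independent in `L(W)` and `L(W - ∑ centres) = 0`. -/
theorem evalDet_ne_zero_of_place (htr : Algebra.trdeg K F = 1) (htrM : Algebra.trdeg K M = 1)
    {e : ℕ} (σ : Fin e → (F →ₐ[K] M)) (W : Divisor K F) (u : Fin e → F)
    (hu : ∀ b, u b ∈ riemannRochSpace W) (hli : LinearIndependent K u) (c : Place K M)
    (hinj : Function.Injective fun k => cen htr htrM (σ k) c)
    (hW : ∀ f ∈ riemannRochSpace (W - ∑ k, Finsupp.single (cen htr htrM (σ k) c) (1 : ℤ)),
      f = 0) :
    DB.evalDet σ u ≠ 0 := by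
  classical
  intro hdet0
  -- centres and uniformisers
  obtain ⟨T, hTdef⟩ : ∃ T : Fin e → Place K F, T = fun k => cen htr htrM (σ k) c := ⟨_, rfl⟩
  have hT : ∀ k, (T k).toValuationSubring =
      c.toValuationSubring.comap ((σ k : F →ₐ[K] M) : F →+* M) := by
    intro k
    rw [hTdef]
    rfl
  have hTinj : Function.Injective T := by
    rw [hTdef]
    exact hinj
  have hW' : ∀ f ∈ riemannRochSpace (W - ∑ k, Finsupp.single (T k) (1 : ℤ)), f = 0 := by
    rw [hTdef]
    exact hW
  have hunit0 : ∀ S : Place K F, Deg.unif S ≠ 0 := fun S =>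
    D.Taylor.unif_ne_zero S (Deg.ord_unif S)
  have hunitmem : ∀ S : Place K F, Deg.unif S ∈ S.toValuationSubring := fun S =>
    D.Taylor.unif_mem S (Deg.ord_unif S)
  -- the regularised functions `t ^ (W S) * w`, `w ∈ L(W)`, at every place `S`
  have hx : ∀ (S : Place K F) (w : F), w ∈ riemannRochSpace W →
      Deg.unif S ^ (W S) * w ∈ S.toValuationSubring := by
    intro S w hw
    by_cases hw0 : w = 0
    · rw [hw0, mul_zero]
      exact zero_mem _
    · have h1 := (mem_riemannRochSpace_iff.mp hw S).resolve_left hw0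
      have hz : Deg.unif S ^ (W S) ≠ 0 := zpow_ne_zero _ (hunit0 S)
      rw [← Fermat.Agent.S24.FF.ord_nonneg_iff S (mul_ne_zero hz hw0), S.ord_mul hz hw0,
        S.ord_zpow, Deg.ord_unif, mul_one]
      omega
  -- the expansion at `c`
  obtain ⟨ϖ, hϖ⟩ := Deg.exists_ord_eq_one c
  have hϖm : ϖ ∈ c.toValuationSubring := D.Taylor.unif_mem c hϖ
  obtain ⟨τc, hτcdef⟩ : ∃ τc : ↥c.toValuationSubring →ₐ[K] PowerSeries K,
      τc = D.Taylor.taylor htrM c ϖ hϖ := ⟨_, rfl⟩
  have hτc : τc ⟨ϖ, hϖm⟩ = PowerSeries.X := by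
    rw [hτcdef]
    exact D.Taylor.taylor_unif htrM c ϖ hϖ hϖm
  -- the expansions at the places of `F`
  obtain ⟨τ, hτdef⟩ : ∃ τ : ∀ S : Place K F, ↥S.toValuationSubring →ₐ[K] PowerSeries K,
      τ = fun S => D.Taylor.taylor htr S (Deg.unif S) (Deg.ord_unif S) := ⟨_, rfl⟩
  have hτ : ∀ S, τ S ⟨Deg.unif S, hunitmem S⟩ = PowerSeries.X := by
    intro S
    rw [hτdef]
    exact D.Taylor.taylor_unif htr S (Deg.unif S) (Deg.ord_unif S) (hunitmem S)
  -- the local coordinates of the points
  have hexp := fun k => Loc2.expansion_of_comap_eq htr htrM (σ k) c (T k) (hT k)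
    ⟨Deg.unif (T k), hunitmem (T k)⟩ (Deg.ord_unif (T k)) (τ (T k)) (hτ (T k)) ⟨ϖ, hϖm⟩ hϖ τc hτc
  obtain ⟨r, hrdef⟩ : ∃ r : Fin e → PowerSeries K, r = fun k =>
      τc (Loc2.comapHom (σ k) c (T k) (hT k) ⟨Deg.unif (T k), hunitmem (T k)⟩) := ⟨_, rfl⟩
  have hr0 : ∀ k, PowerSeries.constantCoeff (r k) = 0 := by
    intro k
    rw [hrdef]
    exact (hexp k).1
  -- the matrix of the regularised rows, with entries in the local ring of `c`
  obtain ⟨A, hAdef⟩ : ∃ A : Matrix (Fin e) (Fin e) ↥c.toValuationSubring,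
      A = Matrix.of fun k b => Loc2.comapHom (σ k) c (T k) (hT k)
        ⟨Deg.unif (T k) ^ (W (T k)) * u b, hx (T k) (u b) (hu b)⟩ := ⟨_, rfl⟩
  obtain ⟨f, hfdef⟩ : ∃ f : Place K F → Fin e → PowerSeries K,
      f = fun S b => τ S ⟨Deg.unif S ^ (W S) * u b, hx S (u b) (hu b)⟩ := ⟨_, rfl⟩
  have hf_apply : ∀ S b, f S b = τ S ⟨Deg.unif S ^ (W S) * u b, hx S (u b) (hu b)⟩ := by
    intro S b
    rw [hfdef]
  have hAexp : τc A.det = Matrix.det (Matrix.of fun k b => (f (T k) b).subst (r k)) := by
    rw [AlgHom.map_det]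
    congr 1
    refine Matrix.ext fun k b => ?_
    rw [hAdef, hfdef, hrdef]
    simp only [AlgHom.mapMatrix_apply, Matrix.map_apply, Matrix.of_apply]
    exact (hexp k).2 _
  -- the regularised determinant vanishes
  have hAcoe : ((A.det : ↥c.toValuationSubring) : M) =
      (Matrix.of fun k b => σ k (Deg.unif (T k) ^ (W (T k)) * u b)).det := by
    have h1 := RingHom.map_det (c.toValuationSubring.subtype) A
    have h2 : ((A.det : ↥c.toValuationSubring) : M) = c.toValuationSubring.subtype A.det := rfl
    rw [h2, h1]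
    congr 1
    refine Matrix.ext fun k b => ?_
    rw [hAdef]
    rfl
  have hreg : (Matrix.of fun k b => σ k (Deg.unif (T k) ^ (W (T k)) * u b)).det =
      (∏ k, (σ k (Deg.unif (T k))) ^ (W (T k))) * DB.evalDet σ u := by
    rw [DB.evalDet_def, ← Matrix.det_mul_column]
    congr 1
    refine Matrix.ext fun k b => ?_
    simp only [Matrix.of_apply]
    rw [map_mul, map_zpow₀]
  have hA0 : A.det = 0 := by
    apply Subtype.ext
    rw [hAcoe, hreg, hdet0, mul_zero]
    rfl
  -- the matrix of the values at the centres is singular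
  have hN : (Matrix.of fun k b => PowerSeries.constantCoeff (f (T k) b)).det = 0 := by
    have h1 : PowerSeries.constantCoeff (τc A.det) = 0 := by
      rw [hA0, map_zero, map_zero]
    rw [hAexp, RingHom.map_det] at h1
    rw [← h1]
    congr 1
    refine Matrix.ext fun k b => ?_
    simp only [RingHom.mapMatrix_apply, Matrix.map_apply, Matrix.of_apply]
    have h3 := D.SubstEst.dvd_subst_sub_C (f (T k) b) (PowerSeries.X_dvd_iff.mpr (hr0 k))
    rw [PowerSeries.X_dvd_iff, map_sub, PowerSeries.constantCoeff_C, sub_eq_zero] at h3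
    exact h3.symm
  obtain ⟨lam, hlam0, hlam⟩ := Matrix.exists_mulVec_eq_zero_iff.mpr hN
  have hrow : ∀ k, ∑ b, PowerSeries.constantCoeff (f (T k) b) * lam b = 0 := by
    intro k
    have h := congrFun hlam k
    simp only [Matrix.mulVec, dotProduct, Matrix.of_apply, Pi.zero_apply] at h
    exact h
  -- the combination `w = ∑ λ b • u b`
  obtain ⟨w, hwdef⟩ : ∃ w : F, w = ∑ b, lam b • u b := ⟨_, rfl⟩
  have hwL : w ∈ riemannRochSpace W := by
    rw [hwdef]
    exact Submodule.sum_mem _ fun b _ => Submodule.smul_mem _ _ (hu b)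
  have hxk : ∀ k, (⟨Deg.unif (T k) ^ (W (T k)) * w, hx (T k) w hwL⟩ :
        ↥(T k).toValuationSubring) =
      ∑ b, lam b • (⟨Deg.unif (T k) ^ (W (T k)) * u b, hx (T k) (u b) (hu b)⟩ :
        ↥(T k).toValuationSubring) := by
    intro k
    apply Subtype.ext
    have h1 := map_sum (T k).toValuationSubring.subtype
      (fun b => lam b • (⟨Deg.unif (T k) ^ (W (T k)) * u b, hx (T k) (u b) (hu b)⟩ :
        ↥(T k).toValuationSubring)) Finset.univ
    refine Eq.trans ?_ h1.symm
    show Deg.unif (T k) ^ (W (T k)) * w =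
      ∑ b, algebraMap K F (lam b) * (Deg.unif (T k) ^ (W (T k)) * u b)
    rw [hwdef, Finset.mul_sum]
    refine Finset.sum_congr rfl fun b _ => ?_
    rw [Algebra.smul_def]
    ring
  have hcc : ∀ k, PowerSeries.constantCoeff
      (τ (T k) ⟨Deg.unif (T k) ^ (W (T k)) * w, hx (T k) w hwL⟩) = 0 := by
    intro k
    rw [hxk k, map_sum, map_sum, ← hrow k]
    refine Finset.sum_congr rfl fun b _ => ?_
    rw [map_smul, hf_apply, ← PowerSeries.coeff_zero_eq_constantCoeff_apply, map_smul,
      smul_eq_mul, mul_comm, PowerSeries.coeff_zero_eq_constantCoeff_apply]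
  have hwmem : w ∈ riemannRochSpace (W - ∑ k, Finsupp.single (T k) (1 : ℤ)) := by
    rw [mem_riemannRochSpace_iff]
    intro S
    by_cases hw0 : w = 0
    · exact Or.inl hw0
    right
    have hS := (mem_riemannRochSpace_iff.mp hwL S).resolve_left hw0
    by_cases hSr : ∃ k, T k = S
    · obtain ⟨k, rfl⟩ := hSr
      have hval : (W - ∑ k', Finsupp.single (T k') (1 : ℤ)) (T k) = W (T k) - 1 := by
        rw [Finsupp.sub_apply, Finsupp.finsetSum_apply, Finset.sum_eq_single k]
        · rw [Finsupp.single_eq_same]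
        · intro k' _ hk'
          rw [Finsupp.single_apply, if_neg (fun h => hk' (hTinj h))]
        · intro h
          exact absurd (Finset.mem_univ k) h
      rw [hval]
      have hpos : 0 < (T k).ord (Deg.unif (T k) ^ (W (T k)) * w) := by
        have h := (Loc2.constantCoeff_eq_iff htr (T k) ⟨Deg.unif (T k), hunitmem (T k)⟩
          (Deg.ord_unif (T k)) (τ (T k)) (hτ (T k))
          ⟨Deg.unif (T k) ^ (W (T k)) * w, hx (T k) w hwL⟩ 0).mp (hcc k)
        rw [map_zero, sub_zero] at h
        rcases h with h | h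
        · exact absurd h (mul_ne_zero (zpow_ne_zero _ (hunit0 _)) hw0)
        · exact h
      rw [(T k).ord_mul (zpow_ne_zero _ (hunit0 _)) hw0, (T k).ord_zpow, Deg.ord_unif,
        mul_one] at hpos
      omega
    · have hval : (W - ∑ k', Finsupp.single (T k') (1 : ℤ)) S = W S := by
        rw [Finsupp.sub_apply, Finsupp.finsetSum_apply, Finset.sum_eq_zero, sub_zero]
        intro k' _
        rw [Finsupp.single_apply, if_neg (fun h => hSr ⟨k', h⟩)]
      rw [hval]
      exact hS
  have hw0 : w = 0 := hW' w hwmem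
  have hlam : ∀ b, lam b = 0 :=
    Fintype.linearIndependent_iff.mp hli lam (by rw [← hwdef]; exact hw0)
  exact hlam0 (funext hlam)

/-- **Sections for the evaluation determinant (curve half).**  `E` a non-special set of `gR`
places, `S ⊆ E`: a divisor `W` of degree `gR + |S| - 2` with `|S|` linearly independent functions
of `L(W)` and `L(W - ∑ S) = 0`. -/
theorem exists_sections (htr : Algebra.trdeg K F = 1) (E : Finset (Place K F))
    (hEcard : E.card = R.gR K F)
    (hE : Module.finrank K
      ↥(riemannRochSpace (∑ v ∈ E, Finsupp.single v (1 : ℤ) : Divisor K F)) = 1)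
    (S : Finset (Place K F)) (hS : S ⊆ E) :
    ∃ (W : Divisor K F) (u : Fin S.card → F),
      Divisor.degree W = (R.gR K F : ℤ) + S.card - 2 ∧ (∀ b, u b ∈ riemannRochSpace W) ∧
      LinearIndependent K u ∧
      ∀ f ∈ riemannRochSpace (W - ∑ v ∈ S, Finsupp.single v (1 : ℤ)), f = 0 := by
  classical
  obtain ⟨W₀, hW₀, hRR⟩ := R.riemann_roch (K := K) (F := F) htr
  -- the complementary points
  obtain ⟨D'', hD''⟩ : ∃ D'' : Divisor K F, D'' = ∑ v ∈ E \ S, Finsupp.single v (1 : ℤ) :=
    ⟨_, rfl⟩
  have hsplit : (∑ v ∈ E, Finsupp.single v (1 : ℤ) : Divisor K F) =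
      D'' + ∑ v ∈ S, Finsupp.single v (1 : ℤ) := by
    rw [hD'', Finset.sum_sdiff hS]
  have hdegD : Divisor.degree D'' = (R.gR K F : ℤ) - S.card := by
    have h1 := Finset.card_sdiff_add_card_eq_card hS
    have h2 : (((E \ S).card : ℕ) : ℤ) + S.card = R.gR K F := by
      rw [← hEcard]
      exact_mod_cast h1
    rw [hD'', R.SpecialJump.degree_sum_single htr]
    linarith
  have hD0 : (0 : Divisor K F) ≤ D'' := by
    rw [hD'']
    exact R.SpecialJump.sum_single_nonneg _
  -- `l(D'') ≥ 1`
  have hfinD : Module.Finite K ↥(riemannRochSpace D'') := R.finite_L htr D''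
  have hlD : 1 ≤ Module.finrank K ↥(riemannRochSpace D'') := by
    have hle : riemannRochSpace (0 : Divisor K F) ≤ riemannRochSpace D'' := R.L_mono hD0
    have h := LinearMap.finrank_le_finrank_of_injective (Submodule.inclusion_injective hle)
    rwa [R.NonSpecialStep.finrank_L_zero htr] at h
  -- the divisor `W = W₀ - D''`
  obtain ⟨W, hWdef⟩ : ∃ W : Divisor K F, W = W₀ - D'' := ⟨_, rfl⟩
  have hdegW : Divisor.degree W = (R.gR K F : ℤ) + S.card - 2 := by
    rw [hWdef, map_sub, hW₀, hdegD]
    ring
  have hlW : S.card ≤ Module.finrank K ↥(riemannRochSpace W) := by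
    have h := hRR D''
    rw [hdegD, ← hWdef] at h
    have h1 : (1 : ℤ) ≤ (Module.finrank K ↥(riemannRochSpace D'') : ℤ) := by
      exact_mod_cast hlD
    have h2 : (S.card : ℤ) ≤ (Module.finrank K ↥(riemannRochSpace W) : ℤ) := by
      linarith
    exact_mod_cast h2
  have hfinW : Module.Finite K ↥(riemannRochSpace W) := R.finite_L htr W
  -- the sections
  obtain ⟨B⟩ : Nonempty (Module.Basis (Fin (Module.finrank K ↥(riemannRochSpace W))) K
      ↥(riemannRochSpace W)) := ⟨Module.finBasis K _⟩
  refine ⟨W, fun b => ((B (Fin.castLE hlW b) : ↥(riemannRochSpace W)) : F), hdegW,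
    fun b => (B _).2, ?_, ?_⟩
  · have h1 : LinearIndependent K (fun b : Fin S.card => B (Fin.castLE hlW b)) :=
      B.linearIndependent.comp _ (Fin.castLE_injective hlW)
    exact h1.map' (riemannRochSpace W).subtype (Submodule.ker_subtype _)
  · intro f hf
    have hWS : W - ∑ v ∈ S, Finsupp.single v (1 : ℤ) =
        W₀ - ∑ v ∈ E, Finsupp.single v (1 : ℤ) := by
      rw [hWdef, hsplit]
      abel
    rw [hWS] at hf
    have hdegE : Divisor.degree (∑ v ∈ E, Finsupp.single v (1 : ℤ) : Divisor K F) =
        (R.gR K F : ℤ) := by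
      rw [R.SpecialJump.degree_sum_single htr, hEcard]
    have h0 := R.CanonicalOff.finrank_L_canonical_sub htr hRR hE hdegE
    have hfinE : Module.Finite K ↥(riemannRochSpace (W₀ - ∑ v ∈ E, Finsupp.single v (1 : ℤ))) :=
      R.finite_L htr _
    have hsub : Subsingleton ↥(riemannRochSpace (W₀ - ∑ v ∈ E, Finsupp.single v (1 : ℤ))) :=
      Module.finrank_zero_iff.mp h0
    have h := Subsingleton.elim
      (⟨f, hf⟩ : ↥(riemannRochSpace (W₀ - ∑ v ∈ E, Finsupp.single v (1 : ℤ)))) 0
    exact congrArg Subtype.val h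

/-- **The hypothesis `hdet` of the exits of strand L.**  If at one place `c` of `M` the centres
of the points `σ k` (`k : Fin e`) are pairwise distinct and lie in a non-special set `E` of `gR`
places of `F`, there are a divisor `W` of degree `gR + e - 2` and functions `u b ∈ L(W)` with
non-zero evaluation determinant. -/
theorem exists_evalDet_ne_zero (htr : Algebra.trdeg K F = 1) (htrM : Algebra.trdeg K M = 1)
    {e : ℕ} (σ : Fin e → (F →ₐ[K] M)) (c : Place K M)
    (hinj : Function.Injective fun k => cen htr htrM (σ k) c)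
    (E : Finset (Place K F)) (hEcard : E.card = R.gR K F)
    (hE : Module.finrank K
      ↥(riemannRochSpace (∑ v ∈ E, Finsupp.single v (1 : ℤ) : Divisor K F)) = 1)
    (hsub : ∀ k, cen htr htrM (σ k) c ∈ E) :
    ∃ (W : Divisor K F) (u : Fin e → F), Divisor.degree W = (R.gR K F : ℤ) + e - 2 ∧
      (∀ b, u b ∈ riemannRochSpace W) ∧ DB.evalDet σ u ≠ 0 := by
  classical
  obtain ⟨S, hSdef⟩ : ∃ S : Finset (Place K F),
      S = Finset.univ.image (fun k => cen htr htrM (σ k) c) := ⟨_, rfl⟩
  have hScard : S.card = e := by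
    rw [hSdef, Finset.card_image_of_injective _ hinj, Finset.card_univ, Fintype.card_fin]
  have hSE : S ⊆ E := by
    intro v hv
    rw [hSdef, Finset.mem_image] at hv
    obtain ⟨k, -, rfl⟩ := hv
    exact hsub k
  obtain ⟨W, u, hdeg, hu, hli, hW⟩ := exists_sections htr E hEcard hE S hSE
  have hsum : (∑ v ∈ S, Finsupp.single v (1 : ℤ) : Divisor K F) =
      ∑ k, Finsupp.single (cen htr htrM (σ k) c) (1 : ℤ) := by
    rw [hSdef, Finset.sum_image]
    intro k _ k' _ h
    exact hinj h
  refine ⟨W, fun b => u (Fin.cast hScard.symm b), ?_, fun b => hu _, ?_⟩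
  · rw [hdeg, hScard]
  · refine evalDet_ne_zero_of_place htr htrM σ W _ (fun b => hu _) ?_ c hinj ?_
    · exact hli.comp _ (Fin.cast_injective _)
    · rw [← hsum]
      exact hW

end Fermat.Agent.S27.L.DetNe
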