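import Mathlib
import Fermat.Prelude.Def_AlgebraicCurve_Correspondence
import Fermat.Agent.Lib.FFNorm.Along
import Fermat.Agent.S17.R.LSpace
import Fermat.Agent.S17.R.Places
import Fermat.Agent.S17.HB.Loc2
import Fermat.Agent.S17.HB.Deg.Exit
import Fermat.Agent.S27.L.Defs

/-!
# Program PJ (statement S27), strand L: the exit of the local counts (DX)

`exit_profile` : on a configuration whose points are split by `σ : Fin r ⊕ Fin r' ≃ ι` into the
class `S = inl` (multiplicity `a`, carrying the evaluation determinant `G`) and the class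
`T = inr` (multiplicity `b`), the three local counts at every place `c` of `M`

* (DJ) the order of the leading jets `Λ z`,
* (DV) the order of the value `Φ` at a fixed place `Q` off `B`,
* (DB) the order of the determinant `G`,

give, through the single function `Θ = ∏_T Λ ^ b * G ^ (2 a²) * Φ ^ (a r - b r') / ∏_S Λ ^ a` of
degree zero (the normalising exponents, the `S`-`T` and the `S`-`S` coincidences cancel place by
place, the `T`-`T` coincidences are non-negative),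

`a² (κ + 2 r - 2 deg W) ∑_S deg ρ ≤ b² (κ + 2 r') ∑_T deg ρ`, `κ = deg A`.

The statement is hypothesis shaped: the three counts are binders.
-/

set_option autoImplicit false

open AlgebraicCurve

namespace Fermat.Agent.S27.L

open Fermat.Agent.S17 Fermat.Agent.S17.HB

variable {K F M : Type*} [Field K] [Field F] [Algebra K F] [Field M] [Algebra K M]

namespace Exit

/-- A sum over the points, split along the two classes. -/
theorem sum_split {ι : Type*} [Fintype ι] {r r' : ℕ} (σ : Fin r ⊕ Fin r' ≃ ι) (f : ι → ℤ) :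
    ∑ z, f z = ∑ k, f (σ (Sum.inl k)) + ∑ k, f (σ (Sum.inr k)) := by
  rw [← Equiv.sum_comp σ f, Fintype.sum_sum_type]

/-- The value of a pull-back divisor at a place of `M`, in the vocabulary of the strand. -/
theorem pullback_apply (htrF : Algebra.trdeg K F = 1) (htrM : Algebra.trdeg K M = 1)
    [HasPrincipalDivisors K M] (φ : F →ₐ[K] M) (D : Divisor K F) (c : Place K M) :
    Divisor.pullbackAlong φ (Loc2.algHom_isIntegral htrF htrM φ) D c =
      (Loc2.ram φ c : ℤ) * D (cen htrF htrM φ c) :=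
  Divisor.pullbackAlong_apply φ _ D c

end Exit

variable [IsAlgClosed K] [CharZero K] [Algebra.EssFiniteType K F] [Algebra.EssFiniteType K M]

open Classical in
/-- **DX.**  The points are split by `σ` into the class `S` (multiplicity `a`, carrying the
determinant `G`) and the class `T` (multiplicity `b`).  The three local counts at every place of
`M` give `a² (κ + 2 r - 2 deg W) ∑_S deg ρ ≤ b² (κ + 2 r') ∑_T deg ρ`, `κ = deg A`. -/
theorem exit_profile (htrF : Algebra.trdeg K F = 1) (htrM : Algebra.trdeg K M = 1)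
    {ι : Type*} [Fintype ι] [DecidableEq ι] {m r r' : ℕ} (μ : ι → ℕ)
    (ρ : ι → (F →ₐ[K] M)) (cM : Fin (m + 1) → M) (hc0 : cM 0 = 1)
    (σ : Fin r ⊕ Fin r' ≃ ι) (a b : ℕ) (ha : ∀ k, μ (σ (Sum.inl k)) = a)
    (hb : ∀ k, μ (σ (Sum.inr k)) = b)
    (A B W : Divisor K F) (Q : Place K F)
    (hB : Divisor.degree B = ∑ z, (μ z : ℤ))
    (Λ : ι → M) (Φ G : M) (hG : G ≠ 0)
    (hJ : ∀ (c : Place K M) (ϖ : M) (_ : c.ord ϖ = 1) (e : ℕ)
      (_ : ∀ j, ϖ ^ e * cM j ∈ c.toValuationSubring)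
      (_ : ∃ j, cM j ≠ 0 ∧ c.ord (ϖ ^ e * cM j) = 0) (z : ι),
      Λ z ≠ 0 ∧ c.ord (Λ z) = -(e : ℤ) - (Loc2.ram (ρ z) c : ℤ) *
          ((μ z : ℤ) * A (cen htrF htrM (ρ z) c) + B (cen htrF htrM (ρ z) c)) +
        ∑ z' ∈ Finset.univ.erase z, (μ z' : ℤ) * coinc htrF htrM (ρ z) (ρ z') c)
    (hV : ∀ (c : Place K M) (ϖ : M) (_ : c.ord ϖ = 1) (e : ℕ)
      (_ : ∀ j, ϖ ^ e * cM j ∈ c.toValuationSubring)
      (_ : ∃ j, cM j ≠ 0 ∧ c.ord (ϖ ^ e * cM j) = 0),
      Φ ≠ 0 ∧ c.ord Φ = -(e : ℤ) + ∑ z : ι,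
        (if cen htrF htrM (ρ z) c = Q then (μ z : ℤ) * (Loc2.ram (ρ z) c : ℤ) else 0))
    (hG1 : ∀ c : Place K M,
      -∑ k : Fin r, (Loc2.ram (ρ (σ (Sum.inl k))) c : ℤ) *
          W (cen htrF htrM (ρ (σ (Sum.inl k))) c) +
        ∑ k : Fin r, ∑ k' ∈ Finset.univ.filter (fun k' : Fin r => k' < k),
          coinc htrF htrM (ρ (σ (Sum.inl k))) (ρ (σ (Sum.inl k'))) c ≤ c.ord G) :
    (a : ℤ) ^ 2 * (Divisor.degree A + 2 * r - 2 * Divisor.degree W) *
        ∑ k : Fin r, (finrankAlong K (ρ (σ (Sum.inl k))) : ℤ) ≤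
      (b : ℤ) ^ 2 * (Divisor.degree A + 2 * r') *
        ∑ k : Fin r', (finrankAlong K (ρ (σ (Sum.inr k))) : ℤ) := by
  have : HasPrincipalDivisors K M := Fermat.Agent.Lib.FFNorm.hasPrincipalDivisors htrM
  have : Infinite (Place K M) := Fermat.Agent.S17.R.infinite_place htrM
  obtain ⟨c₀⟩ : Nonempty (Place K M) := inferInstance
  -- non-vanishing
  obtain ⟨ϖ₀, hϖ₀, e₀, he₀, he0₀⟩ := Deg.Exit.exists_exponent cM 0 hc0 c₀
  have hΛ : ∀ z, Λ z ≠ 0 := fun z => (hJ c₀ ϖ₀ hϖ₀ e₀ he₀ he0₀ z).1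
  have hΦ : Φ ≠ 0 := (hV c₀ ϖ₀ hϖ₀ e₀ he₀ he0₀).1
  have hPS : ∏ k : Fin r, Λ (σ (Sum.inl k)) ≠ 0 :=
    Finset.prod_ne_zero_iff.mpr fun k _ => hΛ _
  have hPT : ∏ k : Fin r', Λ (σ (Sum.inr k)) ≠ 0 :=
    Finset.prod_ne_zero_iff.mpr fun k _ => hΛ _
  -- the lower bound divisor
  have hle : ∑ k : Fin r', Divisor.pullbackAlong (ρ (σ (Sum.inr k)))
        (Loc2.algHom_isIntegral htrF htrM (ρ (σ (Sum.inr k))))
        (-(((b : ℤ) ^ 2) • A + (b : ℤ) • B) +
          ((b : ℤ) * ((a : ℤ) * r - (b : ℤ) * r')) • Finsupp.single Q (1 : ℤ)) +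
      ∑ k : Fin r, Divisor.pullbackAlong (ρ (σ (Sum.inl k)))
        (Loc2.algHom_isIntegral htrF htrM (ρ (σ (Sum.inl k))))
        (((a : ℤ) ^ 2) • A + (a : ℤ) • B +
          ((a : ℤ) * ((a : ℤ) * r - (b : ℤ) * r')) • Finsupp.single Q (1 : ℤ) -
          (2 * (a : ℤ) ^ 2) • W) ≤
      R.divOf K ((∏ k : Fin r', Λ (σ (Sum.inr k))) ^ b * G ^ (2 * a ^ 2) *
        Φ ^ ((a : ℤ) * r - (b : ℤ) * r') * ((∏ k : Fin r, Λ (σ (Sum.inl k))) ^ a)⁻¹) := by
    rw [Finsupp.le_def]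
    intro c
    obtain ⟨ϖ, hϖ, e, he, he0⟩ := Deg.Exit.exists_exponent cM 0 hc0 c
    have hJc := fun z : ι => (hJ c ϖ hϖ e he he0 z).2
    have hVc := (hV c ϖ hϖ e he he0).2
    have hGc := hG1 c
    -- the order of `Θ`
    have hΘ : c.ord ((∏ k : Fin r', Λ (σ (Sum.inr k))) ^ b * G ^ (2 * a ^ 2) *
        Φ ^ ((a : ℤ) * r - (b : ℤ) * r') * ((∏ k : Fin r, Λ (σ (Sum.inl k))) ^ a)⁻¹) =
        (b : ℤ) * ∑ k : Fin r', c.ord (Λ (σ (Sum.inr k))) + (2 * (a : ℤ) ^ 2) * c.ord G +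
          ((a : ℤ) * r - (b : ℤ) * r') * c.ord Φ -
          (a : ℤ) * ∑ k : Fin r, c.ord (Λ (σ (Sum.inl k))) := by
      rw [c.ord_mul (mul_ne_zero (mul_ne_zero (pow_ne_zero _ hPT) (pow_ne_zero _ hG))
          (zpow_ne_zero _ hΦ)) (inv_ne_zero (pow_ne_zero _ hPS)),
        c.ord_mul (mul_ne_zero (pow_ne_zero _ hPT) (pow_ne_zero _ hG)) (zpow_ne_zero _ hΦ),
        c.ord_mul (pow_ne_zero _ hPT) (pow_ne_zero _ hG), Place.ord_inv, Place.ord_zpow,
        Deg.Exit.ord_npow, Deg.Exit.ord_npow, Deg.Exit.ord_npow,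
        Deg.Exit.ord_prod _ _ (fun k _ => hΛ (σ (Sum.inl k))),
        Deg.Exit.ord_prod _ _ (fun k _ => hΛ (σ (Sum.inr k)))]
      push_cast
      ring
    -- the coincidence sum at a point
    have hsum : ∀ z : ι, ∑ z' ∈ Finset.univ.erase z,
        (μ z' : ℤ) * coinc htrF htrM (ρ z) (ρ z') c =
        (a : ℤ) * ∑ k : Fin r, coinc htrF htrM (ρ z) (ρ (σ (Sum.inl k))) c +
          (b : ℤ) * ∑ k : Fin r', coinc htrF htrM (ρ z) (ρ (σ (Sum.inr k))) c := by
      intro z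
      rw [Finset.sum_erase_eq_sub (Finset.mem_univ _), coinc_self, mul_zero, sub_zero,
        Exit.sum_split σ, Finset.mul_sum, Finset.mul_sum]
      simp only [ha, hb]
    -- the jets of the class `S`
    have hS : ∑ k : Fin r, c.ord (Λ (σ (Sum.inl k))) =
        -((r : ℤ) * e) - (a : ℤ) * ∑ k : Fin r, (Loc2.ram (ρ (σ (Sum.inl k))) c : ℤ) *
            A (cen htrF htrM (ρ (σ (Sum.inl k))) c) -
          ∑ k : Fin r, (Loc2.ram (ρ (σ (Sum.inl k))) c : ℤ) *
            B (cen htrF htrM (ρ (σ (Sum.inl k))) c) +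
          (a : ℤ) * ∑ k : Fin r, ∑ k' : Fin r,
            coinc htrF htrM (ρ (σ (Sum.inl k))) (ρ (σ (Sum.inl k'))) c +
          (b : ℤ) * ∑ k : Fin r, ∑ k' : Fin r',
            coinc htrF htrM (ρ (σ (Sum.inl k))) (ρ (σ (Sum.inr k'))) c := by
      have hk : ∀ k : Fin r, c.ord (Λ (σ (Sum.inl k))) =
          -(e : ℤ) - (a : ℤ) * ((Loc2.ram (ρ (σ (Sum.inl k))) c : ℤ) *
            A (cen htrF htrM (ρ (σ (Sum.inl k))) c)) -
          (Loc2.ram (ρ (σ (Sum.inl k))) c : ℤ) * B (cen htrF htrM (ρ (σ (Sum.inl k))) c) +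
          (a : ℤ) * ∑ k' : Fin r, coinc htrF htrM (ρ (σ (Sum.inl k))) (ρ (σ (Sum.inl k'))) c +
          (b : ℤ) * ∑ k' : Fin r', coinc htrF htrM (ρ (σ (Sum.inl k))) (ρ (σ (Sum.inr k'))) c := by
        intro k
        rw [hJc, hsum, ha]
        ring
      rw [Finset.sum_congr rfl fun k _ => hk k]
      simp only [Finset.sum_add_distrib, Finset.sum_sub_distrib, ← Finset.mul_sum,
        Finset.sum_neg_distrib, Finset.sum_const, Finset.card_univ, Fintype.card_fin,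
        nsmul_eq_mul]
    -- the jets of the class `T`
    have hT : ∑ k : Fin r', c.ord (Λ (σ (Sum.inr k))) =
        -((r' : ℤ) * e) - (b : ℤ) * ∑ k : Fin r', (Loc2.ram (ρ (σ (Sum.inr k))) c : ℤ) *
            A (cen htrF htrM (ρ (σ (Sum.inr k))) c) -
          ∑ k : Fin r', (Loc2.ram (ρ (σ (Sum.inr k))) c : ℤ) *
            B (cen htrF htrM (ρ (σ (Sum.inr k))) c) +
          (a : ℤ) * ∑ k : Fin r', ∑ k' : Fin r,
            coinc htrF htrM (ρ (σ (Sum.inr k))) (ρ (σ (Sum.inl k'))) c +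
          (b : ℤ) * ∑ k : Fin r', ∑ k' : Fin r',
            coinc htrF htrM (ρ (σ (Sum.inr k))) (ρ (σ (Sum.inr k'))) c := by
      have hk : ∀ k : Fin r', c.ord (Λ (σ (Sum.inr k))) =
          -(e : ℤ) - (b : ℤ) * ((Loc2.ram (ρ (σ (Sum.inr k))) c : ℤ) *
            A (cen htrF htrM (ρ (σ (Sum.inr k))) c)) -
          (Loc2.ram (ρ (σ (Sum.inr k))) c : ℤ) * B (cen htrF htrM (ρ (σ (Sum.inr k))) c) +
          (a : ℤ) * ∑ k' : Fin r, coinc htrF htrM (ρ (σ (Sum.inr k))) (ρ (σ (Sum.inl k'))) c +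
          (b : ℤ) * ∑ k' : Fin r', coinc htrF htrM (ρ (σ (Sum.inr k))) (ρ (σ (Sum.inr k'))) c := by
        intro k
        rw [hJc, hsum, hb]
        ring
      rw [Finset.sum_congr rfl fun k _ => hk k]
      simp only [Finset.sum_add_distrib, Finset.sum_sub_distrib, ← Finset.mul_sum,
        Finset.sum_neg_distrib, Finset.sum_const, Finset.card_univ, Fintype.card_fin,
        nsmul_eq_mul]
    -- the cross coincidences
    have hX : ∑ k : Fin r', ∑ k' : Fin r,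
        coinc htrF htrM (ρ (σ (Sum.inr k))) (ρ (σ (Sum.inl k'))) c =
        ∑ k : Fin r, ∑ k' : Fin r',
          coinc htrF htrM (ρ (σ (Sum.inl k))) (ρ (σ (Sum.inr k'))) c := by
      rw [Finset.sum_comm]
      exact Finset.sum_congr rfl fun k _ => Finset.sum_congr rfl fun k' _ =>
        coinc_symm htrF htrM _ _ c
    -- the `S`-`S` coincidences
    have hSS : ∑ k : Fin r, ∑ k' : Fin r,
        coinc htrF htrM (ρ (σ (Sum.inl k))) (ρ (σ (Sum.inl k'))) c =
        2 * ∑ k : Fin r, ∑ k' ∈ Finset.univ.filter (fun k' : Fin r => k' < k),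
          coinc htrF htrM (ρ (σ (Sum.inl k))) (ρ (σ (Sum.inl k'))) c :=
      Deg.Exit.sum_sum_symm
        (fun k k' => coinc htrF htrM (ρ (σ (Sum.inl k))) (ρ (σ (Sum.inl k'))) c)
        (fun k k' => coinc_symm htrF htrM _ _ c) (fun k => coinc_self htrF htrM _ c)
    -- the `T`-`T` coincidences
    have hTT : 0 ≤ ∑ k : Fin r', ∑ k' : Fin r',
        coinc htrF htrM (ρ (σ (Sum.inr k))) (ρ (σ (Sum.inr k'))) c :=
      Finset.sum_nonneg fun k _ => Finset.sum_nonneg fun k' _ => coinc_nonneg htrF htrM _ _ c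
    -- the value
    have hsV : ∑ z : ι,
        (if cen htrF htrM (ρ z) c = Q then (μ z : ℤ) * (Loc2.ram (ρ z) c : ℤ) else 0) =
        (a : ℤ) * ∑ k : Fin r, (Loc2.ram (ρ (σ (Sum.inl k))) c : ℤ) *
            (if Q = cen htrF htrM (ρ (σ (Sum.inl k))) c then (1 : ℤ) else 0) +
          (b : ℤ) * ∑ k : Fin r', (Loc2.ram (ρ (σ (Sum.inr k))) c : ℤ) *
            (if Q = cen htrF htrM (ρ (σ (Sum.inr k))) c then (1 : ℤ) else 0) := by
      rw [Exit.sum_split σ, Finset.mul_sum, Finset.mul_sum]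
      congr 1
      · refine Finset.sum_congr rfl fun k _ => ?_
        by_cases h : cen htrF htrM (ρ (σ (Sum.inl k))) c = Q
        · rw [if_pos h, if_pos h.symm, ha, mul_one]
        · rw [if_neg h, if_neg (Ne.symm h), mul_zero, mul_zero]
      · refine Finset.sum_congr rfl fun k _ => ?_
        by_cases h : cen htrF htrM (ρ (σ (Sum.inr k))) c = Q
        · rw [if_pos h, if_pos h.symm, hb, mul_one]
        · rw [if_neg h, if_neg (Ne.symm h), mul_zero, mul_zero]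
    -- the left side
    have hL : (∑ k : Fin r', Divisor.pullbackAlong (ρ (σ (Sum.inr k)))
          (Loc2.algHom_isIntegral htrF htrM (ρ (σ (Sum.inr k))))
          (-(((b : ℤ) ^ 2) • A + (b : ℤ) • B) +
            ((b : ℤ) * ((a : ℤ) * r - (b : ℤ) * r')) • Finsupp.single Q (1 : ℤ)) +
        ∑ k : Fin r, Divisor.pullbackAlong (ρ (σ (Sum.inl k)))
          (Loc2.algHom_isIntegral htrF htrM (ρ (σ (Sum.inl k))))
          (((a : ℤ) ^ 2) • A + (a : ℤ) • B +
            ((a : ℤ) * ((a : ℤ) * r - (b : ℤ) * r')) • Finsupp.single Q (1 : ℤ) -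
            (2 * (a : ℤ) ^ 2) • W)) c =
        (-((b : ℤ) ^ 2 * ∑ k : Fin r', (Loc2.ram (ρ (σ (Sum.inr k))) c : ℤ) *
              A (cen htrF htrM (ρ (σ (Sum.inr k))) c)) -
          (b : ℤ) * ∑ k : Fin r', (Loc2.ram (ρ (σ (Sum.inr k))) c : ℤ) *
              B (cen htrF htrM (ρ (σ (Sum.inr k))) c) +
          ((b : ℤ) * ((a : ℤ) * r - (b : ℤ) * r')) *
            ∑ k : Fin r', (Loc2.ram (ρ (σ (Sum.inr k))) c : ℤ) *
              (if Q = cen htrF htrM (ρ (σ (Sum.inr k))) c then (1 : ℤ) else 0)) +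
        ((a : ℤ) ^ 2 * ∑ k : Fin r, (Loc2.ram (ρ (σ (Sum.inl k))) c : ℤ) *
              A (cen htrF htrM (ρ (σ (Sum.inl k))) c) +
          (a : ℤ) * ∑ k : Fin r, (Loc2.ram (ρ (σ (Sum.inl k))) c : ℤ) *
              B (cen htrF htrM (ρ (σ (Sum.inl k))) c) +
          ((a : ℤ) * ((a : ℤ) * r - (b : ℤ) * r')) *
            ∑ k : Fin r, (Loc2.ram (ρ (σ (Sum.inl k))) c : ℤ) *
              (if Q = cen htrF htrM (ρ (σ (Sum.inl k))) c then (1 : ℤ) else 0) -
          (2 * (a : ℤ) ^ 2) * ∑ k : Fin r, (Loc2.ram (ρ (σ (Sum.inl k))) c : ℤ) *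
              W (cen htrF htrM (ρ (σ (Sum.inl k))) c)) := by
      rw [Finsupp.add_apply, Finsupp.finsetSum_apply, Finsupp.finsetSum_apply]
      have hkT : ∀ k : Fin r', Divisor.pullbackAlong (ρ (σ (Sum.inr k)))
          (Loc2.algHom_isIntegral htrF htrM (ρ (σ (Sum.inr k))))
          (-(((b : ℤ) ^ 2) • A + (b : ℤ) • B) +
            ((b : ℤ) * ((a : ℤ) * r - (b : ℤ) * r')) • Finsupp.single Q (1 : ℤ)) c =
          -((b : ℤ) ^ 2 * ((Loc2.ram (ρ (σ (Sum.inr k))) c : ℤ) *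
              A (cen htrF htrM (ρ (σ (Sum.inr k))) c))) -
          (b : ℤ) * ((Loc2.ram (ρ (σ (Sum.inr k))) c : ℤ) *
              B (cen htrF htrM (ρ (σ (Sum.inr k))) c)) +
          ((b : ℤ) * ((a : ℤ) * r - (b : ℤ) * r')) * ((Loc2.ram (ρ (σ (Sum.inr k))) c : ℤ) *
              (if Q = cen htrF htrM (ρ (σ (Sum.inr k))) c then (1 : ℤ) else 0)) := by
        intro k
        rw [Exit.pullback_apply htrF htrM]
        simp only [Finsupp.add_apply, Finsupp.neg_apply, Finsupp.smul_apply, smul_eq_mul,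
          Finsupp.single_apply]
        ring
      have hkS : ∀ k : Fin r, Divisor.pullbackAlong (ρ (σ (Sum.inl k)))
          (Loc2.algHom_isIntegral htrF htrM (ρ (σ (Sum.inl k))))
          (((a : ℤ) ^ 2) • A + (a : ℤ) • B +
            ((a : ℤ) * ((a : ℤ) * r - (b : ℤ) * r')) • Finsupp.single Q (1 : ℤ) -
            (2 * (a : ℤ) ^ 2) • W) c =
          (a : ℤ) ^ 2 * ((Loc2.ram (ρ (σ (Sum.inl k))) c : ℤ) *
              A (cen htrF htrM (ρ (σ (Sum.inl k))) c)) +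
          (a : ℤ) * ((Loc2.ram (ρ (σ (Sum.inl k))) c : ℤ) *
              B (cen htrF htrM (ρ (σ (Sum.inl k))) c)) +
          ((a : ℤ) * ((a : ℤ) * r - (b : ℤ) * r')) * ((Loc2.ram (ρ (σ (Sum.inl k))) c : ℤ) *
              (if Q = cen htrF htrM (ρ (σ (Sum.inl k))) c then (1 : ℤ) else 0)) -
          (2 * (a : ℤ) ^ 2) * ((Loc2.ram (ρ (σ (Sum.inl k))) c : ℤ) *
              W (cen htrF htrM (ρ (σ (Sum.inl k))) c)) := by
        intro k
        rw [Exit.pullback_apply htrF htrM]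
        simp only [Finsupp.add_apply, Finsupp.sub_apply, Finsupp.smul_apply, smul_eq_mul,
          Finsupp.single_apply]
        ring
      rw [Finset.sum_congr rfl fun k _ => hkT k, Finset.sum_congr rfl fun k _ => hkS k]
      simp only [Finset.sum_add_distrib, Finset.sum_sub_distrib, Finset.sum_neg_distrib,
        ← Finset.mul_sum]
    rw [hL, R.divOf_apply htrM, hΘ, hS, hT, hX, hSS, hVc, hsV]
    have h1 : (2 * (a : ℤ) ^ 2) * (-∑ k : Fin r, (Loc2.ram (ρ (σ (Sum.inl k))) c : ℤ) *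
          W (cen htrF htrM (ρ (σ (Sum.inl k))) c) +
        ∑ k : Fin r, ∑ k' ∈ Finset.univ.filter (fun k' : Fin r => k' < k),
          coinc htrF htrM (ρ (σ (Sum.inl k))) (ρ (σ (Sum.inl k'))) c) ≤
        (2 * (a : ℤ) ^ 2) * c.ord G :=
      mul_le_mul_of_nonneg_left hGc (by positivity)
    have h2 : 0 ≤ (b : ℤ) ^ 2 * ∑ k : Fin r', ∑ k' : Fin r',
        coinc htrF htrM (ρ (σ (Sum.inr k))) (ρ (σ (Sum.inr k'))) c :=
      mul_nonneg (by positivity) hTT
    linarith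
  have hdeg := R.degree_mono htrM hle
  have hBdeg : Divisor.degree B = (a : ℤ) * r + (b : ℤ) * r' := by
    rw [hB, Exit.sum_split σ]
    simp only [ha, hb, Finset.sum_const, Finset.card_univ, Fintype.card_fin, nsmul_eq_mul]
    ring
  have hkT : ∀ k : Fin r', Divisor.degree (Divisor.pullbackAlong (ρ (σ (Sum.inr k)))
      (Loc2.algHom_isIntegral htrF htrM (ρ (σ (Sum.inr k))))
      (-(((b : ℤ) ^ 2) • A + (b : ℤ) • B) +
        ((b : ℤ) * ((a : ℤ) * r - (b : ℤ) * r')) • Finsupp.single Q (1 : ℤ))) =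
      (finrankAlong K (ρ (σ (Sum.inr k))) : ℤ) *
        (-((b : ℤ) ^ 2 * (Divisor.degree A + 2 * r'))) := by
    intro k
    rw [Deg.Exit.degree_pullback htrF htrM, map_add, map_neg, map_add, map_zsmul, map_zsmul,
      map_zsmul, Divisor.degree_single, Fermat.Agent.S24.FF.deg_eq_one htrF Q, hBdeg]
    simp only [smul_eq_mul, Nat.cast_one, mul_one]
    ring
  have hkS : ∀ k : Fin r, Divisor.degree (Divisor.pullbackAlong (ρ (σ (Sum.inl k)))
      (Loc2.algHom_isIntegral htrF htrM (ρ (σ (Sum.inl k))))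
      (((a : ℤ) ^ 2) • A + (a : ℤ) • B +
        ((a : ℤ) * ((a : ℤ) * r - (b : ℤ) * r')) • Finsupp.single Q (1 : ℤ) -
        (2 * (a : ℤ) ^ 2) • W)) =
      (finrankAlong K (ρ (σ (Sum.inl k))) : ℤ) *
        ((a : ℤ) ^ 2 * (Divisor.degree A + 2 * r - 2 * Divisor.degree W)) := by
    intro k
    rw [Deg.Exit.degree_pullback htrF htrM, map_sub, map_add, map_add, map_zsmul, map_zsmul,
      map_zsmul, map_zsmul, Divisor.degree_single, Fermat.Agent.S24.FF.deg_eq_one htrF Q, hBdeg]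
    simp only [smul_eq_mul, Nat.cast_one, mul_one]
    ring
  rw [R.degree_divOf htrM, map_add, map_sum, map_sum, Finset.sum_congr rfl fun k _ => hkT k,
    Finset.sum_congr rfl fun k _ => hkS k, ← Finset.sum_mul, ← Finset.sum_mul] at hdeg
  linarith

end Fermat.Agent.S27.L
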