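import Mathlib
import Fermat.Agent.S17.HB.Loc1Gen
import Fermat.Agent.S17.HB.Loc3.Exit
import Fermat.Agent.S17.HB.Deg.Defs
import Fermat.Agent.S17.HB.Deg.Switch
import Fermat.Agent.S17.HB.Deg.HasseTaylor

/-!
# Program PJ (statement S27), strand L: the order of the leading jet, type `(1, g)` (DJ of strand HB)

`F / K` is the function field of the curve, `M / K` the function field of the division curve,
`d : Loc3.Data` the generic division function `∑ j, cM j ⊗ v j` with its points `ρ x`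
(`x = none` the generic point, `x = some k` the moving points).  At a place `c` of `M`
(uniformiser `ϖ`, normalising exponent `e`) the leading jet at the point `x`

  `Λ x = ∑ j, cM j * ρ x (δ^[mult n x] (v j))`

is non-zero and

  `ord_c Λ x = - e - e_x (μ_x Dδ(T) + (n E₀ + Q₀)(T)) + ∑_{x' ≠ x} μ_x' coinc(x, x')`,

`T` the centre of `x` at `c`, `e_x` the ramification index, `Dδ` the divisor of the derivation
(`ord_v (δ π) = - Dδ v` for a uniformiser `π` at `v`): `ord_lead`.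

Proof.  At `(T, t)`, `t` a uniformiser at `T`, the local series of LOC3 satisfies the hypotheses
of the normal form LOC1 (`Loc3.loc1_hyps`), so `Loc1Gen.order_jetAt` gives the order of its
leading Hasse jet at the expansion `r x` of `ρ x t`: the sum of the `μ_x' ord_c (ρ x t - ρ x' t)`
over the other points `x'` with centre `T`.  By the chain rule (`taylor_iterate`), LOC2
(`Loc3.tay_map_eq_subst`) and the switching lemma (`switch`), `μ !` times this jet is the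
expansion at `c` of `ϖ ^ e * ρ x (η ^ μ * t ^ q) * Λ x`, `q` the pole bound at `T` and `η` the
multiplier of the chain rule; finally `η * δ t = 1` (`eta_mul_eq_one`) gives `ord_T η = Dδ T`.
-/

set_option autoImplicit false

open AlgebraicCurve

namespace Fermat.Agent.S27.L.Jet1g

open Fermat.Agent.S17 Fermat.Agent.S17.D Fermat.Agent.S17.HB Fermat.Agent.S17.HB.Deg

/-- Sum over the other points of a fibre, as a sum over all the other points. -/
theorem sum_erase_subtype {α : Type*} [Fintype α] [DecidableEq α] (p : α → Prop)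
    [DecidablePred p] (a : α) (pa : p a) (φ : α → ℤ) :
    ∑ i ∈ (Finset.univ.erase (⟨a, pa⟩ : {y // p y})), φ i.1 =
      ∑ y ∈ Finset.univ.erase a, if p y then φ y else 0 := by
  rw [← Finset.sum_filter]
  have e : (Finset.univ.erase a).filter p =
      (Finset.univ.erase (⟨a, pa⟩ : {y // p y})).map (Function.Embedding.subtype p) := by
    ext y
    simp only [Finset.mem_filter, Finset.mem_erase, Finset.mem_univ, and_true, Finset.mem_map,
      Function.Embedding.coe_subtype]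
    constructor
    · rintro ⟨hy, hp⟩
      exact ⟨⟨y, hp⟩, fun h => hy (congrArg Subtype.val h), rfl⟩
    · rintro ⟨i, hi, rfl⟩
      exact ⟨fun h => hi (Subtype.ext h), i.2⟩
  rw [e, Finset.sum_map]
  rfl

theorem order_smul_of_ne_zero {K : Type*} [Field K] {a : K} (ha : a ≠ 0) (φ : PowerSeries K) :
    (a • φ).order = φ.order := by
  have h1 : (PowerSeries.C a : PowerSeries K).order = 0 :=
    PowerSeries.order_zero_of_unit
      (PowerSeries.isUnit_iff_constantCoeff.mpr (by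
        rw [PowerSeries.constantCoeff_C]
        exact isUnit_iff_ne_zero.mpr ha))
  rw [PowerSeries.smul_eq_C_mul, PowerSeries.order_mul, h1, zero_add]

variable {K F M : Type*} [Field K] [Field F] [Algebra K F] [Field M] [Algebra K M]
variable [IsAlgClosed K] [CharZero K] [Algebra.EssFiniteType K F]

theorem mult_eq (n : ℕ) {g : ℕ} (y : Option (Fin g)) : Loc3.mult n y = mult n y := by
  cases y <;> rfl

omit [IsAlgClosed K] [CharZero K] [Algebra.EssFiniteType K F] in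
theorem ord_pow_nat (T : Place K F) (f : F) (k : ℕ) : T.ord (f ^ k) = (k : ℤ) * T.ord f := by
  rw [← zpow_natCast, T.ord_zpow]

/-- The lower jets of the generic division function vanish at each of its points. -/
theorem jets_van {htr : Algebra.trdeg K F = 1} {n g m : ℕ} {Q₀ : Place K F}
    {E₀ : Finset (Place K F)} (d : Loc3.Data htr M n g m Q₀ E₀) (hb : d.b₁ = 1)
    (x : Option (Fin g)) :
    ∀ i < mult n x, ∑ j, d.cM j * d.ρ x ((⇑d.δ)^[i] (d.v j)) = 0 := by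
  cases x with
  | none =>
    intro i hi
    have hi0 : i = 0 := by
      rw [mult_none] at hi
      omega
    subst hi0
    simpa only [Function.iterate_zero, id_eq] using d.generic
  | some k =>
    intro i hi
    have h := d.jets k i hi
    simpa only [hb, one_mul] using h

variable [Algebra.EssFiniteType K M]

/-- The bridge: `μ !` times the leading Hasse jet of the local series at the expansion of `ρ t`
is the expansion at `c` of `ρ (η ^ μ * h) * ∑ j, a j * ρ (δ^[μ] (w j))`. -/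
theorem bridge (htr : Algebra.trdeg K F = 1) (htrM : Algebra.trdeg K M = 1)
    (δ : Derivation K F F) {ρ : F →ₐ[K] M} {c : Place K M} {T : Place K F}
    (hT : Loc3.IsCentre ρ c T) (t : F) (ht : T.ord t = 1) (ϖ : M) (hϖ : c.ord ϖ = 1) (η : F)
    (hη : ∀ f : F, f ∈ T.toValuationSubring → η * δ f ∈ T.toValuationSubring ∧
      Loc3.tay htr T t ht (η * δ f) = PowerSeries.derivative K (Loc3.tay htr T t ht f))
    {ι : Type*} [Fintype ι] (a : ι → M) (ha : ∀ j, a j ∈ c.toValuationSubring)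
    (h : F) (w : ι → F) (hw : ∀ j, h * w j ∈ T.toValuationSubring) (μ : ℕ)
    (hvan : ∀ i < μ, ∑ j, a j * ρ ((⇑δ)^[i] (w j)) = 0) :
    ρ (η ^ μ * h) * ∑ j, a j * ρ ((⇑δ)^[μ] (w j)) ∈ c.toValuationSubring ∧
    Loc3.tay htrM c ϖ hϖ (ρ (η ^ μ * h) * ∑ j, a j * ρ ((⇑δ)^[μ] (w j))) =
      (μ.factorial : K) • ∑ j, Loc3.tay htrM c ϖ hϖ (a j) *
        (hasse μ (Loc3.tay htr T t ht (h * w j))).subst (Loc3.tay htrM c ϖ hϖ (ρ t)) := by
  obtain ⟨-, hsw⟩ := switch ρ δ η h a w μ hvan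
  obtain ⟨hr0, hsub⟩ := Loc3.tay_map_eq_subst htr htrM hT t ht ϖ hϖ
  have hs : PowerSeries.HasSubst (Loc3.tay htrM c ϖ hϖ (ρ t)) :=
    PowerSeries.HasSubst.of_constantCoeff_zero' hr0
  have hit := fun j => taylor_iterate htr T t ht δ η hη (h * w j) (hw j) μ
  have hmem : ∀ j, a j * ρ ((fun f : F => η * δ f)^[μ] (h * w j)) ∈ c.toValuationSubring :=
    fun j => mul_mem (ha j) (hT.map_mem (hit j).1)
  rw [← hsw]
  refine ⟨sum_mem fun j _ => hmem j, ?_⟩
  rw [Loc3.tay_sum htrM c ϖ hϖ _ _ fun j _ => hmem j, Finset.smul_sum]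
  refine Finset.sum_congr rfl fun j _ => ?_
  rw [Loc3.tay_mul htrM c ϖ hϖ (ha j) (hT.map_mem (hit j).1), hsub _ (hit j).1, (hit j).2,
    PowerSeries.subst_smul hs, mul_smul_comm]

open Classical in
/-- **DJ** at a centre `T` with any uniformiser `t`. -/
theorem ord_lead_aux (htr : Algebra.trdeg K F = 1) (htrM : Algebra.trdeg K M = 1) {n g m : ℕ}
    {Q₀ : Place K F} {E₀ : Finset (Place K F)} (d : Loc3.Data htr M n g m Q₀ E₀)
    (hb : d.b₁ = 1) (Dδ : Divisor K F)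
    (hDδ : ∀ (v : Place K F) (π : F), v.ord π = 1 → v.ord (d.δ π) = -Dδ v)
    (c : Place K M) (ϖ : M) (hϖ : c.ord ϖ = 1) (e : ℕ)
    (he : ∀ j, ϖ ^ e * d.cM j ∈ c.toValuationSubring)
    (he0 : ∃ j, d.cM j ≠ 0 ∧ c.ord (ϖ ^ e * d.cM j) = 0) (x : Option (Fin g))
    (T : Place K F) (hT : cen htr htrM d.ρ x c = T) (t : F) (ht : T.ord t = 1) :
    (∑ j, d.cM j * d.ρ x ((⇑d.δ)^[mult n x] (d.v j))) ≠ 0 ∧
    c.ord (∑ j, d.cM j * d.ρ x ((⇑d.δ)^[mult n x] (d.v j))) =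
      -(e : ℤ) - (Loc2.ram (d.ρ x) c : ℤ) *
          ((mult n x : ℤ) * Dδ T + (Loc3.poleBound n Q₀ E₀ T : ℤ)) +
        ∑ x' ∈ Finset.univ.erase x,
          if cen htr htrM d.ρ x' c = T then
            (mult n x' : ℤ) * c.ord (d.ρ x t - d.ρ x' t) else 0 := by
  have hcen : ∀ x', Loc3.IsCentre (d.ρ x') c (cen htr htrM d.ρ x' c) :=
    fun x' => cen_toValuationSubring htr htrM d.ρ x' c
  have hcx : Loc3.IsCentre (d.ρ x) c T := by
    have h := hcen x
    rwa [hT] at h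
  obtain ⟨hW, hρt, hr0, hrinj, hvan, hord⟩ := Loc3.loc1_hyps htr htrM d c
    (fun x' => cen htr htrM d.ρ x' c) hcen ϖ hϖ e he he0 T t ht
    (fun j => Loc3.tay htrM c ϖ hϖ (ϖ ^ e * d.cM j))
    (fun j => Loc3.tay htr T t ht (t ^ Loc3.poleBound n Q₀ E₀ T * d.v j))
    (fun _ => rfl) (fun _ => rfl)
    (fun x' => Loc3.tay htrM c ϖ hϖ (d.ρ x'.1 t)) (fun _ => rfl)
  -- the normal form
  have hJ := Loc1Gen.order_jetAt (fun j => Loc3.tay htrM c ϖ hϖ (ϖ ^ e * d.cM j))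
    (fun j => Loc3.tay htr T t ht (t ^ Loc3.poleBound n Q₀ E₀ T * d.v j))
    (fun x' : {x' : Option (Fin g) // cen htr htrM d.ρ x' c = T} =>
      Loc3.tay htrM c ϖ hϖ (d.ρ x'.1 t))
    (fun x' => Loc3.mult n x'.1) hr0 hrinj hvan hord ⟨x, hT⟩
  -- the orders of the differences
  have hz : ∀ i' ∈ Finset.univ.erase (⟨x, hT⟩ : {x' // cen htr htrM d.ρ x' c = T}),
      (Loc3.tay htrM c ϖ hϖ (d.ρ x t) - Loc3.tay htrM c ϖ hϖ (d.ρ i'.1 t)).order
        = (((c.ord (d.ρ x t - d.ρ i'.1 t)).toNat : ℕ) : ℕ∞) ∧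
      0 ≤ c.ord (d.ρ x t - d.ρ i'.1 t) := by
    intro i' hi'
    have hne : i' ≠ ⟨x, hT⟩ := Finset.ne_of_mem_erase hi'
    have hm1 : d.ρ x t ∈ c.toValuationSubring := hρt ⟨x, hT⟩
    have hm2 : d.ρ i'.1 t ∈ c.toValuationSubring := hρt i'
    have hsubm : d.ρ x t - d.ρ i'.1 t ∈ c.toValuationSubring := sub_mem hm1 hm2
    have hsub : Loc3.tay htrM c ϖ hϖ (d.ρ x t - d.ρ i'.1 t) =
        Loc3.tay htrM c ϖ hϖ (d.ρ x t) - Loc3.tay htrM c ϖ hϖ (d.ρ i'.1 t) := by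
      have h1 := Loc3.tay_add htrM c ϖ hϖ hsubm hm2
      rw [sub_add_cancel] at h1
      rw [h1, add_sub_cancel_right]
    have hne0 : d.ρ x t - d.ρ i'.1 t ≠ 0 := by
      intro h0
      apply hne
      apply hrinj
      show Loc3.tay htrM c ϖ hϖ (d.ρ i'.1 t) = Loc3.tay htrM c ϖ hϖ (d.ρ x t)
      rw [sub_eq_zero.mp h0]
    rw [← hsub, Loc3.order_tay htrM c ϖ hϖ hsubm hne0]
    exact ⟨rfl, Fermat.Agent.S24.FF.ord_nonneg_of_mem c hsubm⟩
  have hJ' : (Loc1.jetAt (fun j => Loc3.tay htrM c ϖ hϖ (ϖ ^ e * d.cM j))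
      (fun j => Loc3.tay htr T t ht (t ^ Loc3.poleBound n Q₀ E₀ T * d.v j))
      (Loc3.mult n x) (Loc3.tay htrM c ϖ hϖ (d.ρ x t))).order =
      ((∑ i' ∈ Finset.univ.erase (⟨x, hT⟩ : {x' // cen htr htrM d.ρ x' c = T}),
        Loc3.mult n i'.1 * (c.ord (d.ρ x t - d.ρ i'.1 t)).toNat : ℕ) : ℕ∞) := by
    rw [hJ, Nat.cast_sum]
    refine Finset.sum_congr rfl fun i' hi' => ?_
    rw [(hz i' hi').1, Nat.cast_mul]
  -- the bridge
  obtain ⟨η, -, hη⟩ := d.chain T t ht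
  have hvan0 : ∀ i < mult n x,
      ∑ j, (ϖ ^ e * d.cM j) * d.ρ x ((⇑d.δ)^[i] (d.v j)) = 0 := by
    intro i hi
    calc ∑ j, (ϖ ^ e * d.cM j) * d.ρ x ((⇑d.δ)^[i] (d.v j))
        = ϖ ^ e * ∑ j, d.cM j * d.ρ x ((⇑d.δ)^[i] (d.v j)) := by
          rw [Finset.mul_sum]
          exact Finset.sum_congr rfl fun j _ => mul_assoc _ _ _
      _ = 0 := by rw [jets_van d hb x i hi, mul_zero]
  obtain ⟨hYm, hYt⟩ := bridge htr htrM d.δ hcx t ht ϖ hϖ η hη (fun j => ϖ ^ e * d.cM j) he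
    (t ^ Loc3.poleBound n Q₀ E₀ T) d.v hW (mult n x) hvan0
  have hsumΛ : ∑ j, (ϖ ^ e * d.cM j) * d.ρ x ((⇑d.δ)^[mult n x] (d.v j)) =
      ϖ ^ e * ∑ j, d.cM j * d.ρ x ((⇑d.δ)^[mult n x] (d.v j)) := by
    rw [Finset.mul_sum]
    exact Finset.sum_congr rfl fun j _ => mul_assoc _ _ _
  rw [hsumΛ] at hYm hYt
  rw [← mult_eq n x] at hYm hYt ⊢
  have hfac : ((Loc3.mult n x).factorial : K) ≠ 0 :=
    Nat.cast_ne_zero.mpr (Nat.factorial_ne_zero _)
  have hYt' := congrArg PowerSeries.order hYt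
  rw [order_smul_of_ne_zero hfac] at hYt'
  change _ = (Loc1.jetAt (fun j => Loc3.tay htrM c ϖ hϖ (ϖ ^ e * d.cM j))
      (fun j => Loc3.tay htr T t ht (t ^ Loc3.poleBound n Q₀ E₀ T * d.v j))
      (Loc3.mult n x) (Loc3.tay htrM c ϖ hϖ (d.ρ x t))).order at hYt'
  rw [hJ'] at hYt'
  -- non-vanishing
  have hY0 : d.ρ x (η ^ Loc3.mult n x * t ^ Loc3.poleBound n Q₀ E₀ T) *
      (ϖ ^ e * ∑ j, d.cM j * d.ρ x ((⇑d.δ)^[Loc3.mult n x] (d.v j))) ≠ 0 := by
    intro h0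
    rw [h0, Loc3.tay_zero, PowerSeries.order_zero] at hYt'
    exact ENat.top_ne_natCast _ hYt'
  have hρne : d.ρ x (η ^ Loc3.mult n x * t ^ Loc3.poleBound n Q₀ E₀ T) ≠ 0 :=
    left_ne_zero_of_mul hY0
  have hϖe : ϖ ^ e ≠ 0 := pow_ne_zero e (R.Taylor.unif_ne_zero c hϖ)
  have hΛ : (∑ j, d.cM j * d.ρ x ((⇑d.δ)^[Loc3.mult n x] (d.v j))) ≠ 0 :=
    right_ne_zero_of_mul (right_ne_zero_of_mul hY0)
  refine ⟨hΛ, ?_⟩
  -- the order of `Y`
  rw [Loc3.order_tay htrM c ϖ hϖ hYm hY0] at hYt'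
  have hYnat := Nat.cast_injective (R := ℕ∞) hYt'
  have hYnn := Fermat.Agent.S24.FF.ord_nonneg_of_mem c hYm
  have hYint : c.ord (d.ρ x (η ^ Loc3.mult n x * t ^ Loc3.poleBound n Q₀ E₀ T) *
      (ϖ ^ e * ∑ j, d.cM j * d.ρ x ((⇑d.δ)^[Loc3.mult n x] (d.v j)))) =
      ∑ x' ∈ Finset.univ.erase x,
          if cen htr htrM d.ρ x' c = T then
            (mult n x' : ℤ) * c.ord (d.ρ x t - d.ρ x' t) else 0 := by
    rw [← Int.toNat_of_nonneg hYnn, hYnat, Nat.cast_sum,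
      ← sum_erase_subtype (fun x' => cen htr htrM d.ρ x' c = T) x hT
        (fun x' => (mult n x' : ℤ) * c.ord (d.ρ x t - d.ρ x' t))]
    refine Finset.sum_congr rfl fun i' hi' => ?_
    rw [Nat.cast_mul, Int.toNat_of_nonneg (hz i' hi').2, mult_eq]
  -- the order of the factors
  have hηt := eta_mul_eq_one htr T t ht d.δ η hη
  have hη0 : η ≠ 0 := left_ne_zero_of_mul (hηt ▸ one_ne_zero)
  have hδt0 : d.δ t ≠ 0 := right_ne_zero_of_mul (hηt ▸ one_ne_zero)
  have hordη : T.ord η = Dδ T := by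
    have h1 := T.ord_mul hη0 hδt0
    rw [hηt, T.ord_one, hDδ T t ht] at h1
    omega
  have ht0 : t ≠ 0 := R.Taylor.unif_ne_zero T ht
  have hordρ : c.ord (d.ρ x (η ^ Loc3.mult n x * t ^ Loc3.poleBound n Q₀ E₀ T)) =
      (Loc2.ram (d.ρ x) c : ℤ) *
        ((Loc3.mult n x : ℤ) * Dδ T + (Loc3.poleBound n Q₀ E₀ T : ℤ)) := by
    rw [ord_map htr htrM d.ρ x c, hT, T.ord_mul (pow_ne_zero _ hη0) (pow_ne_zero _ ht0),
      ord_pow_nat, hordη, R.Taylor.ord_unif_pow T ht]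
  rw [c.ord_mul hρne (mul_ne_zero hϖe hΛ), c.ord_mul hϖe hΛ, hordρ,
    R.Taylor.ord_unif_pow c hϖ] at hYint
  rw [← hYint]
  ring


variable {K F M : Type*} [Field K] [Field F] [Algebra K F] [Field M] [Algebra K M]
variable [IsAlgClosed K] [CharZero K] [Algebra.EssFiniteType K F]
variable [Algebra.EssFiniteType K M]

/-! ### DJ: the order of the leading jet at every point -/

/-- **DJ.**  At a place `c` of `M` (normalising exponent `e`) the leading jet at the point `x`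
(the first derivative at the generic point, the `n`-th at a moving point) is non-zero and its
order is `- e - e_x (μ_x Dδ(T) + (n E₀ + Q₀)(T)) + ∑_{x' ≠ x} μ_x' coinc(x, x')`, `T` the centre
of `x`. -/
theorem ord_lead (htr : Algebra.trdeg K F = 1) (htrM : Algebra.trdeg K M = 1) {n g m : ℕ}
    (hn : 0 < n) {Q₀ : Place K F} {E₀ : Finset (Place K F)} (d : Loc3.Data htr M n g m Q₀ E₀)
    (hb : d.b₁ = 1) (Dδ : Divisor K F)
    (hDδ : ∀ (v : Place K F) (π : F), v.ord π = 1 → v.ord (d.δ π) = -Dδ v)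
    (c : Place K M) (ϖ : M) (hϖ : c.ord ϖ = 1) (e : ℕ)
    (he : ∀ j, ϖ ^ e * d.cM j ∈ c.toValuationSubring)
    (he0 : ∃ j, d.cM j ≠ 0 ∧ c.ord (ϖ ^ e * d.cM j) = 0) (x : Option (Fin g)) :
    (∑ j, d.cM j * d.ρ x ((⇑d.δ)^[mult n x] (d.v j))) ≠ 0 ∧
    c.ord (∑ j, d.cM j * d.ρ x ((⇑d.δ)^[mult n x] (d.v j))) =
      -(e : ℤ) - (Loc2.ram (d.ρ x) c : ℤ) *
          ((mult n x : ℤ) * Dδ (cen htr htrM d.ρ x c) +
            ((n : ℤ) • ∑ P ∈ E₀, Finsupp.single P (1 : ℤ) + Finsupp.single Q₀ 1 : Divisor K F)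
              (cen htr htrM d.ρ x c)) +
        ∑ x' ∈ Finset.univ.erase x, (mult n x' : ℤ) * coinc htr htrM d.ρ x x' c := by
  classical
  obtain ⟨h1, h2⟩ := ord_lead_aux htr htrM d hb Dδ hDδ c ϖ hϖ e he he0 x
    (cen htr htrM d.ρ x c) rfl (unif (cen htr htrM d.ρ x c)) (ord_unif _)
  refine ⟨h1, ?_⟩
  rw [h2]
  have hq := Loc3.poleDiv_apply n Q₀ E₀ (cen htr htrM d.ρ x c)
  have hsum : (∑ x' ∈ Finset.univ.erase x,
      if cen htr htrM d.ρ x' c = cen htr htrM d.ρ x c then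
        (mult n x' : ℤ) * c.ord (d.ρ x (unif (cen htr htrM d.ρ x c)) -
          d.ρ x' (unif (cen htr htrM d.ρ x c))) else 0) =
      ∑ x' ∈ Finset.univ.erase x, (mult n x' : ℤ) * coinc htr htrM d.ρ x x' c := by
    refine Finset.sum_congr rfl fun x' _ => ?_
    split_ifs with h
    · rw [coinc_of_eq htr htrM d.ρ h.symm]
    · rw [coinc_of_ne htr htrM d.ρ (Ne.symm h), mul_zero]
  rw [hsum]
  congr 2
  congr 2
  exact hq.symm

end Fermat.Agent.S27.L.Jet1g
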