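import Mathlib
import Fermat.Agent.S27.L.Jet1g

/-!
# Program PJ (statement S27), strand L: the order of the leading jet, any profile

`F / K` is the function field of the curve, `M / K` the function field of a configuration,
`ρ x : F →ₐ[K] M`, `x : X`, finitely many pairwise distinct points with multiplicities `μ x`, and
`∑ j, cM j ⊗ v j` a function on the configuration whose jets of order `< μ x` (for a derivation
`δ` of `F` with the chain rule at every place) vanish at the point `x`, for every `x`.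

At a place `c` of `M` (uniformiser `ϖ`, exponent `e` with `ϖ ^ e * cM j` regular at `c`), a place
`T` of `F` with uniformiser `t` and a pole bound `q` (`t ^ q * v j` regular at `T`), ASSUME that the
closed fibre of the local series has order exactly `∑ μ x'` over the points `x'` with centre `T`
(this is the last conjunct of `Loc3.loc1_hyps`: the degree count).  Then at every point `x` with
centre `T` the leading jet `Λ x = ∑ j, cM j * ρ x (δ^[μ x] (v j))` is non-zero and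

  `ord_c Λ x = - e - e_x (μ x * Dδ(T) + q) + ∑_{x' ≠ x, centre T} μ x' * ord_c (ρ x t - ρ x' t)`

(`ord_lead_gen`).  No structure is used: the statement is in the vocabulary of `HB/Loc2`,
`HB/Loc3` (`IsCentre`, `tay`, `ChainRule`), so that it serves any profile of multiplicities.
-/

set_option autoImplicit false

open AlgebraicCurve

namespace Fermat.Agent.S27.L.JetGen

open Fermat.Agent.S17 Fermat.Agent.S17.D Fermat.Agent.S17.HB Fermat.Agent.S17.HB.Deg

variable {K F M : Type*} [Field K] [Field F] [Algebra K F] [Field M] [Algebra K M]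
variable [IsAlgClosed K] [CharZero K] [Algebra.EssFiniteType K F]
variable [Algebra.EssFiniteType K M]

open Classical in
/-- **DJ for any profile.**  The order at `c` of the leading jet at a point `x` with centre `T`,
from the exact order of the closed fibre at `T`. -/
theorem ord_lead_gen (htr : Algebra.trdeg K F = 1) (htrM : Algebra.trdeg K M = 1)
    {X : Type*} [Fintype X] [DecidableEq X] (ρ : X → (F →ₐ[K] M)) (hρ : Function.Injective ρ)
    (μ : X → ℕ) {ι : Type*} [Fintype ι] (cM : ι → M) (v : ι → F)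
    (δ : Derivation K F F) (chain : Loc3.ChainRule htr δ)
    (hjets : ∀ x, ∀ i < μ x, ∑ j, cM j * ρ x ((⇑δ)^[i] (v j)) = 0)
    (Dδ : Divisor K F)
    (hDδ : ∀ (w : Place K F) (π : F), w.ord π = 1 → w.ord (δ π) = -Dδ w)
    (c : Place K M) (ϖ : M) (hϖ : c.ord ϖ = 1) (e : ℕ)
    (he : ∀ j, ϖ ^ e * cM j ∈ c.toValuationSubring)
    (cen : X → Place K F) (hcen : ∀ x, Loc3.IsCentre (ρ x) c (cen x))
    (T : Place K F) (t : F) (ht : T.ord t = 1) (q : ℕ)
    (hW : ∀ j, t ^ q * v j ∈ T.toValuationSubring)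
    (hord : (∑ j, PowerSeries.constantCoeff (Loc3.tay htrM c ϖ hϖ (ϖ ^ e * cM j)) •
        Loc3.tay htr T t ht (t ^ q * v j)).order =
      ((∑ x : {x : X // cen x = T}, μ x.1 : ℕ) : ℕ∞))
    (x : X) (hx : cen x = T) :
    (∑ j, cM j * ρ x ((⇑δ)^[μ x] (v j))) ≠ 0 ∧
    c.ord (∑ j, cM j * ρ x ((⇑δ)^[μ x] (v j))) =
      -(e : ℤ) - (Loc2.ram (ρ x) c : ℤ) * ((μ x : ℤ) * Dδ T + (q : ℤ)) +
        ∑ x' ∈ Finset.univ.erase x,
          if cen x' = T then (μ x' : ℤ) * c.ord (ρ x t - ρ x' t) else 0 := by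
  have hcx : Loc3.IsCentre (ρ x) c T := by
    have h := hcen x
    rwa [hx] at h
  have hc : ∀ x' : {x' : X // cen x' = T}, Loc3.IsCentre (ρ x'.1) c T := fun x' => by
    have h := hcen x'.1
    rwa [x'.2] at h
  have htm : t ∈ T.toValuationSubring := R.Taylor.unif_mem T ht
  have hρt : ∀ x' : {x' : X // cen x' = T}, ρ x'.1 t ∈ c.toValuationSubring :=
    fun x' => (hc x').map_mem htm
  have hr0 : ∀ x' : {x' : X // cen x' = T},
      PowerSeries.constantCoeff (Loc3.tay htrM c ϖ hϖ (ρ x'.1 t)) = 0 :=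
    fun x' => (Loc3.tay_map_eq_subst htr htrM (hc x') t ht ϖ hϖ).1
  have hrinj : Function.Injective
      (fun x' : {x' : X // cen x' = T} => Loc3.tay htrM c ϖ hϖ (ρ x'.1 t)) :=
    fun a b hab => Subtype.ext (hρ (Loc3.eq_of_tay_eq htr htrM (hc a) (hc b) t ht ϖ hϖ hab))
  -- the jets of `t ^ q * v` with the multiplier `ϖ ^ e`
  have hvanq : ∀ y : X, ∀ i < μ y,
      ∑ j, (ϖ ^ e * cM j) * ρ y ((⇑δ)^[i] (t ^ q * v j)) = 0 := by
    intro y i hi
    have h1 := Loc3.van_mul (ρ y) δ cM i v (t ^ q) (fun l hl => hjets y l (by omega))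
    calc ∑ j, (ϖ ^ e * cM j) * ρ y ((⇑δ)^[i] (t ^ q * v j))
        = ϖ ^ e * ∑ j, cM j * ρ y ((⇑δ)^[i] (t ^ q * v j)) := by
          rw [Finset.mul_sum]
          exact Finset.sum_congr rfl fun j _ => mul_assoc _ _ _
      _ = 0 := by rw [h1, mul_zero]
  have hvan : ∀ x' : {x' : X // cen x' = T}, ∀ i < μ x'.1,
      ∑ j, Loc3.tay htrM c ϖ hϖ (ϖ ^ e * cM j) *
        (hasse i (Loc3.tay htr T t ht (t ^ q * v j))).subst
          (Loc3.tay htrM c ϖ hϖ (ρ x'.1 t)) = 0 :=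
    fun x' => Loc3.local_van htr htrM δ chain (hc x') t ht ϖ hϖ (fun j => ϖ ^ e * cM j) he
      (fun j => t ^ q * v j) hW (μ x'.1) (hvanq x'.1)
  -- the normal form
  have hJ := Loc1Gen.order_jetAt (fun j => Loc3.tay htrM c ϖ hϖ (ϖ ^ e * cM j))
    (fun j => Loc3.tay htr T t ht (t ^ q * v j))
    (fun x' : {x' : X // cen x' = T} => Loc3.tay htrM c ϖ hϖ (ρ x'.1 t))
    (fun x' => μ x'.1) hr0 hrinj hvan hord ⟨x, hx⟩
  -- the orders of the differences
  have hz : ∀ i' ∈ Finset.univ.erase (⟨x, hx⟩ : {x' : X // cen x' = T}),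
      (Loc3.tay htrM c ϖ hϖ (ρ x t) - Loc3.tay htrM c ϖ hϖ (ρ i'.1 t)).order
        = (((c.ord (ρ x t - ρ i'.1 t)).toNat : ℕ) : ℕ∞) ∧
      0 ≤ c.ord (ρ x t - ρ i'.1 t) := by
    intro i' hi'
    have hne : i' ≠ ⟨x, hx⟩ := Finset.ne_of_mem_erase hi'
    have hm1 : ρ x t ∈ c.toValuationSubring := hρt ⟨x, hx⟩
    have hm2 : ρ i'.1 t ∈ c.toValuationSubring := hρt i'
    have hsubm : ρ x t - ρ i'.1 t ∈ c.toValuationSubring := sub_mem hm1 hm2
    have hsub : Loc3.tay htrM c ϖ hϖ (ρ x t - ρ i'.1 t) =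
        Loc3.tay htrM c ϖ hϖ (ρ x t) - Loc3.tay htrM c ϖ hϖ (ρ i'.1 t) := by
      have h1 := Loc3.tay_add htrM c ϖ hϖ hsubm hm2
      rw [sub_add_cancel] at h1
      rw [h1, add_sub_cancel_right]
    have hne0 : ρ x t - ρ i'.1 t ≠ 0 := by
      intro h0
      apply hne
      apply hrinj
      show Loc3.tay htrM c ϖ hϖ (ρ i'.1 t) = Loc3.tay htrM c ϖ hϖ (ρ x t)
      rw [sub_eq_zero.mp h0]
    rw [← hsub, Loc3.order_tay htrM c ϖ hϖ hsubm hne0]
    exact ⟨rfl, Fermat.Agent.S24.FF.ord_nonneg_of_mem c hsubm⟩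
  have hJ' : (Loc1.jetAt (fun j => Loc3.tay htrM c ϖ hϖ (ϖ ^ e * cM j))
      (fun j => Loc3.tay htr T t ht (t ^ q * v j))
      (μ x) (Loc3.tay htrM c ϖ hϖ (ρ x t))).order =
      ((∑ i' ∈ Finset.univ.erase (⟨x, hx⟩ : {x' : X // cen x' = T}),
        μ i'.1 * (c.ord (ρ x t - ρ i'.1 t)).toNat : ℕ) : ℕ∞) := by
    rw [hJ, Nat.cast_sum]
    refine Finset.sum_congr rfl fun i' hi' => ?_
    rw [(hz i' hi').1, Nat.cast_mul]
  -- the bridge
  obtain ⟨η, -, hη⟩ := chain T t ht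
  have hvan0 : ∀ i < μ x, ∑ j, (ϖ ^ e * cM j) * ρ x ((⇑δ)^[i] (v j)) = 0 := by
    intro i hi
    calc ∑ j, (ϖ ^ e * cM j) * ρ x ((⇑δ)^[i] (v j))
        = ϖ ^ e * ∑ j, cM j * ρ x ((⇑δ)^[i] (v j)) := by
          rw [Finset.mul_sum]
          exact Finset.sum_congr rfl fun j _ => mul_assoc _ _ _
      _ = 0 := by rw [hjets x i hi, mul_zero]
  obtain ⟨hYm, hYt⟩ := Jet1g.bridge htr htrM δ hcx t ht ϖ hϖ η hη (fun j => ϖ ^ e * cM j) he
    (t ^ q) v hW (μ x) hvan0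
  have hsumΛ : ∑ j, (ϖ ^ e * cM j) * ρ x ((⇑δ)^[μ x] (v j)) =
      ϖ ^ e * ∑ j, cM j * ρ x ((⇑δ)^[μ x] (v j)) := by
    rw [Finset.mul_sum]
    exact Finset.sum_congr rfl fun j _ => mul_assoc _ _ _
  rw [hsumΛ] at hYm hYt
  have hfac : ((μ x).factorial : K) ≠ 0 := Nat.cast_ne_zero.mpr (Nat.factorial_ne_zero _)
  have hYt' := congrArg PowerSeries.order hYt
  rw [Jet1g.order_smul_of_ne_zero hfac] at hYt'
  change _ = (Loc1.jetAt (fun j => Loc3.tay htrM c ϖ hϖ (ϖ ^ e * cM j))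
      (fun j => Loc3.tay htr T t ht (t ^ q * v j))
      (μ x) (Loc3.tay htrM c ϖ hϖ (ρ x t))).order at hYt'
  rw [hJ'] at hYt'
  -- non-vanishing
  have hY0 : ρ x (η ^ μ x * t ^ q) * (ϖ ^ e * ∑ j, cM j * ρ x ((⇑δ)^[μ x] (v j))) ≠ 0 := by
    intro h0
    rw [h0, Loc3.tay_zero, PowerSeries.order_zero] at hYt'
    exact ENat.top_ne_natCast _ hYt'
  have hρne : ρ x (η ^ μ x * t ^ q) ≠ 0 := left_ne_zero_of_mul hY0
  have hϖe : ϖ ^ e ≠ 0 := pow_ne_zero e (R.Taylor.unif_ne_zero c hϖ)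
  have hΛ : (∑ j, cM j * ρ x ((⇑δ)^[μ x] (v j))) ≠ 0 :=
    right_ne_zero_of_mul (right_ne_zero_of_mul hY0)
  refine ⟨hΛ, ?_⟩
  -- the order of `Y`
  rw [Loc3.order_tay htrM c ϖ hϖ hYm hY0] at hYt'
  have hYnat := Nat.cast_injective (R := ℕ∞) hYt'
  have hYnn := Fermat.Agent.S24.FF.ord_nonneg_of_mem c hYm
  have hYint : c.ord (ρ x (η ^ μ x * t ^ q) *
      (ϖ ^ e * ∑ j, cM j * ρ x ((⇑δ)^[μ x] (v j)))) =
      ∑ x' ∈ Finset.univ.erase x,
          if cen x' = T then (μ x' : ℤ) * c.ord (ρ x t - ρ x' t) else 0 := by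
    rw [← Int.toNat_of_nonneg hYnn, hYnat, Nat.cast_sum,
      ← Jet1g.sum_erase_subtype (fun x' => cen x' = T) x hx
        (fun x' => (μ x' : ℤ) * c.ord (ρ x t - ρ x' t))]
    refine Finset.sum_congr rfl fun i' hi' => ?_
    rw [Nat.cast_mul, Int.toNat_of_nonneg (hz i' hi').2]
  -- the order of the factors
  have hηt := eta_mul_eq_one htr T t ht δ η hη
  have hη0 : η ≠ 0 := left_ne_zero_of_mul (hηt ▸ one_ne_zero)
  have hδt0 : δ t ≠ 0 := right_ne_zero_of_mul (hηt ▸ one_ne_zero)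
  have hordη : T.ord η = Dδ T := by
    have h1 := T.ord_mul hη0 hδt0
    rw [hηt, T.ord_one, hDδ T t ht] at h1
    omega
  have ht0 : t ≠ 0 := R.Taylor.unif_ne_zero T ht
  have hcT : Loc2.centre (ρ x) (Loc2.algHom_isIntegral htr htrM (ρ x)) c = T :=
    Place.ext (by rw [Loc2.centre_toValuationSubring]; exact hcx.symm)
  have hordρ : c.ord (ρ x (η ^ μ x * t ^ q)) =
      (Loc2.ram (ρ x) c : ℤ) * ((μ x : ℤ) * Dδ T + (q : ℤ)) := by
    rw [Loc2.ord_map (ρ x) (Loc2.algHom_isIntegral htr htrM (ρ x)) c, hcT,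
      T.ord_mul (pow_ne_zero _ hη0) (pow_ne_zero _ ht0), Jet1g.ord_pow_nat, hordη,
      R.Taylor.ord_unif_pow T ht]
  rw [c.ord_mul hρne (mul_ne_zero hϖe hΛ), c.ord_mul hϖe hΛ, hordρ,
    R.Taylor.ord_unif_pow c hϖ] at hYint
  rw [← hYint]
  ring

end Fermat.Agent.S27.L.JetGen
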