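import Mathlib
import Fermat.Agent.S27.L.Defs
import Fermat.Agent.S27.L.Loc3
import Fermat.Agent.S27.L.JetGen

/-!
# Program PJ (statement S27), strand L, leaf DJ: the order of the leading jet at every point

`d : Data htr M ι μ m B δ` a profile configuration: points `ρ z : F →ₐ[K] M` with multiplicities
`μ z`, and the function `∑ j, cM j ⊗ v j` (`v j ∈ L(B)`) vanishing to order `μ z` at `ρ z`.  At a
place `c` of `M` (uniformiser `ϖ`, normalising exponent `e`) the leading jet at the point `z`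

  `Λ z = ∑ j, cM j * ρ z (δ^[μ z] (v j))`

is non-zero and

  `ord_c Λ z = - e - e_z (μ z * Dδ(T) + B(T)) + ∑_{z' ≠ z} μ z' * coinc(z, z')`,

`T` the centre of `z` at `c`, `e_z` the ramification index, `Dδ` the divisor of the derivation
(`ord_v (δ π) = - Dδ v` for a uniformiser `π` at `v`): `ord_lead`.

Proof: `JetGen.ord_lead_gen` (the structure-free form) at `T`, the chosen uniformiser of `T` and
the pole bound `(B T).toNat`, fed with the exact order of the closed fibre from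
`Loc3.loc1_hyps` (LOC3 for a profile) on the configuration `Jet.toConfig d`.
-/

set_option autoImplicit false

open AlgebraicCurve

namespace Fermat.Agent.S27.L

open Fermat.Agent.S17 Fermat.Agent.S17.D Fermat.Agent.S17.HB

variable {K F M : Type*} [Field K] [Field F] [Algebra K F] [Field M] [Algebra K M]
variable [IsAlgClosed K] [CharZero K] [Algebra.EssFiniteType K F] [Algebra.EssFiniteType K M]

namespace Jet

omit [Algebra.EssFiniteType K M] in
/-- A profile configuration as a configuration of `L/Loc3.lean`. -/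
def toConfig {htr : Algebra.trdeg K F = 1} {ι : Type*} [Fintype ι] {μ : ι → ℕ} {m : ℕ}
    {B : Divisor K F} {δ : Derivation K F F} (d : Data htr M ι μ m B δ) :
    Fermat.Agent.S27.L.Loc3.Config htr M (Fin (m + 1)) μ B where
  B_nonneg := d.B_nonneg
  degree_B := d.degree_B
  v := d.v
  v_indep := d.v_indep
  v_mem := d.v_mem
  ρ := d.ρ
  ρ_inj := d.ρ_inj
  cM := d.cM
  δ := δ
  chain := d.chain
  jets := d.jets

end Jet

/-! ### DJ: the order of the leading jet at every point -/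

/-- **DJ.**  At a place `c` of `M` (normalising exponent `e`) the leading jet at the point `z` is
non-zero and its order is `- e - e_z (μ_z Dδ(T) + B(T)) + ∑_{z' ≠ z} μ_z' coinc(z, z')`, `T` the
centre of `z`. -/
theorem ord_lead (htr : Algebra.trdeg K F = 1) (htrM : Algebra.trdeg K M = 1)
    {ι : Type*} [Fintype ι] [DecidableEq ι] {μ : ι → ℕ} {m : ℕ} {B : Divisor K F}
    {δ : Derivation K F F} (d : Data htr M ι μ m B δ) (hμ : ∀ z, 0 < μ z) (Dδ : Divisor K F)
    (hDδ : ∀ (v : Place K F) (π : F), v.ord π = 1 → v.ord (δ π) = -Dδ v)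
    (c : Place K M) (ϖ : M) (hϖ : c.ord ϖ = 1) (e : ℕ)
    (he : ∀ j, ϖ ^ e * d.cM j ∈ c.toValuationSubring)
    (he0 : ∃ j, d.cM j ≠ 0 ∧ c.ord (ϖ ^ e * d.cM j) = 0) (z : ι) :
    (∑ j, d.cM j * d.ρ z ((⇑δ)^[μ z] (d.v j))) ≠ 0 ∧
    c.ord (∑ j, d.cM j * d.ρ z ((⇑δ)^[μ z] (d.v j))) =
      -(e : ℤ) - (Loc2.ram (d.ρ z) c : ℤ) *
          ((μ z : ℤ) * Dδ (cen htr htrM (d.ρ z) c) + B (cen htr htrM (d.ρ z) c)) +
        ∑ z' ∈ Finset.univ.erase z, (μ z' : ℤ) * coinc htr htrM (d.ρ z) (d.ρ z') c := by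
  classical
  have hcen : ∀ z', Fermat.Agent.S17.HB.Loc3.IsCentre (d.ρ z') c (cen htr htrM (d.ρ z') c) :=
    fun z' => isCentre_cen htr htrM (d.ρ z') c
  have ht : (cen htr htrM (d.ρ z) c).ord (Deg.unif (cen htr htrM (d.ρ z) c)) = 1 :=
    Deg.ord_unif _
  obtain ⟨hW, -, -, -, -, hord⟩ := Fermat.Agent.S27.L.Loc3.loc1_hyps htr htrM (Jet.toConfig d) c
    (fun z' => cen htr htrM (d.ρ z') c) hcen ϖ hϖ e he he0
    (cen htr htrM (d.ρ z) c) (Deg.unif (cen htr htrM (d.ρ z) c)) ht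
    (fun j => Fermat.Agent.S17.HB.Loc3.tay htrM c ϖ hϖ (ϖ ^ e * d.cM j))
    (fun j => Fermat.Agent.S17.HB.Loc3.tay htr (cen htr htrM (d.ρ z) c)
      (Deg.unif (cen htr htrM (d.ρ z) c)) ht
      (Deg.unif (cen htr htrM (d.ρ z) c) ^ (B (cen htr htrM (d.ρ z) c)).toNat * d.v j))
    (fun _ => rfl) (fun _ => rfl)
    (fun z' => Fermat.Agent.S17.HB.Loc3.tay htrM c ϖ hϖ
      (d.ρ z'.1 (Deg.unif (cen htr htrM (d.ρ z) c)))) (fun _ => rfl)
  obtain ⟨h1, h2⟩ := JetGen.ord_lead_gen htr htrM d.ρ d.ρ_inj μ d.cM d.v δ d.chain d.jets Dδ hDδ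
    c ϖ hϖ e he (fun z' => cen htr htrM (d.ρ z') c) hcen
    (cen htr htrM (d.ρ z) c) (Deg.unif (cen htr htrM (d.ρ z) c)) ht
    (B (cen htr htrM (d.ρ z) c)).toNat hW hord z rfl
  refine ⟨h1, ?_⟩
  rw [h2, Int.toNat_of_nonneg (d.B_nonneg (cen htr htrM (d.ρ z) c))]
  congr 1
  refine Finset.sum_congr rfl fun z' _ => ?_
  split_ifs with h
  · rw [coinc_of_eq htr htrM h.symm]
  · rw [coinc_of_ne htr htrM (Ne.symm h), mul_zero]

end Fermat.Agent.S27.L
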