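import Mathlib
import Fermat.Agent.S17.H.Glob.Eval
import Fermat.Agent.S17.HB.Loc1Gen
import Fermat.Agent.S17.HB.Loc2
import Fermat.Agent.S17.HB.Loc3
import Fermat.Agent.S17.HB.Deg.Defs

/-!
# Program PJ (statement S27), strand L, leaf DV1: the order of the value at a fixed general place
(type `(1; n^g)`: one simple moving point and `g` moving points of multiplicity `n`)

For a place `Q` of `F` off `E₀` and `Q₀`, the value `Φ_Q = ∑ j, v j (Q) * c j` of the generic
division function at `Q` is a non-zero element of `M`, and at every place `c` of `M` (normalising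
exponent `e`) `ord_c Φ_Q = - e + ∑_{x : centre of x at c = Q} μ_x e_x`.

Proof: `Loc3.loc1_hyps_of_easy` at `(Q, unif Q)` (no pole allowed there) gives the hypotheses of
the normal form LOC1; `Loc1Gen.order_value_zero` computes the order of `Ψ(ϖ, 0)`, which is the
expansion at `c` of `ϖ ^ e * Φ_Q` (the constant coefficient of a Taylor expansion is the value);
the zeros `r x` have order `ram (ρ x) c`.
-/

set_option autoImplicit false

open AlgebraicCurve

namespace Fermat.Agent.S27.L.DV1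

open Fermat.Agent.S17 Fermat.Agent.S17.D Fermat.Agent.S17.HB Fermat.Agent.S17.HB.Deg

variable {K F M : Type*} [Field K] [Field F] [Algebra K F] [Field M] [Algebra K M]
variable [IsAlgClosed K] [CharZero K] [Algebra.EssFiniteType K F]

omit [IsAlgClosed K] [CharZero K] in
/-- The easy half of LOC1 in the shape `Loc3` consumes. -/
theorem easyHalf (ι : Type*) [Fintype ι] : Loc3.EasyHalf K ι :=
  fun _ C W r μ h0 hr hv => Loc1.X_pow_dvd_closedFibre C W r μ h0 hr hv

/-- The constant coefficient of the Taylor expansion at a place is the value at the place. -/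
theorem constantCoeff_tay (htr : Algebra.trdeg K F = 1) (v : Place K F) (π : F)
    (hπ : v.ord π = 1) {f : F} (hf : f ∈ v.toValuationSubring) :
    PowerSeries.constantCoeff (Loc3.tay htr v π hπ f) = H.Glob.evalAt v f := by
  have hg : f - algebraMap K F (PowerSeries.constantCoeff (Loc3.tay htr v π hπ f))
      ∈ v.toValuationSubring := sub_mem hf (v.algebraMap_mem' _)
  have h1 : Loc3.tay htr v π hπ f
      = Loc3.tay htr v π hπ
          (f - algebraMap K F (PowerSeries.constantCoeff (Loc3.tay htr v π hπ f)))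
        + PowerSeries.C (PowerSeries.constantCoeff (Loc3.tay htr v π hπ f)) := by
    rw [← Loc3.tay_algebraMap htr v π hπ (PowerSeries.constantCoeff (Loc3.tay htr v π hπ f)),
      ← Loc3.tay_add htr v π hπ hg (v.algebraMap_mem' _), sub_add_cancel]
  have h2 : PowerSeries.constantCoeff (Loc3.tay htr v π hπ
      (f - algebraMap K F (PowerSeries.constantCoeff (Loc3.tay htr v π hπ f)))) = 0 := by
    have h := congrArg PowerSeries.constantCoeff h1
    rw [map_add, PowerSeries.constantCoeff_C] at h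
    have h' : 0 + PowerSeries.constantCoeff (Loc3.tay htr v π hπ f)
        = PowerSeries.constantCoeff (Loc3.tay htr v π hπ
            (f - algebraMap K F (PowerSeries.constantCoeff (Loc3.tay htr v π hπ f))))
          + PowerSeries.constantCoeff (Loc3.tay htr v π hπ f) := by
      rw [zero_add]
      exact h
    exact (add_right_cancel h').symm
  have h3 := (Loc3.constantCoeff_tay_eq_zero_iff htr v π hπ hg).mp h2
  have h4 : v.toValuationSubring.valuation
      (f - algebraMap K F (PowerSeries.constantCoeff (Loc3.tay htr v π hπ f))) < 1 :=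
    (H.Glob.valuation_lt_one_iff v _).mpr h3
  exact ((H.Glob.isEval_evalAt htr).eq_of_valuation_lt hf h4).symm

variable [Algebra.EssFiniteType K M]

open Classical in
/-- **DV.**  For a place `Q` of `F` off `E₀` and `Q₀`, the value `Φ_Q = ∑ v j (Q) c j` of the
generic function at `Q` is non-zero and `ord_c Φ_Q = - e + ∑_{x : centre = Q} μ_x e_x`. -/
theorem ord_value (htr : Algebra.trdeg K F = 1) (htrM : Algebra.trdeg K M = 1) {n g m : ℕ}
    {Q₀ : Place K F} {E₀ : Finset (Place K F)} (d : Loc3.Data htr M n g m Q₀ E₀)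
    (Q : Place K F) (hQE : Q ∉ E₀) (hQ0 : Q ≠ Q₀)
    (c : Place K M) (ϖ : M) (hϖ : c.ord ϖ = 1) (e : ℕ)
    (he : ∀ j, ϖ ^ e * d.cM j ∈ c.toValuationSubring)
    (he0 : ∃ j, d.cM j ≠ 0 ∧ c.ord (ϖ ^ e * d.cM j) = 0) :
    (∑ j, algebraMap K M (H.Glob.evalAt Q (d.v j)) * d.cM j) ≠ 0 ∧
    c.ord (∑ j, algebraMap K M (H.Glob.evalAt Q (d.v j)) * d.cM j) =
      -(e : ℤ) + ∑ x : Option (Fin g),
        (if cen htr htrM d.ρ x c = Q then (mult n x : ℤ) * (Loc2.ram (d.ρ x) c : ℤ) else 0) := by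
  have hpb : Loc3.poleBound n Q₀ E₀ Q = 0 := by
    unfold Loc3.poleBound
    rw [if_neg hQE, if_neg hQ0]
  have ht : Q.ord (unif Q) = 1 := ord_unif Q
  have hcen : ∀ x, Loc3.IsCentre (d.ρ x) c (cen htr htrM d.ρ x c) :=
    fun x => cen_toValuationSubring htr htrM d.ρ x c
  obtain ⟨hW, hρ, hr0, hrinj, hvan, hord⟩ := Loc3.loc1_hyps_of_easy htr htrM
    (easyHalf (Fin (m + 1))) d c (fun x => cen htr htrM d.ρ x c) hcen ϖ hϖ e he he0 Q
    (unif Q) ht (fun j => Loc3.tay htrM c ϖ hϖ (ϖ ^ e * d.cM j))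
    (fun j => Loc3.tay htr Q (unif Q) ht ((unif Q) ^ Loc3.poleBound n Q₀ E₀ Q * d.v j))
    (fun _ => rfl) (fun _ => rfl)
    (fun x => Loc3.tay htrM c ϖ hϖ (d.ρ x.1 (unif Q))) (fun _ => rfl)
  have hval := Loc1Gen.order_value_zero (fun j => Loc3.tay htrM c ϖ hϖ (ϖ ^ e * d.cM j))
    (fun j => Loc3.tay htr Q (unif Q) ht ((unif Q) ^ Loc3.poleBound n Q₀ E₀ Q * d.v j))
    (fun x : {x : Option (Fin g) // cen htr htrM d.ρ x c = Q} =>
      Loc3.tay htrM c ϖ hϖ (d.ρ x.1 (unif Q)))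
    (fun x => Loc3.mult n x.1) hr0 hrinj hvan hord
  -- the left side is the expansion of `ϖ ^ e * Φ`
  have hmem : ∀ j, (ϖ ^ e * d.cM j) * algebraMap K M (H.Glob.evalAt Q (d.v j))
      ∈ c.toValuationSubring := fun j => mul_mem (he j) (c.algebraMap_mem' _)
  have hsum : ϖ ^ e * (∑ j, algebraMap K M (H.Glob.evalAt Q (d.v j)) * d.cM j)
      = ∑ j, (ϖ ^ e * d.cM j) * algebraMap K M (H.Glob.evalAt Q (d.v j)) := by
    rw [Finset.mul_sum]
    exact Finset.sum_congr rfl fun j _ => by ring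
  have hΦmem : ϖ ^ e * (∑ j, algebraMap K M (H.Glob.evalAt Q (d.v j)) * d.cM j)
      ∈ c.toValuationSubring := by
    rw [hsum]
    exact sum_mem fun j _ => hmem j
  have hvj : ∀ j, d.v j ∈ Q.toValuationSubring := fun j => by
    have h := hW j
    rwa [hpb, pow_zero, one_mul] at h
  have hlhs : (∑ l, Loc3.tay htrM c ϖ hϖ (ϖ ^ e * d.cM l) * PowerSeries.C
        (PowerSeries.constantCoeff
          (Loc3.tay htr Q (unif Q) ht ((unif Q) ^ Loc3.poleBound n Q₀ E₀ Q * d.v l))))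
      = Loc3.tay htrM c ϖ hϖ
          (ϖ ^ e * (∑ j, algebraMap K M (H.Glob.evalAt Q (d.v j)) * d.cM j)) := by
    rw [hsum, Loc3.tay_sum htrM c ϖ hϖ _ _ (fun j _ => hmem j)]
    refine Finset.sum_congr rfl fun j _ => ?_
    rw [Loc3.tay_mul htrM c ϖ hϖ (he j) (c.algebraMap_mem' _), Loc3.tay_algebraMap, hpb,
      pow_zero, one_mul, constantCoeff_tay htr Q (unif Q) ht (hvj j)]
  rw [hlhs] at hval
  -- the orders of the zeros
  have hrx : ∀ x : {x : Option (Fin g) // cen htr htrM d.ρ x c = Q},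
      (Loc3.tay htrM c ϖ hϖ (d.ρ x.1 (unif Q))).order = ((Loc2.ram (d.ρ x.1) c : ℕ) : ℕ∞) := by
    intro x
    have ht0 : unif Q ≠ 0 := R.Taylor.unif_ne_zero Q ht
    have hρt0 : d.ρ x.1 (unif Q) ≠ 0 := (map_ne_zero (d.ρ x.1)).mpr ht0
    have h1 : c.ord (d.ρ x.1 (unif Q)) = (Loc2.ram (d.ρ x.1) c : ℤ) := by
      rw [ord_map htr htrM d.ρ x.1 c (unif Q), x.2, ht, mul_one]
    rw [Loc3.order_tay htrM c ϖ hϖ (hρ x) hρt0, h1, Int.toNat_natCast]
  have hsumx : (∑ x : {x : Option (Fin g) // cen htr htrM d.ρ x c = Q},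
        ((Loc3.mult n x.1 : ℕ) : ℕ∞) * (Loc3.tay htrM c ϖ hϖ (d.ρ x.1 (unif Q))).order)
      = ((∑ x : {x : Option (Fin g) // cen htr htrM d.ρ x c = Q},
          Loc3.mult n x.1 * Loc2.ram (d.ρ x.1) c : ℕ) : ℕ∞) := by
    rw [Nat.cast_sum]
    refine Finset.sum_congr rfl fun x _ => ?_
    rw [hrx x, Nat.cast_mul]
  rw [hsumx] at hval
  -- non-vanishing
  have htay_ne : Loc3.tay htrM c ϖ hϖ
      (ϖ ^ e * (∑ j, algebraMap K M (H.Glob.evalAt Q (d.v j)) * d.cM j)) ≠ 0 := by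
    intro h0
    rw [h0, PowerSeries.order_zero] at hval
    exact ENat.top_ne_coe _ hval
  have hϖΦ : ϖ ^ e * (∑ j, algebraMap K M (H.Glob.evalAt Q (d.v j)) * d.cM j) ≠ 0 :=
    fun h0 => htay_ne (by rw [h0]; exact Loc3.tay_zero htrM c ϖ hϖ)
  have hΦ0 : (∑ j, algebraMap K M (H.Glob.evalAt Q (d.v j)) * d.cM j) ≠ 0 :=
    right_ne_zero_of_mul hϖΦ
  refine ⟨hΦ0, ?_⟩
  have hordΦ : c.ord (ϖ ^ e * (∑ j, algebraMap K M (H.Glob.evalAt Q (d.v j)) * d.cM j))
      = (e : ℤ) + c.ord (∑ j, algebraMap K M (H.Glob.evalAt Q (d.v j)) * d.cM j) :=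
    Loc3.ord_pow_mul c hϖ e hΦ0
  have hnn : 0 ≤ (e : ℤ) + c.ord (∑ j, algebraMap K M (H.Glob.evalAt Q (d.v j)) * d.cM j) := by
    have h := Fermat.Agent.S24.FF.ord_nonneg_of_mem c hΦmem
    rwa [hordΦ] at h
  rw [Loc3.order_tay htrM c ϖ hϖ hΦmem hϖΦ, hordΦ] at hval
  have hnat : ((e : ℤ) + c.ord (∑ j, algebraMap K M (H.Glob.evalAt Q (d.v j)) * d.cM j)).toNat
      = ∑ x : {x : Option (Fin g) // cen htr htrM d.ρ x c = Q},
          Loc3.mult n x.1 * Loc2.ram (d.ρ x.1) c := by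
    exact_mod_cast hval
  have hint : (e : ℤ) + c.ord (∑ j, algebraMap K M (H.Glob.evalAt Q (d.v j)) * d.cM j)
      = ((∑ x : {x : Option (Fin g) // cen htr htrM d.ρ x c = Q},
          Loc3.mult n x.1 * Loc2.ram (d.ρ x.1) c : ℕ) : ℤ) := by
    rw [← hnat, Int.toNat_of_nonneg hnn]
  have hconv : ((∑ x : {x : Option (Fin g) // cen htr htrM d.ρ x c = Q},
        Loc3.mult n x.1 * Loc2.ram (d.ρ x.1) c : ℕ) : ℤ)
      = ∑ x : Option (Fin g),
          (if cen htr htrM d.ρ x c = Q then (mult n x : ℤ) * (Loc2.ram (d.ρ x) c : ℤ)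
            else 0) := by
    have h1 : ∑ x : {x : Option (Fin g) // cen htr htrM d.ρ x c = Q},
          ((Loc3.mult n x.1 * Loc2.ram (d.ρ x.1) c : ℕ) : ℤ)
        = ∑ x ∈ Finset.univ.filter (fun x : Option (Fin g) => cen htr htrM d.ρ x c = Q),
            ((Loc3.mult n x * Loc2.ram (d.ρ x) c : ℕ) : ℤ) :=
      (Finset.sum_subtype _ (fun x => by simp)
        (fun x : Option (Fin g) => ((Loc3.mult n x * Loc2.ram (d.ρ x) c : ℕ) : ℤ))).symm
    rw [Nat.cast_sum, h1, Finset.sum_filter]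
    refine Finset.sum_congr rfl fun x _ => ?_
    have hm : Loc3.mult n x = mult n x := by cases x <;> rfl
    split_ifs
    · rw [hm, Nat.cast_mul]
    · rfl
  rw [← hconv, ← hint]
  ring

end Fermat.Agent.S27.L.DV1
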