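import Mathlib
import Fermat.Agent.S17.H.Glob.Eval
import Fermat.Agent.S17.HB.Loc1Gen
import Fermat.Agent.S27.L.Defs
import Fermat.Agent.S27.L.Loc3
import Fermat.Agent.S27.L.DV1

/-!
# Program PJ (statement S27), strand L, leaf DV: the order of the value at a fixed place off `B`
(profile form)

For a profile configuration `d : Data htr M ι μ m B δ` and a place `Q` of `F` off the support of
`B`, the value `Φ_Q = ∑ j, v j (Q) * cM j` of the function at `Q` is a non-zero element of `M`,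
and at every place `c` of `M` (normalising exponent `e`)

  `ord_c Φ_Q = - e + ∑_{z : centre of z at c = Q} μ_z e_z`.

Proof: `Loc3.loc1_hyps` (LOC3 for a profile) at `(Q, unif Q)` - no pole is allowed there - gives
the hypotheses of the normal form LOC1; `Loc1Gen.order_value_zero` computes the order of
`Ψ(ϖ, 0)`, which is the expansion at `c` of `ϖ ^ e * Φ_Q` (the constant coefficient of a Taylor
expansion is the value, `DV1.constantCoeff_tay`); the zero `r z` has order `ram (ρ z) c`.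
-/

set_option autoImplicit false

open AlgebraicCurve

namespace Fermat.Agent.S27.L

open Fermat.Agent.S17 Fermat.Agent.S17.D Fermat.Agent.S17.HB

variable {K F M : Type*} [Field K] [Field F] [Algebra K F] [Field M] [Algebra K M]
variable [IsAlgClosed K] [CharZero K] [Algebra.EssFiniteType K F] [Algebra.EssFiniteType K M]

namespace Value

omit [Algebra.EssFiniteType K M] in
/-- A profile configuration in the vocabulary of `L/Loc3`. -/
def toConfig {htr : Algebra.trdeg K F = 1} {ι : Type*} [Fintype ι] {μ : ι → ℕ} {m : ℕ}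
    {B : Divisor K F} {δ : Derivation K F F} (d : Data htr M ι μ m B δ) :
    Loc3.Config htr M (Fin (m + 1)) μ B where
  B_nonneg := d.B_nonneg
  degree_B := d.degree_B
  v := d.v
  v_indep := d.v_indep
  v_mem := d.v_mem
  ρ := d.ρ
  ρ_inj := d.ρ_inj
  cM := d.cM
  δ := δ
  chain := d.chain
  jets := d.jets

end Value

open Classical in
/-- **DV.**  For a place `Q` of `F` off the support of `B`, the value `Φ_Q = ∑ v j (Q) cM j` of
the function at `Q` is non-zero and `ord_c Φ_Q = - e + ∑_{z : centre = Q} μ_z e_z`. -/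
theorem ord_value (htr : Algebra.trdeg K F = 1) (htrM : Algebra.trdeg K M = 1)
    {ι : Type*} [Fintype ι] {μ : ι → ℕ} {m : ℕ} {B : Divisor K F} {δ : Derivation K F F}
    (d : Data htr M ι μ m B δ) (hμ : ∀ z, 0 < μ z) (Q : Place K F) (hQ : B Q = 0)
    (c : Place K M) (ϖ : M) (hϖ : c.ord ϖ = 1) (e : ℕ)
    (he : ∀ j, ϖ ^ e * d.cM j ∈ c.toValuationSubring)
    (he0 : ∃ j, d.cM j ≠ 0 ∧ c.ord (ϖ ^ e * d.cM j) = 0) :
    (∑ j, algebraMap K M (H.Glob.evalAt Q (d.v j)) * d.cM j) ≠ 0 ∧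
    c.ord (∑ j, algebraMap K M (H.Glob.evalAt Q (d.v j)) * d.cM j) =
      -(e : ℤ) + ∑ z : ι,
        (if cen htr htrM (d.ρ z) c = Q then (μ z : ℤ) * (Loc2.ram (d.ρ z) c : ℤ) else 0) := by
  have hpb : (B Q).toNat = 0 := by rw [hQ]; rfl
  have ht : Q.ord (Deg.unif Q) = 1 := Deg.ord_unif Q
  obtain ⟨hW, hρ, hr0, hrinj, hvan, hord⟩ := Loc3.loc1_hyps htr htrM (Value.toConfig d) c
    (fun z => cen htr htrM (d.ρ z) c) (fun z => isCentre_cen htr htrM (d.ρ z) c) ϖ hϖ e he he0 Q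
    (Deg.unif Q) ht (fun j => Loc3.tay htrM c ϖ hϖ (ϖ ^ e * d.cM j))
    (fun j => Loc3.tay htr Q (Deg.unif Q) ht ((Deg.unif Q) ^ (B Q).toNat * d.v j))
    (fun _ => rfl) (fun _ => rfl)
    (fun z => Loc3.tay htrM c ϖ hϖ (d.ρ z.1 (Deg.unif Q))) (fun _ => rfl)
  have hρ' : ∀ z : {z : ι // cen htr htrM (d.ρ z) c = Q},
      d.ρ z.1 (Deg.unif Q) ∈ c.toValuationSubring := hρ
  have hW' : ∀ j, (Deg.unif Q) ^ (B Q).toNat * d.v j ∈ Q.toValuationSubring := hW
  have hval := Loc1Gen.order_value_zero (fun j => Loc3.tay htrM c ϖ hϖ (ϖ ^ e * d.cM j))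
    (fun j => Loc3.tay htr Q (Deg.unif Q) ht ((Deg.unif Q) ^ (B Q).toNat * d.v j))
    (fun z : {z : ι // cen htr htrM (d.ρ z) c = Q} =>
      Loc3.tay htrM c ϖ hϖ (d.ρ z.1 (Deg.unif Q)))
    (fun z => μ z.1) hr0 hrinj hvan hord
  -- the left side is the expansion of `ϖ ^ e * Φ`
  have hmem : ∀ j, (ϖ ^ e * d.cM j) * algebraMap K M (H.Glob.evalAt Q (d.v j))
      ∈ c.toValuationSubring := fun j => mul_mem (he j) (c.algebraMap_mem' _)
  have hsum : ϖ ^ e * (∑ j, algebraMap K M (H.Glob.evalAt Q (d.v j)) * d.cM j)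
      = ∑ j, (ϖ ^ e * d.cM j) * algebraMap K M (H.Glob.evalAt Q (d.v j)) := by
    rw [Finset.mul_sum]
    exact Finset.sum_congr rfl fun j _ => by ring
  have hΦmem : ϖ ^ e * (∑ j, algebraMap K M (H.Glob.evalAt Q (d.v j)) * d.cM j)
      ∈ c.toValuationSubring := by
    rw [hsum]
    exact sum_mem fun j _ => hmem j
  have hvj : ∀ j, d.v j ∈ Q.toValuationSubring := fun j => by
    have h := hW' j
    rw [hpb, pow_zero, one_mul] at h
    exact h
  have hlhs : (∑ l, Loc3.tay htrM c ϖ hϖ (ϖ ^ e * d.cM l) * PowerSeries.C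
        (PowerSeries.constantCoeff
          (Loc3.tay htr Q (Deg.unif Q) ht ((Deg.unif Q) ^ (B Q).toNat * d.v l))))
      = Loc3.tay htrM c ϖ hϖ
          (ϖ ^ e * (∑ j, algebraMap K M (H.Glob.evalAt Q (d.v j)) * d.cM j)) := by
    rw [hsum, Loc3.tay_sum htrM c ϖ hϖ _ _ (fun j _ => hmem j)]
    refine Finset.sum_congr rfl fun j _ => ?_
    rw [Loc3.tay_mul htrM c ϖ hϖ (he j) (c.algebraMap_mem' _), Loc3.tay_algebraMap, hpb,
      pow_zero, one_mul, DV1.constantCoeff_tay htr Q (Deg.unif Q) ht (hvj j)]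
  rw [hlhs] at hval
  -- the orders of the zeros
  have hrz : ∀ z : {z : ι // cen htr htrM (d.ρ z) c = Q},
      (Loc3.tay htrM c ϖ hϖ (d.ρ z.1 (Deg.unif Q))).order
        = ((Loc2.ram (d.ρ z.1) c : ℕ) : ℕ∞) := by
    intro z
    have ht0 : Deg.unif Q ≠ 0 := R.Taylor.unif_ne_zero Q ht
    have hρt0 : d.ρ z.1 (Deg.unif Q) ≠ 0 := (map_ne_zero (d.ρ z.1)).mpr ht0
    have h1 : c.ord (d.ρ z.1 (Deg.unif Q)) = (Loc2.ram (d.ρ z.1) c : ℤ) := by
      rw [ord_map htr htrM (d.ρ z.1) c (Deg.unif Q), z.2, ht, mul_one]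
    rw [Loc3.order_tay htrM c ϖ hϖ (hρ' z) hρt0, h1, Int.toNat_natCast]
  have hsumz : (∑ z : {z : ι // cen htr htrM (d.ρ z) c = Q},
        ((μ z.1 : ℕ) : ℕ∞) * (Loc3.tay htrM c ϖ hϖ (d.ρ z.1 (Deg.unif Q))).order)
      = ((∑ z : {z : ι // cen htr htrM (d.ρ z) c = Q},
          μ z.1 * Loc2.ram (d.ρ z.1) c : ℕ) : ℕ∞) := by
    rw [Nat.cast_sum]
    refine Finset.sum_congr rfl fun z _ => ?_
    rw [hrz z, Nat.cast_mul]
  rw [hsumz] at hval
  -- non-vanishing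
  have htay_ne : Loc3.tay htrM c ϖ hϖ
      (ϖ ^ e * (∑ j, algebraMap K M (H.Glob.evalAt Q (d.v j)) * d.cM j)) ≠ 0 := by
    intro h0
    rw [h0, PowerSeries.order_zero] at hval
    exact ENat.top_ne_natCast _ hval
  have hϖΦ : ϖ ^ e * (∑ j, algebraMap K M (H.Glob.evalAt Q (d.v j)) * d.cM j) ≠ 0 :=
    fun h0 => htay_ne (by rw [h0]; exact Loc3.tay_zero htrM c ϖ hϖ)
  have hΦ0 : (∑ j, algebraMap K M (H.Glob.evalAt Q (d.v j)) * d.cM j) ≠ 0 :=
    right_ne_zero_of_mul hϖΦ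
  refine ⟨hΦ0, ?_⟩
  have hordΦ : c.ord (ϖ ^ e * (∑ j, algebraMap K M (H.Glob.evalAt Q (d.v j)) * d.cM j))
      = (e : ℤ) + c.ord (∑ j, algebraMap K M (H.Glob.evalAt Q (d.v j)) * d.cM j) :=
    Loc3.ord_pow_mul c hϖ e hΦ0
  have hnn : 0 ≤ (e : ℤ) + c.ord (∑ j, algebraMap K M (H.Glob.evalAt Q (d.v j)) * d.cM j) := by
    have h := Fermat.Agent.S24.FF.ord_nonneg_of_mem c hΦmem
    rwa [hordΦ] at h
  rw [Loc3.order_tay htrM c ϖ hϖ hΦmem hϖΦ, hordΦ] at hval
  have hnat : ((e : ℤ) + c.ord (∑ j, algebraMap K M (H.Glob.evalAt Q (d.v j)) * d.cM j)).toNat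
      = ∑ z : {z : ι // cen htr htrM (d.ρ z) c = Q}, μ z.1 * Loc2.ram (d.ρ z.1) c := by
    exact_mod_cast hval
  have hint : (e : ℤ) + c.ord (∑ j, algebraMap K M (H.Glob.evalAt Q (d.v j)) * d.cM j)
      = ((∑ z : {z : ι // cen htr htrM (d.ρ z) c = Q},
          μ z.1 * Loc2.ram (d.ρ z.1) c : ℕ) : ℤ) := by
    rw [← hnat, Int.toNat_of_nonneg hnn]
  have hconv : ((∑ z : {z : ι // cen htr htrM (d.ρ z) c = Q},
        μ z.1 * Loc2.ram (d.ρ z.1) c : ℕ) : ℤ)
      = ∑ z : ι,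
          (if cen htr htrM (d.ρ z) c = Q then (μ z : ℤ) * (Loc2.ram (d.ρ z) c : ℤ)
            else 0) := by
    have h1 : ∑ z : {z : ι // cen htr htrM (d.ρ z) c = Q},
          ((μ z.1 * Loc2.ram (d.ρ z.1) c : ℕ) : ℤ)
        = ∑ z ∈ Finset.univ.filter (fun z : ι => cen htr htrM (d.ρ z) c = Q),
            ((μ z * Loc2.ram (d.ρ z) c : ℕ) : ℤ) :=
      (Finset.sum_subtype _ (fun z => by simp)
        (fun z : ι => ((μ z * Loc2.ram (d.ρ z) c : ℕ) : ℤ))).symm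
    rw [Nat.cast_sum, h1, Finset.sum_filter]
    refine Finset.sum_congr rfl fun z _ => ?_
    split_ifs
    · rw [Nat.cast_mul]
    · rfl
  rw [← hconv, ← hint]
  ring

end Fermat.Agent.S27.L
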