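import Mathlib
import Fermat.Agent.S17.R.Places
import Fermat.Agent.S27.L.DB
import Fermat.Agent.S27.L.Jet
import Fermat.Agent.S27.L.Value
import Fermat.Agent.S27.L.Exit

/-!
# Program PJ (statement S27), strand L: the local theorem (exit of the strand)

A profile configuration of type `(e1, e2)`: `d : Data htr M (Fin e1 ⊕ Fin e2) μ m B δ` with
`μ = Sum.elim (fun _ => 1) (fun _ => n)`: `e1` simple points `ρ (inl i)` and `e2` points
`ρ (inr j)` of multiplicity `n`.  With `I_G = ∑ i, [M : ρ (inl i) F]`,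
`I_F = ∑ j, [M : ρ (inr j) F]` and `κ = deg Dδ ≥ 2 gR - 2` (`Dδ` the divisor of the
derivation `δ`):

* `bound_G` : if an evaluation determinant `det [ρ (inl i) (u b)]` of `e1` sections of a divisor
  `W` of degree `≤ gR + e1 - 2` is non-zero, then `2 I_G ≤ n² (κ + 2 e2) I_F`;
* `bound_F` : if an evaluation determinant `det [ρ (inr j) (u b)]` of `e2` sections of a divisor
  `W` of degree `≤ gR + e2 - 2` is non-zero, then `2 n² I_F ≤ (κ + 2 e1) I_G`.

Proof: the three local counts `ord_lead` (DJ), `ord_value` (DV), `DB.ord_evalDet_ge` (DB) at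
every place of `M`, fed to the elimination `exit_profile` (DX) with the splitting
`σ = Equiv.refl` (`a = 1`, `b = n`) resp. `σ = Equiv.sumComm` (`a = n`, `b = 1`), `A = Dδ` and
`Q` any place off the support of `B`; then `κ + 2 r - 2 deg W ≥ 2`.
-/

set_option autoImplicit false

open AlgebraicCurve

namespace Fermat.Agent.S27.L

open Fermat.Agent.S17 Fermat.Agent.S17.D Fermat.Agent.S17.HB

variable {K F M : Type*} [Field K] [Field F] [Algebra K F] [Field M] [Algebra K M]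
variable [IsAlgClosed K] [CharZero K] [Algebra.EssFiniteType K F] [Algebra.EssFiniteType K M]

namespace Final

omit [Algebra.EssFiniteType K M] in
/-- A place of `F` off the support of a divisor. -/
theorem exists_place_off (htr : Algebra.trdeg K F = 1) (B : Divisor K F) :
    ∃ Q : Place K F, B Q = 0 := by
  obtain ⟨Q, hQ⟩ := R.exists_place_notMem htr (Finsupp.support B)
  exact ⟨Q, Finsupp.notMem_support_iff.mp hQ⟩

/-- **DB in the vocabulary of `L/Defs`** (`cen`, `coinc`): helper90's `DB.ord_evalDet_ge`. -/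
theorem ord_det (htr : Algebra.trdeg K F = 1) (htrM : Algebra.trdeg K M = 1) {r : ℕ}
    (τ : Fin r → (F →ₐ[K] M)) (W : Divisor K F) (u : Fin r → F)
    (hu : ∀ b, u b ∈ riemannRochSpace W)
    (hG : (Matrix.of fun k b => τ k (u b)).det ≠ 0) (c : Place K M) :
    -∑ k : Fin r, (Loc2.ram (τ k) c : ℤ) * W (cen htr htrM (τ k) c) +
        ∑ k : Fin r, ∑ k' ∈ Finset.univ.filter (fun k' : Fin r => k' < k),
          coinc htr htrM (τ k) (τ k') c ≤
      c.ord (Matrix.of fun k b => τ k (u b)).det :=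
  DB.ord_evalDet_ge htr htrM τ W u hu hG c

/-- The multiplicities of a profile of type `(e1, e2)` are positive. -/
theorem mu_pos {e1 e2 n : ℕ} (hn : 0 < n) (z : Fin e1 ⊕ Fin e2) :
    0 < (Sum.elim (fun _ => 1) (fun _ => n) : Fin e1 ⊕ Fin e2 → ℕ) z := by
  rcases z with i | j
  · exact one_pos
  · exact hn

end Final

/-- **FIN (G side).**  On a profile configuration of type `(e1, e2)` (`e1` simple points `inl`,
`e2` points of multiplicity `n`, `inr`) whose evaluation determinant at the simple points is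
non-zero: `2 I_G ≤ n² (κ + 2 e2) I_F`. -/
theorem bound_G (htr : Algebra.trdeg K F = 1) (htrM : Algebra.trdeg K M = 1) {e1 e2 n m : ℕ}
    (hn : 0 < n) {B : Divisor K F} {δ : Derivation K F F}
    (d : Data htr M (Fin e1 ⊕ Fin e2) (Sum.elim (fun _ => 1) (fun _ => n)) m B δ)
    (Dδ : Divisor K F)
    (hDδ : ∀ (v : Place K F) (π : F), v.ord π = 1 → v.ord (δ π) = -Dδ v)
    (hκ : 2 * (R.gR K F : ℤ) - 2 ≤ Divisor.degree Dδ)
    (W : Divisor K F) (hW : Divisor.degree W ≤ (R.gR K F : ℤ) + e1 - 2) (u : Fin e1 → F)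
    (hu : ∀ b, u b ∈ riemannRochSpace W)
    (hdet : (Matrix.of fun i b => d.ρ (Sum.inl i) (u b)).det ≠ 0) :
    2 * ∑ i : Fin e1, (finrankAlong K (d.ρ (Sum.inl i)) : ℤ) ≤
      (n : ℤ) ^ 2 * (Divisor.degree Dδ + 2 * e2) *
        ∑ j : Fin e2, (finrankAlong K (d.ρ (Sum.inr j)) : ℤ) := by
  classical
  obtain ⟨Q, hQ⟩ := Final.exists_place_off htr B
  have h := exit_profile htr htrM (Sum.elim (fun _ => 1) (fun _ => n)) d.ρ d.cM d.cM_zero
    (Equiv.refl (Fin e1 ⊕ Fin e2)) 1 n (fun _ => rfl) (fun _ => rfl) Dδ B W Q d.degree_B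
    (fun z => ∑ j, d.cM j * d.ρ z ((⇑δ)^[(Sum.elim (fun _ => 1) (fun _ => n) :
      Fin e1 ⊕ Fin e2 → ℕ) z] (d.v j)))
    (∑ j, algebraMap K M (H.Glob.evalAt Q (d.v j)) * d.cM j)
    (Matrix.of fun i b => d.ρ (Sum.inl i) (u b)).det hdet
    (fun c ϖ hϖ e he he0 z => ord_lead htr htrM d (Final.mu_pos hn) Dδ hDδ c ϖ hϖ e he he0 z)
    (fun c ϖ hϖ e he he0 => ord_value htr htrM d (Final.mu_pos hn) Q hQ c ϖ hϖ e he he0)
    (fun c => Final.ord_det htr htrM (fun k => d.ρ (Sum.inl k)) W u hu hdet c)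
  have hI : (0 : ℤ) ≤ ∑ i : Fin e1, (finrankAlong K (d.ρ (Sum.inl i)) : ℤ) :=
    Finset.sum_nonneg fun i _ => Int.natCast_nonneg _
  have h2 : (2 : ℤ) ≤ Divisor.degree Dδ + 2 * (e1 : ℤ) - 2 * Divisor.degree W := by linarith
  have h3 : ((1 : ℕ) : ℤ) ^ 2 * (Divisor.degree Dδ + 2 * (e1 : ℤ) - 2 * Divisor.degree W) *
        ∑ i : Fin e1, (finrankAlong K (d.ρ (Sum.inl i)) : ℤ) ≤
      (n : ℤ) ^ 2 * (Divisor.degree Dδ + 2 * (e2 : ℤ)) *
        ∑ j : Fin e2, (finrankAlong K (d.ρ (Sum.inr j)) : ℤ) := h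
  rw [Nat.cast_one, one_pow, one_mul] at h3
  exact le_trans (mul_le_mul_of_nonneg_right h2 hI) h3

/-- **FIN (F side).**  On a profile configuration of type `(e1, e2)` whose evaluation determinant
at the points of multiplicity `n` is non-zero: `2 n² I_F ≤ (κ + 2 e1) I_G`. -/
theorem bound_F (htr : Algebra.trdeg K F = 1) (htrM : Algebra.trdeg K M = 1) {e1 e2 n m : ℕ}
    (hn : 0 < n) {B : Divisor K F} {δ : Derivation K F F}
    (d : Data htr M (Fin e1 ⊕ Fin e2) (Sum.elim (fun _ => 1) (fun _ => n)) m B δ)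
    (Dδ : Divisor K F)
    (hDδ : ∀ (v : Place K F) (π : F), v.ord π = 1 → v.ord (δ π) = -Dδ v)
    (hκ : 2 * (R.gR K F : ℤ) - 2 ≤ Divisor.degree Dδ)
    (W : Divisor K F) (hW : Divisor.degree W ≤ (R.gR K F : ℤ) + e2 - 2) (u : Fin e2 → F)
    (hu : ∀ b, u b ∈ riemannRochSpace W)
    (hdet : (Matrix.of fun j b => d.ρ (Sum.inr j) (u b)).det ≠ 0) :
    2 * (n : ℤ) ^ 2 * ∑ j : Fin e2, (finrankAlong K (d.ρ (Sum.inr j)) : ℤ) ≤
      (Divisor.degree Dδ + 2 * e1) *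
        ∑ i : Fin e1, (finrankAlong K (d.ρ (Sum.inl i)) : ℤ) := by
  classical
  obtain ⟨Q, hQ⟩ := Final.exists_place_off htr B
  have h := exit_profile htr htrM (Sum.elim (fun _ => 1) (fun _ => n)) d.ρ d.cM d.cM_zero
    (Equiv.sumComm (Fin e2) (Fin e1)) n 1 (fun _ => rfl) (fun _ => rfl) Dδ B W Q d.degree_B
    (fun z => ∑ j, d.cM j * d.ρ z ((⇑δ)^[(Sum.elim (fun _ => 1) (fun _ => n) :
      Fin e1 ⊕ Fin e2 → ℕ) z] (d.v j)))
    (∑ j, algebraMap K M (H.Glob.evalAt Q (d.v j)) * d.cM j)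
    (Matrix.of fun j b => d.ρ (Sum.inr j) (u b)).det hdet
    (fun c ϖ hϖ e he he0 z => ord_lead htr htrM d (Final.mu_pos hn) Dδ hDδ c ϖ hϖ e he he0 z)
    (fun c ϖ hϖ e he he0 => ord_value htr htrM d (Final.mu_pos hn) Q hQ c ϖ hϖ e he he0)
    (fun c => Final.ord_det htr htrM (fun k => d.ρ (Sum.inr k)) W u hu hdet c)
  have hI : (0 : ℤ) ≤ (n : ℤ) ^ 2 * ∑ j : Fin e2, (finrankAlong K (d.ρ (Sum.inr j)) : ℤ) :=
    mul_nonneg (sq_nonneg _) (Finset.sum_nonneg fun j _ => Int.natCast_nonneg _)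
  have h2 : (2 : ℤ) ≤ Divisor.degree Dδ + 2 * (e2 : ℤ) - 2 * Divisor.degree W := by linarith
  have h3 : (n : ℤ) ^ 2 * (Divisor.degree Dδ + 2 * (e2 : ℤ) - 2 * Divisor.degree W) *
        ∑ j : Fin e2, (finrankAlong K (d.ρ (Sum.inr j)) : ℤ) ≤
      ((1 : ℕ) : ℤ) ^ 2 * (Divisor.degree Dδ + 2 * (e1 : ℤ)) *
        ∑ i : Fin e1, (finrankAlong K (d.ρ (Sum.inl i)) : ℤ) := h
  rw [Nat.cast_one, one_pow, one_mul] at h3
  have h4 := mul_le_mul_of_nonneg_right h2 hI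
  calc 2 * (n : ℤ) ^ 2 * ∑ j : Fin e2, (finrankAlong K (d.ρ (Sum.inr j)) : ℤ)
      = 2 * ((n : ℤ) ^ 2 * ∑ j : Fin e2, (finrankAlong K (d.ρ (Sum.inr j)) : ℤ)) := by ring
    _ ≤ (Divisor.degree Dδ + 2 * (e2 : ℤ) - 2 * Divisor.degree W) *
          ((n : ℤ) ^ 2 * ∑ j : Fin e2, (finrankAlong K (d.ρ (Sum.inr j)) : ℤ)) := h4
    _ = (n : ℤ) ^ 2 * (Divisor.degree Dδ + 2 * (e2 : ℤ) - 2 * Divisor.degree W) *
          ∑ j : Fin e2, (finrankAlong K (d.ρ (Sum.inr j)) : ℤ) := by ring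
    _ ≤ _ := h3

end Fermat.Agent.S27.L
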