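import Mathlib
import Fermat.Agent.S27.G.Defs
import Fermat.Agent.S27.Hur.Exit
import Fermat.Agent.S27.L.DetNe
import Fermat.Agent.S27.L.Final

/-!
# Program PJ (statement S27), strand L: the local theorem in the vocabulary of strand G

The exit `L/Final.lean` (`bound_G`, `bound_F`) is typed on the index type `Fin e1 ⊕ Fin e2` and
takes the divisor `Dδ` of the derivation, a divisor `W`, sections `u` and a non-zero evaluation
determinant as hypotheses.  This file removes them: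

* `bound_split` : the exit for ANY index type `ι` of points and ANY splitting
  `σ : Fin r ⊕ Fin r' ≃ ι` into a class of multiplicity `a` (carrying the determinant) and a
  class of multiplicity `b`: `2 a² I_S ≤ b² (κ + 2 r') I_T`;
* `loc_of_tup` : on a configuration `d : Data htr M ι μ m B δ` split by
  `σ : Fin (k + 1) ⊕ Fin e2 ≃ ι` into `k + 1` simple points and `e2` points of multiplicity `n`
  (`k + e2 = gR`, `0 < e2`), if at ONE place `w` of `M` the unordered tuple of centres is a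
  regular point of strand G (`G.Defs.Tup K F n k c`), then
  `2 I_G ≤ n² (κ + 2 e2) I_F` and `2 n² I_F ≤ (κ + 2 (k + 1)) I_G`
  (the determinants come from `DetNe.exists_evalDet_ne_zero`);
* `exists_loc_const` : ONE constant `C : ℕ` (from `Hur.Exit.hurwitz`; it depends on `K`, `F`,
  `δ` only) with `I_G ≤ C n² I_F` and `n² I_F ≤ C I_G` for every such configuration, every `n`,
  every type.  This is the relation `R` of the hypothesis `hloc` of `G.Asm.exists_curves`.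
-/

set_option autoImplicit false

open AlgebraicCurve

namespace Fermat.Agent.S27.L.LocTup

open Fermat.Agent.S17 Fermat.Agent.S17.D Fermat.Agent.S17.HB Fermat.Agent.S27.L

universe uK uF uM uι

variable {K : Type uK} {F : Type uF} {M : Type uM} [Field K] [Field F] [Algebra K F] [Field M]
  [Algebra K M]
variable [IsAlgClosed K] [CharZero K] [Algebra.EssFiniteType K F] [Algebra.EssFiniteType K M]

/-- **The exit of strand L for any index type and any splitting.**  The points are split by `σ`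
into the class `inl` (multiplicity `a`, carrying the non-zero evaluation determinant of `r`
sections of a divisor `W` of degree `≤ gR + r - 2`) and the class `inr` (multiplicity `b`):
`2 a² I_inl ≤ b² (κ + 2 r') I_inr`. -/
theorem bound_split (htr : Algebra.trdeg K F = 1) (htrM : Algebra.trdeg K M = 1)
    {ι : Type uι} [Fintype ι] {μ : ι → ℕ} {m : ℕ} {B : Divisor K F} {δ : Derivation K F F}
    (d : Data htr M ι μ m B δ) (hμ : ∀ z, 0 < μ z) {r r' : ℕ} (σ : Fin r ⊕ Fin r' ≃ ι)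
    (a b : ℕ) (ha : ∀ k, μ (σ (Sum.inl k)) = a) (hb : ∀ k, μ (σ (Sum.inr k)) = b)
    (Dδ : Divisor K F)
    (hDδ : ∀ (v : Place K F) (π : F), v.ord π = 1 → v.ord (δ π) = -Dδ v)
    (hκ : 2 * (R.gR K F : ℤ) - 2 ≤ Divisor.degree Dδ)
    (W : Divisor K F) (hW : Divisor.degree W ≤ (R.gR K F : ℤ) + r - 2) (u : Fin r → F)
    (hu : ∀ b, u b ∈ riemannRochSpace W)
    (hdet : (Matrix.of fun k b => d.ρ (σ (Sum.inl k)) (u b)).det ≠ 0) :
    2 * ((a : ℤ) ^ 2 * ∑ k : Fin r, (finrankAlong K (d.ρ (σ (Sum.inl k))) : ℤ)) ≤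
      (b : ℤ) ^ 2 * (Divisor.degree Dδ + 2 * r') *
        ∑ k : Fin r', (finrankAlong K (d.ρ (σ (Sum.inr k))) : ℤ) := by
  classical
  obtain ⟨Q, hQ⟩ := Final.exists_place_off htr B
  have h := exit_profile htr htrM μ d.ρ d.cM d.cM_zero σ a b ha hb Dδ B W Q d.degree_B
    (fun z => ∑ j, d.cM j * d.ρ z ((⇑δ)^[μ z] (d.v j)))
    (∑ j, algebraMap K M (H.Glob.evalAt Q (d.v j)) * d.cM j)
    (Matrix.of fun k b => d.ρ (σ (Sum.inl k)) (u b)).det hdet
    (fun c ϖ hϖ e he he0 z => ord_lead htr htrM d hμ Dδ hDδ c ϖ hϖ e he he0 z)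
    (fun c ϖ hϖ e he he0 => ord_value htr htrM d hμ Q hQ c ϖ hϖ e he he0)
    (fun c => Final.ord_det htr htrM (fun k => d.ρ (σ (Sum.inl k))) W u hu hdet c)
  have hI : (0 : ℤ) ≤ (a : ℤ) ^ 2 * ∑ k : Fin r, (finrankAlong K (d.ρ (σ (Sum.inl k))) : ℤ) :=
    mul_nonneg (sq_nonneg _) (Finset.sum_nonneg fun k _ => Int.natCast_nonneg _)
  have h2 : (2 : ℤ) ≤ Divisor.degree Dδ + 2 * (r : ℤ) - 2 * Divisor.degree W := by linarith
  have h4 := mul_le_mul_of_nonneg_right h2 hI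
  calc 2 * ((a : ℤ) ^ 2 * ∑ k : Fin r, (finrankAlong K (d.ρ (σ (Sum.inl k))) : ℤ))
      ≤ (Divisor.degree Dδ + 2 * (r : ℤ) - 2 * Divisor.degree W) *
          ((a : ℤ) ^ 2 * ∑ k : Fin r, (finrankAlong K (d.ρ (σ (Sum.inl k))) : ℤ)) := h4
    _ = (a : ℤ) ^ 2 * (Divisor.degree Dδ + 2 * (r : ℤ) - 2 * Divisor.degree W) *
          ∑ k : Fin r, (finrankAlong K (d.ρ (σ (Sum.inl k))) : ℤ) := by ring
    _ ≤ _ := h

open Classical in
/-- **The local theorem at a configuration with one regular place.**  `k + 1` simple points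
`σ (inl i)` and `e2` points `σ (inr j)` of multiplicity `n`; at the place `w` of `M` the unordered
tuple of centres is a regular point of type `(k + 1, gR - k)` (`G.Defs.Tup`). -/
theorem loc_of_tup (htr : Algebra.trdeg K F = 1) (htrM : Algebra.trdeg K M = 1)
    {ι : Type uι} [Fintype ι] {μ : ι → ℕ} {m : ℕ} {B : Divisor K F} {δ : Derivation K F F}
    (d : Data htr M ι μ m B δ) {n k e2 : ℕ} (hn : 0 < n) (σ : Fin (k + 1) ⊕ Fin e2 ≃ ι)
    (h1 : ∀ i, μ (σ (Sum.inl i)) = 1) (h2 : ∀ j, μ (σ (Sum.inr j)) = n)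
    (he : k + e2 = R.gR K F) (he2 : 0 < e2)
    (Dδ : Divisor K F)
    (hDδ : ∀ (v : Place K F) (π : F), v.ord π = 1 → v.ord (δ π) = -Dδ v)
    (hκ : 2 * (R.gR K F : ℤ) - 2 ≤ Divisor.degree Dδ)
    (w : Place K M) (c : Divisor K F)
    (hw : (Finset.univ.image (fun i : Fin (k + 1) => cen htr htrM (d.ρ (σ (Sum.inl i))) w),
        Finset.univ.image (fun j : Fin e2 => cen htr htrM (d.ρ (σ (Sum.inr j))) w)) ∈
      G.Defs.Tup K F n k c) :
    2 * ∑ i : Fin (k + 1), (finrankAlong K (d.ρ (σ (Sum.inl i))) : ℤ) ≤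
        (n : ℤ) ^ 2 * (Divisor.degree Dδ + 2 * e2) *
          ∑ j : Fin e2, (finrankAlong K (d.ρ (σ (Sum.inr j))) : ℤ) ∧
      2 * ((n : ℤ) ^ 2 * ∑ j : Fin e2, (finrankAlong K (d.ρ (σ (Sum.inr j))) : ℤ)) ≤
        (Divisor.degree Dδ + 2 * ((k + 1 : ℕ) : ℤ)) *
          ∑ i : Fin (k + 1), (finrankAlong K (d.ρ (σ (Sum.inl i))) : ℤ) := by
  have hμ : ∀ z, 0 < μ z := by
    intro z
    obtain ⟨y, rfl⟩ := σ.surjective z
    rcases y with i | j
    · rw [h1 i]
      exact one_pos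
    · rw [h2 j]
      exact hn
  obtain ⟨XG, hXG⟩ : ∃ XG : Finset (Place K F),
      XG = Finset.univ.image (fun i : Fin (k + 1) => cen htr htrM (d.ρ (σ (Sum.inl i))) w) :=
    ⟨_, rfl⟩
  obtain ⟨XF, hXF⟩ : ∃ XF : Finset (Place K F),
      XF = Finset.univ.image (fun j : Fin e2 => cen htr htrM (d.ρ (σ (Sum.inr j))) w) :=
    ⟨_, rfl⟩
  rw [← hXG, ← hXF] at hw
  obtain ⟨-, hcG, hcsum, hP, hQ⟩ := hw
  have hcG' : XG.card = k + 1 := hcG
  have hcF' : XF.card = e2 := by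
    have h3 : XG.card + XF.card = R.gR K F + 1 := hcsum
    omega
  have hinjG : Function.Injective fun i : Fin (k + 1) => cen htr htrM (d.ρ (σ (Sum.inl i))) w := by
    have h3 : (Finset.univ.image
        (fun i : Fin (k + 1) => cen htr htrM (d.ρ (σ (Sum.inl i))) w)).card =
        (Finset.univ : Finset (Fin (k + 1))).card := by
      rw [← hXG, hcG', Finset.card_univ, Fintype.card_fin]
    have h4 := Finset.card_image_iff.mp h3
    exact fun x y hxy => h4 (Finset.mem_coe.mpr (Finset.mem_univ x))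
      (Finset.mem_coe.mpr (Finset.mem_univ y)) hxy
  have hinjF : Function.Injective fun j : Fin e2 => cen htr htrM (d.ρ (σ (Sum.inr j))) w := by
    have h3 : (Finset.univ.image
        (fun j : Fin e2 => cen htr htrM (d.ρ (σ (Sum.inr j))) w)).card =
        (Finset.univ : Finset (Fin e2)).card := by
      rw [← hXF, hcF', Finset.card_univ, Fintype.card_fin]
    have h4 := Finset.card_image_iff.mp h3
    exact fun x y hxy => h4 (Finset.mem_coe.mpr (Finset.mem_univ x))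
      (Finset.mem_coe.mpr (Finset.mem_univ y)) hxy
  have hmemG : ∀ i : Fin (k + 1), cen htr htrM (d.ρ (σ (Sum.inl i))) w ∈ XG := by
    intro i
    rw [hXG]
    exact Finset.mem_image_of_mem _ (Finset.mem_univ i)
  have hmemF : ∀ j : Fin e2, cen htr htrM (d.ρ (σ (Sum.inr j))) w ∈ XF := by
    intro j
    rw [hXF]
    exact Finset.mem_image_of_mem _ (Finset.mem_univ j)
  constructor
  · -- the determinant at the simple points: `E = XG ∪ (XF minus one point)`
    obtain ⟨hdisj, -, hcard, hfin, -⟩ := hQ _ (hmemF ⟨0, he2⟩)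
    obtain ⟨Q, hQdef⟩ : ∃ Q : Place K F, Q = cen htr htrM (d.ρ (σ (Sum.inr ⟨0, he2⟩))) w :=
      ⟨_, rfl⟩
    rw [← hQdef] at hdisj hcard hfin
    have hdisj' : Disjoint XG (XF.erase Q) := hdisj
    have hcard' : XG.card + (XF.erase Q).card = R.gR K F := hcard
    have hEcard : (XG ∪ XF.erase Q).card = R.gR K F := by
      rw [Finset.card_union_of_disjoint hdisj']
      exact hcard'
    have hE : Module.finrank K ↥(riemannRochSpace
        (∑ v ∈ XG ∪ XF.erase Q, Finsupp.single v (1 : ℤ) : Divisor K F)) = 1 := by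
      rw [Finset.sum_union hdisj']
      exact hfin
    obtain ⟨W, u, hdeg, hu, hdet⟩ := DetNe.exists_evalDet_ne_zero htr htrM
      (fun i : Fin (k + 1) => d.ρ (σ (Sum.inl i))) w hinjG (XG ∪ XF.erase Q) hEcard hE
      (fun i => Finset.mem_union_left _ (hmemG i))
    have h := bound_split htr htrM d hμ σ 1 n h1 h2 Dδ hDδ hκ W (le_of_eq hdeg) u hu hdet
    rw [Nat.cast_one, one_pow, one_mul] at h
    exact h
  · -- the determinant at the points of multiplicity `n`: `E = (XG minus one point) ∪ XF`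
    obtain ⟨hdisj, -, hcard, hfin, -⟩ := hP _ (hmemG 0)
    obtain ⟨P, hPdef⟩ : ∃ P : Place K F, P = cen htr htrM (d.ρ (σ (Sum.inl 0))) w := ⟨_, rfl⟩
    rw [← hPdef] at hdisj hcard hfin
    have hdisj' : Disjoint (XG.erase P) XF := hdisj
    have hcard' : (XG.erase P).card + XF.card = R.gR K F := hcard
    have hEcard : (XG.erase P ∪ XF).card = R.gR K F := by
      rw [Finset.card_union_of_disjoint hdisj']
      exact hcard'
    have hE : Module.finrank K ↥(riemannRochSpace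
        (∑ v ∈ XG.erase P ∪ XF, Finsupp.single v (1 : ℤ) : Divisor K F)) = 1 := by
      rw [Finset.sum_union hdisj']
      exact hfin
    obtain ⟨W, u, hdeg, hu, hdet⟩ := DetNe.exists_evalDet_ne_zero htr htrM
      (fun j : Fin e2 => d.ρ (σ (Sum.inr j))) w hinjF (XG.erase P ∪ XF) hEcard hE
      (fun j => Finset.mem_union_right _ (hmemF j))
    have h := bound_split htr htrM d hμ ((Equiv.sumComm (Fin e2) (Fin (k + 1))).trans σ) n 1
      h2 h1 Dδ hDδ hκ W (le_of_eq hdeg) u hu hdet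
    have h' : 2 * ((n : ℤ) ^ 2 * ∑ j : Fin e2, (finrankAlong K (d.ρ (σ (Sum.inr j))) : ℤ)) ≤
        ((1 : ℕ) : ℤ) ^ 2 * (Divisor.degree Dδ + 2 * ((k + 1 : ℕ) : ℤ)) *
          ∑ i : Fin (k + 1), (finrankAlong K (d.ρ (σ (Sum.inl i))) : ℤ) := h
    rw [Nat.cast_one, one_pow, one_mul] at h'
    exact h'

open Classical in
/-- **The local theorem with one constant.**  For a non-zero derivation `δ` there is `C : ℕ`,
depending on `K`, `F`, `δ` only, such that on every configuration with one regular place, of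
every type `(k + 1, e2)` with `k + e2 = gR`, `0 < e2`, and every level `n`:
`I_G ≤ C n² I_F` and `n² I_F ≤ C I_G`. -/
theorem exists_loc_const (htr : Algebra.trdeg K F = 1) (δ : Derivation K F F) (hδ : δ ≠ 0) :
    ∃ C : ℕ, ∀ (M : Type uM) [Field M] [Algebra K M] [Algebra.EssFiniteType K M]
      (htrM : Algebra.trdeg K M = 1) (ι : Type uι) [Fintype ι] (μ : ι → ℕ) (m : ℕ)
      (B : Divisor K F) (d : Data htr M ι μ m B δ) (n k e2 : ℕ), 0 < n →
      ∀ σ : Fin (k + 1) ⊕ Fin e2 ≃ ι, (∀ i, μ (σ (Sum.inl i)) = 1) →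
      (∀ j, μ (σ (Sum.inr j)) = n) → k + e2 = R.gR K F → 0 < e2 →
      ∀ (w : Place K M) (c : Divisor K F),
      (Finset.univ.image (fun i : Fin (k + 1) => cen htr htrM (d.ρ (σ (Sum.inl i))) w),
        Finset.univ.image (fun j : Fin e2 => cen htr htrM (d.ρ (σ (Sum.inr j))) w)) ∈
          G.Defs.Tup K F n k c →
      ∑ i : Fin (k + 1), finrankAlong K (d.ρ (σ (Sum.inl i))) ≤
          C * n ^ 2 * ∑ j : Fin e2, finrankAlong K (d.ρ (σ (Sum.inr j))) ∧
        n ^ 2 * ∑ j : Fin e2, finrankAlong K (d.ρ (σ (Sum.inr j))) ≤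
          C * ∑ i : Fin (k + 1), finrankAlong K (d.ρ (σ (Sum.inl i))) := by
  obtain ⟨Dδ, hDδ, hκ⟩ := Hur.Exit.hurwitz htr δ hδ
  refine ⟨(Divisor.degree Dδ + 2 * (R.gR K F : ℤ) + 2).toNat, ?_⟩
  intro M _ _ _ htrM ι _ μ m B d n k e2 hn σ h1 h2 he he2 w c hw
  obtain ⟨hG, hF⟩ := loc_of_tup htr htrM d hn σ h1 h2 he he2 Dδ hDδ hκ w c hw
  have hC0 : (0 : ℤ) ≤ Divisor.degree Dδ + 2 * (R.gR K F : ℤ) + 2 := by
    have : (0 : ℤ) ≤ (R.gR K F : ℤ) := Int.natCast_nonneg _
    linarith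
  have hC : (((Divisor.degree Dδ + 2 * (R.gR K F : ℤ) + 2).toNat : ℕ) : ℤ) =
      Divisor.degree Dδ + 2 * (R.gR K F : ℤ) + 2 := Int.toNat_of_nonneg hC0
  have hIG : (0 : ℤ) ≤ ∑ i : Fin (k + 1), (finrankAlong K (d.ρ (σ (Sum.inl i))) : ℤ) :=
    Finset.sum_nonneg fun i _ => Int.natCast_nonneg _
  have hIF : (0 : ℤ) ≤ ∑ j : Fin e2, (finrankAlong K (d.ρ (σ (Sum.inr j))) : ℤ) :=
    Finset.sum_nonneg fun j _ => Int.natCast_nonneg _
  have hn2 : (0 : ℤ) ≤ (n : ℤ) ^ 2 := sq_nonneg _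
  have hge : ((k : ℤ) + 1) + (e2 : ℤ) = (R.gR K F : ℤ) + 1 := by
    have : ((k + e2 : ℕ) : ℤ) = (R.gR K F : ℤ) := by rw [he]
    push_cast at this
    linarith
  have he2' : (1 : ℤ) ≤ (e2 : ℤ) := by exact_mod_cast he2
  have hk0 : (0 : ℤ) ≤ (k : ℤ) := Int.natCast_nonneg _
  constructor
  · have h3 : (∑ i : Fin (k + 1), (finrankAlong K (d.ρ (σ (Sum.inl i))) : ℤ)) ≤
        (Divisor.degree Dδ + 2 * (R.gR K F : ℤ) + 2) * (n : ℤ) ^ 2 *
          ∑ j : Fin e2, (finrankAlong K (d.ρ (σ (Sum.inr j))) : ℤ) := by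
      have h5 : (0 : ℤ) ≤ (n : ℤ) ^ 2 *
          ∑ j : Fin e2, (finrankAlong K (d.ρ (σ (Sum.inr j))) : ℤ) := mul_nonneg hn2 hIF
      have h6 : (Divisor.degree Dδ + 2 * (e2 : ℤ)) * ((n : ℤ) ^ 2 *
            ∑ j : Fin e2, (finrankAlong K (d.ρ (σ (Sum.inr j))) : ℤ)) ≤
          (Divisor.degree Dδ + 2 * (R.gR K F : ℤ) + 2) * ((n : ℤ) ^ 2 *
            ∑ j : Fin e2, (finrankAlong K (d.ρ (σ (Sum.inr j))) : ℤ)) :=
        mul_le_mul_of_nonneg_right (by linarith) h5
      nlinarith [hG, h6, hIG]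
    rw [← hC] at h3
    exact_mod_cast h3
  · have h3 : (n : ℤ) ^ 2 * ∑ j : Fin e2, (finrankAlong K (d.ρ (σ (Sum.inr j))) : ℤ) ≤
        (Divisor.degree Dδ + 2 * (R.gR K F : ℤ) + 2) *
          ∑ i : Fin (k + 1), (finrankAlong K (d.ρ (σ (Sum.inl i))) : ℤ) := by
      have h5 : (0 : ℤ) ≤ (n : ℤ) ^ 2 *
          ∑ j : Fin e2, (finrankAlong K (d.ρ (σ (Sum.inr j))) : ℤ) := mul_nonneg hn2 hIF
      have h6 : (Divisor.degree Dδ + 2 * ((k + 1 : ℕ) : ℤ)) *
            ∑ i : Fin (k + 1), (finrankAlong K (d.ρ (σ (Sum.inl i))) : ℤ) ≤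
          (Divisor.degree Dδ + 2 * (R.gR K F : ℤ) + 2) *
            ∑ i : Fin (k + 1), (finrankAlong K (d.ρ (σ (Sum.inl i))) : ℤ) := by
        refine mul_le_mul_of_nonneg_right ?_ hIG
        push_cast
        linarith
      linarith
    rw [← hC] at h3
    exact_mod_cast h3

end Fermat.Agent.S27.L.LocTup
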