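import Mathlib
import Fermat.Agent.S27.G.AsmIface
import Fermat.Agent.S27.Hur.Exit
import Fermat.Agent.S27.L.DetNe
import Fermat.Agent.S27.L.LocTup

/-!
# Program PJ (statement S27), strand L: the exit consumed by the assembly of strand G

`G/AsmIface.lean` states the exit of strand L as the proposition `LocExit htr e₁ e₂ n δ C₁`: on
every profile configuration `d : L.Data htr M (Fin e₁ ⊕ Fin e₂) (mu e₁ e₂ n) m B δ` with ONE
regular place `w` (`AsmIface.Nsp`: the `e₁ + e₂` centres at `w` are pairwise distinct and every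
family of all the centres but one is non-special) the two total degrees satisfy
`I_G ≤ C₁ n² I_F` and `n² I_F ≤ C₁ I_G`.

* `bounds_of_nsp` : the two inequalities in `ℤ` with the divisor `Dδ` of the derivation
  (`2 I_G ≤ n² (κ + 2 e₂) I_F`, `2 n² I_F ≤ (κ + 2 e₁) I_G`);
* `exists_locExit` : ONE constant `C₁` (from `Hur.Exit.hurwitz`; it depends on `K`, `F`, `δ` only,
  not on `n`, not on the type `(e₁, e₂)`, not on the configuration) with
  `LocExit htr e₁ e₂ n δ C₁` for every `n > 0` and every type with `e₁ + e₂ = gR + 1`.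

Proof: the evaluation determinant at the simple points is not zero because at `w` their centres
lie in the non-special set of the `gR` centres other than one point of multiplicity `n`
(`DetNe.exists_evalDet_ne_zero`), and symmetrically; then `LocTup.bound_split`.
-/

set_option autoImplicit false

open AlgebraicCurve

namespace Fermat.Agent.S27.L.LocExit

open Fermat.Agent.S17 Fermat.Agent.S17.D Fermat.Agent.S17.HB Fermat.Agent.S27.L

universe u v w

variable {K : Type u} {F : Type v} {M : Type w} [Field K] [Field F] [Algebra K F] [Field M]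
  [Algebra K M]

/-- The centres other than the one of the label `z₀`, as a set of places: it has
`|ι| - 1` elements and its sum is the sum over the labels. -/
theorem erase_image (htr : Algebra.trdeg K F = 1) (htrM : Algebra.trdeg K M = 1)
    {ι : Type*} [Fintype ι] [DecidableEq ι] (ρ : ι → (F →ₐ[K] M)) (c : Place K M)
    (hinj : Function.Injective fun z => cen htr htrM (ρ z) c) (z₀ : ι) :
    ∃ E : Finset (Place K F), E.card = Fintype.card ι - 1 ∧
      (∑ v ∈ E, Finsupp.single v (1 : ℤ) : Divisor K F) =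
        ∑ z' ∈ Finset.univ.erase z₀, Finsupp.single (cen htr htrM (ρ z') c) (1 : ℤ) ∧
      ∀ z, z ≠ z₀ → cen htr htrM (ρ z) c ∈ E := by
  classical
  refine ⟨(Finset.univ.erase z₀).image (fun z => cen htr htrM (ρ z) c), ?_, ?_, ?_⟩
  · rw [Finset.card_image_of_injective _ hinj, Finset.card_erase_of_mem (Finset.mem_univ z₀),
      Finset.card_univ]
  · rw [Finset.sum_image]
    intro a _ b _ hab
    exact hinj hab
  · intro z hz
    exact Finset.mem_image_of_mem _ (Finset.mem_erase.mpr ⟨hz, Finset.mem_univ z⟩)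

variable [IsAlgClosed K] [CharZero K] [Algebra.EssFiniteType K F] [Algebra.EssFiniteType K M]

/-- **The local theorem at a configuration with one regular place** (`AsmIface.Nsp`), in `ℤ`,
with the divisor `Dδ` of the derivation. -/
theorem bounds_of_nsp (htr : Algebra.trdeg K F = 1) (htrM : Algebra.trdeg K M = 1)
    {e₁ e₂ n m : ℕ} (hn : 0 < n) (he₁ : 0 < e₁) (he₂ : 0 < e₂)
    (he : e₁ + e₂ = R.gR K F + 1) {B : Divisor K F} {δ : Derivation K F F}
    (d : Data htr M (Fin e₁ ⊕ Fin e₂) (G.AsmIface.mu e₁ e₂ n) m B δ)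
    (Dδ : Divisor K F)
    (hDδ : ∀ (v : Place K F) (π : F), v.ord π = 1 → v.ord (δ π) = -Dδ v)
    (hκ : 2 * (R.gR K F : ℤ) - 2 ≤ Divisor.degree Dδ)
    (c : Place K M) (hN : G.AsmIface.Nsp htr htrM d.ρ c) :
    2 * ∑ i : Fin e₁, (finrankAlong K (d.ρ (Sum.inl i)) : ℤ) ≤
        (n : ℤ) ^ 2 * (Divisor.degree Dδ + 2 * (e₂ : ℤ)) *
          ∑ j : Fin e₂, (finrankAlong K (d.ρ (Sum.inr j)) : ℤ) ∧
      2 * ((n : ℤ) ^ 2 * ∑ j : Fin e₂, (finrankAlong K (d.ρ (Sum.inr j)) : ℤ)) ≤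
        (Divisor.degree Dδ + 2 * (e₁ : ℤ)) *
          ∑ i : Fin e₁, (finrankAlong K (d.ρ (Sum.inl i)) : ℤ) := by
  classical
  obtain ⟨hinj, hns⟩ := hN
  have hμ : ∀ z, 0 < G.AsmIface.mu e₁ e₂ n z := by
    rintro (i | j)
    · exact one_pos
    · exact hn
  have hcard : Fintype.card (Fin e₁ ⊕ Fin e₂) - 1 = R.gR K F := by
    rw [Fintype.card_sum, Fintype.card_fin, Fintype.card_fin, he]
    rfl
  have hinjG : Function.Injective fun i : Fin e₁ => cen htr htrM (d.ρ (Sum.inl i)) c :=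
    fun a b hab => Sum.inl_injective (hinj hab)
  have hinjF : Function.Injective fun j : Fin e₂ => cen htr htrM (d.ρ (Sum.inr j)) c :=
    fun a b hab => Sum.inr_injective (hinj hab)
  constructor
  · -- the determinant at the simple points: `E` = all the centres but one of multiplicity `n`
    obtain ⟨E, hEcard, hEsum, hEmem⟩ :=
      erase_image htr htrM d.ρ c hinj (Sum.inr (⟨0, he₂⟩ : Fin e₂))
    have hE : Module.finrank K ↥(riemannRochSpace
        (∑ v ∈ E, Finsupp.single v (1 : ℤ) : Divisor K F)) = 1 := by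
      rw [hEsum]
      exact hns _
    obtain ⟨W, u, hdeg, hu, hdet⟩ := DetNe.exists_evalDet_ne_zero htr htrM
      (fun i : Fin e₁ => d.ρ (Sum.inl i)) c hinjG E (hEcard.trans hcard) hE
      (fun i => hEmem _ Sum.inl_ne_inr)
    have h := LocTup.bound_split htr htrM d hμ (Equiv.refl (Fin e₁ ⊕ Fin e₂)) 1 n
      (fun _ => rfl) (fun _ => rfl) Dδ hDδ hκ W (le_of_eq hdeg) u hu hdet
    have h' : 2 * (((1 : ℕ) : ℤ) ^ 2 * ∑ i : Fin e₁, (finrankAlong K (d.ρ (Sum.inl i)) : ℤ)) ≤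
        (n : ℤ) ^ 2 * (Divisor.degree Dδ + 2 * (e₂ : ℤ)) *
          ∑ j : Fin e₂, (finrankAlong K (d.ρ (Sum.inr j)) : ℤ) := h
    rw [Nat.cast_one, one_pow, one_mul] at h'
    exact h'
  · -- the determinant at the points of multiplicity `n`: `E` = all the centres but a simple one
    obtain ⟨E, hEcard, hEsum, hEmem⟩ :=
      erase_image htr htrM d.ρ c hinj (Sum.inl (⟨0, he₁⟩ : Fin e₁))
    have hE : Module.finrank K ↥(riemannRochSpace
        (∑ v ∈ E, Finsupp.single v (1 : ℤ) : Divisor K F)) = 1 := by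
      rw [hEsum]
      exact hns _
    obtain ⟨W, u, hdeg, hu, hdet⟩ := DetNe.exists_evalDet_ne_zero htr htrM
      (fun j : Fin e₂ => d.ρ (Sum.inr j)) c hinjF E (hEcard.trans hcard) hE
      (fun j => hEmem _ Sum.inr_ne_inl)
    have h := LocTup.bound_split htr htrM d hμ (Equiv.sumComm (Fin e₂) (Fin e₁)) n 1
      (fun _ => rfl) (fun _ => rfl) Dδ hDδ hκ W (le_of_eq hdeg) u hu hdet
    have h' : 2 * ((n : ℤ) ^ 2 * ∑ j : Fin e₂, (finrankAlong K (d.ρ (Sum.inr j)) : ℤ)) ≤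
        ((1 : ℕ) : ℤ) ^ 2 * (Divisor.degree Dδ + 2 * (e₁ : ℤ)) *
          ∑ i : Fin e₁, (finrankAlong K (d.ρ (Sum.inl i)) : ℤ) := h
    rw [Nat.cast_one, one_pow, one_mul] at h'
    exact h'

/-- **The exit of strand L for the assembly of strand G** (`AsmIface.LocExit`): one constant
`C₁`, depending on `K`, `F`, `δ` only, for every level `n > 0` and every type `(e₁, e₂)` with
`e₁ + e₂ = gR + 1`, `e₁, e₂ > 0`. -/
theorem exists_locExit (htr : Algebra.trdeg K F = 1) (δ : Derivation K F F) (hδ : δ ≠ 0) :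
    ∃ C₁ : ℕ, ∀ e₁ e₂ n : ℕ, 0 < n → 0 < e₁ → 0 < e₂ → e₁ + e₂ = R.gR K F + 1 →
      G.AsmIface.LocExit htr e₁ e₂ n δ C₁ := by
  obtain ⟨Dδ, hDδ, hκ⟩ := Hur.Exit.hurwitz htr δ hδ
  refine ⟨(Divisor.degree Dδ + 2 * (R.gR K F : ℤ) + 2).toNat, ?_⟩
  intro e₁ e₂ n hn he₁ he₂ he M _ _ _ htrM m B d c hN
  obtain ⟨hG, hF⟩ := bounds_of_nsp htr htrM hn he₁ he₂ he d Dδ hDδ hκ c hN
  have hC0 : (0 : ℤ) ≤ Divisor.degree Dδ + 2 * (R.gR K F : ℤ) + 2 := by
    have : (0 : ℤ) ≤ (R.gR K F : ℤ) := Int.natCast_nonneg _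
    linarith
  have hC : (((Divisor.degree Dδ + 2 * (R.gR K F : ℤ) + 2).toNat : ℕ) : ℤ) =
      Divisor.degree Dδ + 2 * (R.gR K F : ℤ) + 2 := Int.toNat_of_nonneg hC0
  have hIG : (0 : ℤ) ≤ ∑ i : Fin e₁, (finrankAlong K (d.ρ (Sum.inl i)) : ℤ) :=
    Finset.sum_nonneg fun i _ => Int.natCast_nonneg _
  have hIF : (0 : ℤ) ≤ ∑ j : Fin e₂, (finrankAlong K (d.ρ (Sum.inr j)) : ℤ) :=
    Finset.sum_nonneg fun j _ => Int.natCast_nonneg _
  have hn2 : (0 : ℤ) ≤ (n : ℤ) ^ 2 := sq_nonneg _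
  have hge : (e₁ : ℤ) + (e₂ : ℤ) = (R.gR K F : ℤ) + 1 := by
    have : ((e₁ + e₂ : ℕ) : ℤ) = ((R.gR K F + 1 : ℕ) : ℤ) := by rw [he]
    push_cast at this
    linarith
  have he₁' : (1 : ℤ) ≤ (e₁ : ℤ) := by exact_mod_cast he₁
  have he₂' : (1 : ℤ) ≤ (e₂ : ℤ) := by exact_mod_cast he₂
  constructor
  · have h3 : (∑ i : Fin e₁, (finrankAlong K (d.ρ (Sum.inl i)) : ℤ)) ≤
        (Divisor.degree Dδ + 2 * (R.gR K F : ℤ) + 2) * (n : ℤ) ^ 2 *
          ∑ j : Fin e₂, (finrankAlong K (d.ρ (Sum.inr j)) : ℤ) := by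
      have h5 : (0 : ℤ) ≤ (n : ℤ) ^ 2 *
          ∑ j : Fin e₂, (finrankAlong K (d.ρ (Sum.inr j)) : ℤ) := mul_nonneg hn2 hIF
      have h6 : (Divisor.degree Dδ + 2 * (e₂ : ℤ)) * ((n : ℤ) ^ 2 *
            ∑ j : Fin e₂, (finrankAlong K (d.ρ (Sum.inr j)) : ℤ)) ≤
          (Divisor.degree Dδ + 2 * (R.gR K F : ℤ) + 2) * ((n : ℤ) ^ 2 *
            ∑ j : Fin e₂, (finrankAlong K (d.ρ (Sum.inr j)) : ℤ)) :=
        mul_le_mul_of_nonneg_right (by linarith) h5
      nlinarith [hG, h6, hIG]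
    rw [← hC] at h3
    exact_mod_cast h3
  · have h3 : (n : ℤ) ^ 2 * ∑ j : Fin e₂, (finrankAlong K (d.ρ (Sum.inr j)) : ℤ) ≤
        (Divisor.degree Dδ + 2 * (R.gR K F : ℤ) + 2) *
          ∑ i : Fin e₁, (finrankAlong K (d.ρ (Sum.inl i)) : ℤ) := by
      have h6 : (Divisor.degree Dδ + 2 * (e₁ : ℤ)) *
            ∑ i : Fin e₁, (finrankAlong K (d.ρ (Sum.inl i)) : ℤ) ≤
          (Divisor.degree Dδ + 2 * (R.gR K F : ℤ) + 2) *
            ∑ i : Fin e₁, (finrankAlong K (d.ρ (Sum.inl i)) : ℤ) :=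
        mul_le_mul_of_nonneg_right (by linarith) hIG
      have h7 : (0 : ℤ) ≤ (n : ℤ) ^ 2 *
          ∑ j : Fin e₂, (finrankAlong K (d.ρ (Sum.inr j)) : ℤ) := mul_nonneg hn2 hIF
      linarith
    rw [← hC] at h3
    exact_mod_cast h3

end Fermat.Agent.S27.L.LocExit
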