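import Mathlib
import Fermat.Agent.S17.H.Glob.Eval
import Fermat.Agent.S17.HB.Loc1Gen
import Fermat.Agent.S17.HB.Loc2
import Fermat.Agent.S17.HB.Loc3
import Fermat.Agent.S27.L.DV1

/-!
# Program PJ (statement S27), strand L, leaf DV: the order of the value at a constant place,
for ANY profile

`F / K` is the function field of the curve, `M / K` the function field of a configuration,
`ρ x : F →ₐ[K] M`, `x : X`, its moving points with multiplicities `μ x`, and `∑ j, cM j ⊗ v j` the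
generic function.  For a place `Q` of `F` at which every `v j` is regular, the value
`Φ_Q = ∑ j, v j (Q) * cM j` is a non-zero element of `M`, and at every place `c` of `M`
(normalising exponent `e`)

  `ord_c Φ_Q = - e + ∑_{x : centre of x at c = Q} μ x * e (ρ x, c)`        (`ord_value_of_loc1`).

The statement is free of the type of the configuration: its hypotheses are the hypotheses of
the normal form LOC1 at `(c, Q)` (the conclusions of `Loc3.loc1_hyps` for the profile, at the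
place `T = Q`, where the pole bound is `0`).  The index types `X` (points) and `ι` (basis of the
linear system) are arbitrary finite types.

Proof: `Loc1Gen.order_value_zero` computes the order of `Ψ(ϖ, 0)`, which is the expansion at `c`
of `ϖ ^ e * Φ_Q` (the constant coefficient of a Taylor expansion is the value); the zeros `r x`
have order `ram (ρ x) c`.
-/

set_option autoImplicit false

open AlgebraicCurve

namespace Fermat.Agent.S27.L.DV

open Fermat.Agent.S17 Fermat.Agent.S17.D Fermat.Agent.S17.HB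

variable {K F M : Type*} [Field K] [Field F] [Algebra K F] [Field M] [Algebra K M]
variable [IsAlgClosed K] [CharZero K] [Algebra.EssFiniteType K F] [Algebra.EssFiniteType K M]

omit [IsAlgClosed K] [CharZero K] [Algebra.EssFiniteType K F] [Algebra.EssFiniteType K M] in
/-- A centre in the sense of LOC3 is LOC2's centre. -/
theorem eq_centre {ρ : F →ₐ[K] M} (hρ : ρ.toRingHom.IsIntegral) {c : Place K M} {T : Place K F}
    (h : Loc3.IsCentre ρ c T) : T = Loc2.centre ρ hρ c :=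
  Place.ext h

omit [IsAlgClosed K] [CharZero K] [Algebra.EssFiniteType K F] [Algebra.EssFiniteType K M] in
/-- The order at `c` of the image of a function under an embedding with centre `T`. -/
theorem ord_map_of_isCentre (htr : Algebra.trdeg K F = 1) (htrM : Algebra.trdeg K M = 1)
    {ρ : F →ₐ[K] M} {c : Place K M} {T : Place K F} (h : Loc3.IsCentre ρ c T) (f : F) :
    c.ord (ρ f) = (Loc2.ram ρ c : ℤ) * T.ord f := by
  rw [Loc2.ord_map ρ (Loc2.algHom_isIntegral htr htrM ρ) c f,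
    ← eq_centre (Loc2.algHom_isIntegral htr htrM ρ) h]

open Classical in
/-- **DV, for any profile.**  For a place `Q` of `F` at which the `v j` are regular, the value
`Φ_Q = ∑ v j (Q) cM j` of the generic function at `Q` is non-zero and
`ord_c Φ_Q = - e + ∑_{x : centre = Q} μ_x e_x`; the hypotheses are those of the normal form LOC1
at `(c, Q)`. -/
theorem ord_value_of_loc1 (htr : Algebra.trdeg K F = 1) (htrM : Algebra.trdeg K M = 1)
    {X : Type*} [Fintype X] {ι : Type*} [Fintype ι]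
    (v : ι → F) (cM : ι → M) (ρ : X → (F →ₐ[K] M)) (μ : X → ℕ)
    (Q : Place K F) (t : F) (ht : Q.ord t = 1) (hv : ∀ j, v j ∈ Q.toValuationSubring)
    (c : Place K M) (ϖ : M) (hϖ : c.ord ϖ = 1) (e : ℕ)
    (he : ∀ j, ϖ ^ e * cM j ∈ c.toValuationSubring)
    (cen : X → Place K F) (hcen : ∀ x, Loc3.IsCentre (ρ x) c (cen x))
    (C W : ι → PowerSeries K)
    (hC : ∀ j, C j = Loc3.tay htrM c ϖ hϖ (ϖ ^ e * cM j))
    (hW : ∀ j, W j = Loc3.tay htr Q t ht (v j))
    (r : {x : X // cen x = Q} → PowerSeries K)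
    (hr : ∀ x, r x = Loc3.tay htrM c ϖ hϖ (ρ x.1 t))
    (hr0 : ∀ x, PowerSeries.constantCoeff (r x) = 0) (hrinj : Function.Injective r)
    (hvan : ∀ x, ∀ i < μ x.1, ∑ j, C j * (hasse i (W j)).subst (r x) = 0)
    (hord : (∑ j, PowerSeries.constantCoeff (C j) • W j).order =
      ((∑ x : {x : X // cen x = Q}, μ x.1 : ℕ) : ℕ∞)) :
    (∑ j, algebraMap K M (H.Glob.evalAt Q (v j)) * cM j) ≠ 0 ∧
    c.ord (∑ j, algebraMap K M (H.Glob.evalAt Q (v j)) * cM j) =
      -(e : ℤ) + ∑ x : X,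
        (if cen x = Q then (μ x : ℤ) * (Loc2.ram (ρ x) c : ℤ) else 0) := by
  obtain rfl : C = fun j => Loc3.tay htrM c ϖ hϖ (ϖ ^ e * cM j) := funext hC
  obtain rfl : W = fun j => Loc3.tay htr Q t ht (v j) := funext hW
  obtain rfl : r = fun x => Loc3.tay htrM c ϖ hϖ (ρ x.1 t) := funext hr
  have hc : ∀ x : {x : X // cen x = Q}, Loc3.IsCentre (ρ x.1) c Q := fun x => by
    have h := hcen x.1
    rwa [x.2] at h
  have hval := Loc1Gen.order_value_zero (fun j => Loc3.tay htrM c ϖ hϖ (ϖ ^ e * cM j))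
    (fun j => Loc3.tay htr Q t ht (v j))
    (fun x : {x : X // cen x = Q} => Loc3.tay htrM c ϖ hϖ (ρ x.1 t))
    (fun x => μ x.1) hr0 hrinj hvan hord
  -- the left side is the expansion of `ϖ ^ e * Φ`
  have hmem : ∀ j, (ϖ ^ e * cM j) * algebraMap K M (H.Glob.evalAt Q (v j))
      ∈ c.toValuationSubring := fun j => mul_mem (he j) (c.algebraMap_mem' _)
  have hsum : ϖ ^ e * (∑ j, algebraMap K M (H.Glob.evalAt Q (v j)) * cM j)
      = ∑ j, (ϖ ^ e * cM j) * algebraMap K M (H.Glob.evalAt Q (v j)) := by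
    rw [Finset.mul_sum]
    exact Finset.sum_congr rfl fun j _ => by ring
  have hΦmem : ϖ ^ e * (∑ j, algebraMap K M (H.Glob.evalAt Q (v j)) * cM j)
      ∈ c.toValuationSubring := by
    rw [hsum]
    exact sum_mem fun j _ => hmem j
  have hlhs : (∑ l, Loc3.tay htrM c ϖ hϖ (ϖ ^ e * cM l) * PowerSeries.C
        (PowerSeries.constantCoeff (Loc3.tay htr Q t ht (v l))))
      = Loc3.tay htrM c ϖ hϖ
          (ϖ ^ e * (∑ j, algebraMap K M (H.Glob.evalAt Q (v j)) * cM j)) := by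
    rw [hsum, Loc3.tay_sum htrM c ϖ hϖ _ _ (fun j _ => hmem j)]
    refine Finset.sum_congr rfl fun j _ => ?_
    rw [Loc3.tay_mul htrM c ϖ hϖ (he j) (c.algebraMap_mem' _), Loc3.tay_algebraMap,
      DV1.constantCoeff_tay htr Q t ht (hv j)]
  rw [hlhs] at hval
  -- the orders of the zeros
  have hrx : ∀ x : {x : X // cen x = Q},
      (Loc3.tay htrM c ϖ hϖ (ρ x.1 t)).order = ((Loc2.ram (ρ x.1) c : ℕ) : ℕ∞) := by
    intro x
    have ht0 : t ≠ 0 := R.Taylor.unif_ne_zero Q ht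
    have hρt0 : ρ x.1 t ≠ 0 := (map_ne_zero (ρ x.1)).mpr ht0
    have hρmem : ρ x.1 t ∈ c.toValuationSubring := (hc x).map_mem (R.Taylor.unif_mem Q ht)
    have h1 : c.ord (ρ x.1 t) = (Loc2.ram (ρ x.1) c : ℤ) := by
      rw [ord_map_of_isCentre htr htrM (hc x) t, ht, mul_one]
    rw [Loc3.order_tay htrM c ϖ hϖ hρmem hρt0, h1, Int.toNat_natCast]
  have hsumx : (∑ x : {x : X // cen x = Q},
        ((μ x.1 : ℕ) : ℕ∞) * (Loc3.tay htrM c ϖ hϖ (ρ x.1 t)).order)
      = ((∑ x : {x : X // cen x = Q}, μ x.1 * Loc2.ram (ρ x.1) c : ℕ) : ℕ∞) := by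
    rw [Nat.cast_sum]
    refine Finset.sum_congr rfl fun x _ => ?_
    rw [hrx x, Nat.cast_mul]
  rw [hsumx] at hval
  -- non-vanishing
  have htay_ne : Loc3.tay htrM c ϖ hϖ
      (ϖ ^ e * (∑ j, algebraMap K M (H.Glob.evalAt Q (v j)) * cM j)) ≠ 0 := by
    intro h0
    rw [h0, PowerSeries.order_zero] at hval
    exact ENat.top_ne_coe _ hval
  have hϖΦ : ϖ ^ e * (∑ j, algebraMap K M (H.Glob.evalAt Q (v j)) * cM j) ≠ 0 :=
    fun h0 => htay_ne (by rw [h0]; exact Loc3.tay_zero htrM c ϖ hϖ)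
  have hΦ0 : (∑ j, algebraMap K M (H.Glob.evalAt Q (v j)) * cM j) ≠ 0 :=
    right_ne_zero_of_mul hϖΦ
  refine ⟨hΦ0, ?_⟩
  have hordΦ : c.ord (ϖ ^ e * (∑ j, algebraMap K M (H.Glob.evalAt Q (v j)) * cM j))
      = (e : ℤ) + c.ord (∑ j, algebraMap K M (H.Glob.evalAt Q (v j)) * cM j) :=
    Loc3.ord_pow_mul c hϖ e hΦ0
  have hnn : 0 ≤ (e : ℤ) + c.ord (∑ j, algebraMap K M (H.Glob.evalAt Q (v j)) * cM j) := by
    have h := Fermat.Agent.S24.FF.ord_nonneg_of_mem c hΦmem
    rwa [hordΦ] at h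
  rw [Loc3.order_tay htrM c ϖ hϖ hΦmem hϖΦ, hordΦ] at hval
  have hnat : ((e : ℤ) + c.ord (∑ j, algebraMap K M (H.Glob.evalAt Q (v j)) * cM j)).toNat
      = ∑ x : {x : X // cen x = Q}, μ x.1 * Loc2.ram (ρ x.1) c := by
    exact_mod_cast hval
  have hint : (e : ℤ) + c.ord (∑ j, algebraMap K M (H.Glob.evalAt Q (v j)) * cM j)
      = ((∑ x : {x : X // cen x = Q}, μ x.1 * Loc2.ram (ρ x.1) c : ℕ) : ℤ) := by
    rw [← hnat, Int.toNat_of_nonneg hnn]
  have hconv : ((∑ x : {x : X // cen x = Q}, μ x.1 * Loc2.ram (ρ x.1) c : ℕ) : ℤ)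
      = ∑ x : X, (if cen x = Q then (μ x : ℤ) * (Loc2.ram (ρ x) c : ℤ) else 0) := by
    have h1 : ∑ x : {x : X // cen x = Q}, ((μ x.1 * Loc2.ram (ρ x.1) c : ℕ) : ℤ)
        = ∑ x ∈ Finset.univ.filter (fun x : X => cen x = Q),
            ((μ x * Loc2.ram (ρ x) c : ℕ) : ℤ) :=
      (Finset.sum_subtype _ (fun x => by simp)
        (fun x : X => ((μ x * Loc2.ram (ρ x) c : ℕ) : ℤ))).symm
    rw [Nat.cast_sum, h1, Finset.sum_filter]
    refine Finset.sum_congr rfl fun x _ => ?_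
    split_ifs
    · rw [Nat.cast_mul]
    · rfl
  rw [← hconv, ← hint]
  ring

end Fermat.Agent.S27.L.DV
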