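import Mathlib
import Fermat.Agent.S17.HB.Loc1
import Fermat.Agent.S17.HB.Loc2
import Fermat.Agent.S17.HB.Deg.Defs

/-!
# Program PJ (statement S27), strand L, leaf DB: the evaluation determinant, generic form

`F / K` a function field of one variable, `M / K` another one, `ρ k : F →ₐ[K] M` (`k : Fin e`)
ANY `e` embeddings (the points of one kind of a profile configuration), `u b ∈ L(W)`
(`b : Fin e`) sections of ANY divisor `W` of `F`, and `det [ρ k (u b)] ≠ 0`.  At a place `c` of
`M`, with `T k` the centre of `ρ k` at `c` and `ram k` its ramification index,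

  `ord_c det [ρ k (u b)] ≥ - ∑ k, ram k * W (T k)
      + ∑ k, ∑ k' < k with T k' = T k, ord_c (ρ k (t (T k)) - ρ k' (t (T k)))`,

for ANY choice `t P` of a uniformiser at every place `P` of `F` (`ord_det_ge_of_unif`), in
particular for `HB.Deg.unif` (`ord_det_ge`).  Nothing depends on the index type of the
configuration, on the multiplicities or on the constant divisor.

Proof.  Scale the row `k` by `ρ k (t_k ^ W(T_k))`, `t_k = t (T k)`: the entries
`ρ k (t_k ^ W(T_k) * u b)` are regular at `c` and their expansions at `c` are the expansions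
of `t ^ W(T) * u b` at `T = T k` with the local coordinate `r k = τ_c (ρ k t_k)` substituted
(LOC2, `Loc2.rTaylor_map_eq_subst`).  Rows with the same centre are values of the SAME family
of power series at the points `r k`, so the product of the differences `r k - r k'`
(`k' < k`, same centre) divides the determinant (LOC1, `Loc1.vandermonde_dvd_det`), and
`X ^ ord_c (ρ k t - ρ k' t)` divides `r k - r k'`.
-/

set_option autoImplicit false

open AlgebraicCurve

namespace Fermat.Agent.S27.L.DetBound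

open Fermat.Agent.S17 Fermat.Agent.S17.D Fermat.Agent.S17.HB

section Basic

variable {K F : Type*} [Field K] [Field F] [Algebra K F]

/-- `ord` of a finite product of nonzero functions. -/
theorem ord_prod (v : Place K F) {ι : Type*} (s : Finset ι) (f : ι → F)
    (hf : ∀ i ∈ s, f i ≠ 0) : v.ord (∏ i ∈ s, f i) = ∑ i ∈ s, v.ord (f i) := by
  classical
  induction s using Finset.induction_on with
  | empty => rw [Finset.prod_empty, Finset.sum_empty, Place.ord_one]
  | insert a s ha ih =>
    rw [Finset.prod_insert ha, Finset.sum_insert ha,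
      v.ord_mul (hf a (Finset.mem_insert_self a s))
        (Finset.prod_ne_zero_iff.mpr fun i hi => hf i (Finset.mem_insert_of_mem hi)),
      ih fun i hi => hf i (Finset.mem_insert_of_mem hi)]

theorem ne_zero_of_ord_one (T : Place K F) {t : F} (ht : T.ord t = 1) : t ≠ 0 := by
  intro h
  rw [h, Place.ord_zero] at ht
  exact zero_ne_one ht

theorem mem_of_ord_one (T : Place K F) {t : F} (ht : T.ord t = 1) :
    t ∈ T.toValuationSubring :=
  Fermat.Agent.S24.FF.mem_of_ord_pos T (by rw [ht]; exact one_pos)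

/-- For `f ∈ L(W)` and a uniformiser `t` at `T` the function `t ^ W T * f` is regular at `T`. -/
theorem unif_zpow_mul_mem (W : Divisor K F) {f : F} (hf : f ∈ riemannRochSpace W)
    (T : Place K F) {t : F} (ht : T.ord t = 1) : t ^ (W T) * f ∈ T.toValuationSubring := by
  rcases eq_or_ne f 0 with rfl | hf0
  · rw [mul_zero]
    exact T.toValuationSubring.zero_mem
  · have hz : t ^ (W T) ≠ 0 := zpow_ne_zero _ (ne_zero_of_ord_one T ht)
    rw [← Fermat.Agent.S24.FF.ord_nonneg_iff T (mul_ne_zero hz hf0), T.ord_mul hz hf0,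
      T.ord_zpow, ht, mul_one]
    rcases (mem_riemannRochSpace_iff.mp hf) T with h | h
    · exact absurd h hf0
    · omega

end Basic

section Curve

variable {K F M : Type*} [Field K] [Field F] [Algebra K F] [Field M] [Algebra K M]
variable [IsAlgClosed K] [CharZero K] [Algebra.EssFiniteType K M]

/-- **The Vandermonde step at a place.**  A square matrix `B` of functions regular at `c` whose
expansions are the values `(fam (grp k) b).subst (r k)` of families of power series depending
only on the group of the row, at points `r k` with `X ^ N k k' ∣ r k - r k'` inside a group, has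
a determinant of order at least `∑ k, ∑ k' < k in the group of k, N k k'`. -/
theorem sum_le_ord_det (htrM : Algebra.trdeg K M = 1) (c : Place K M) (ϖ : M)
    (hϖ : c.ord ϖ = 1) {e : ℕ} {γ : Type*} [DecidableEq γ] (grp : Fin e → γ)
    (r : Fin e → PowerSeries K) (hr0 : ∀ k, PowerSeries.constantCoeff (r k) = 0)
    (fam : γ → Fin e → PowerSeries K) (B : Matrix (Fin e) (Fin e) ↥c.toValuationSubring)
    (hB : ∀ k b, R.taylor htrM c ϖ hϖ (B k b) = (fam (grp k) b).subst (r k))
    (N : Fin e → Fin e → ℕ)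
    (hN : ∀ k k', grp k' = grp k → (PowerSeries.X : PowerSeries K) ^ N k k' ∣ r k - r k')
    (hdet : ((B.det : ↥c.toValuationSubring) : M) ≠ 0) :
    ((∑ k : Fin e, ∑ k' ∈ Finset.univ.filter (fun k' : Fin e => k' < k ∧ grp k' = grp k),
        N k k' : ℕ) : ℤ) ≤ c.ord ((B.det : ↥c.toValuationSubring) : M) := by
  have hϖm : ϖ ∈ c.toValuationSubring :=
    Fermat.Agent.S24.FF.mem_of_ord_pos c (by rw [hϖ]; exact one_pos)
  have hτ : R.taylor htrM c ϖ hϖ ⟨ϖ, hϖm⟩ = PowerSeries.X := R.taylor_unif htrM c ϖ hϖ hϖm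
  have hV := Loc1.vandermonde_dvd_det grp r hr0 fam
  have hM : (Matrix.of fun k b => (fam (grp k) b).subst (r k)) =
      ((R.taylor htrM c ϖ hϖ : ↥c.toValuationSubring →ₐ[K] PowerSeries K) :
        ↥c.toValuationSubring →+* PowerSeries K).mapMatrix B :=
    Matrix.ext fun k b => (hB k b).symm
  rw [hM, ← RingHom.map_det] at hV
  have hX : (PowerSeries.X : PowerSeries K) ^
      (∑ k : Fin e, ∑ k' ∈ Finset.univ.filter (fun k' : Fin e => k' < k ∧ grp k' = grp k),
        N k k') ∣ R.taylor htrM c ϖ hϖ B.det := by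
    refine dvd_trans ?_ hV
    rw [← Finset.prod_pow_eq_pow_sum]
    refine Finset.prod_dvd_prod_of_dvd _ _ fun k _ => ?_
    rw [← Finset.prod_pow_eq_pow_sum]
    exact Finset.prod_dvd_prod_of_dvd _ _ fun k' hk' => hN k k' (Finset.mem_filter.mp hk').2.2
  exact (Loc2.X_pow_dvd_iff htrM c ⟨ϖ, hϖm⟩ hϖ (R.taylor htrM c ϖ hϖ) hτ B.det hdet _).mp hX

variable [Algebra.EssFiniteType K F]

open Classical in
/-- **DB, generic form.**  `ρ k` any `e` embeddings, `T k` the centre of `ρ k` at `c`, `ram k`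
its ramification index, `t P` any uniformiser at `P`, `u b ∈ L(W)` any `e` sections. -/
theorem ord_det_ge_of_unif (htr : Algebra.trdeg K F = 1) (htrM : Algebra.trdeg K M = 1) {e : ℕ}
    (ρ : Fin e → (F →ₐ[K] M)) (c : Place K M) (T : Fin e → Place K F)
    (hT : ∀ k, (T k).toValuationSubring = c.toValuationSubring.comap (ρ k : F →+* M))
    (ram : Fin e → ℤ) (hram : ∀ k f, c.ord (ρ k f) = ram k * (T k).ord f)
    (t : Place K F → F) (ht : ∀ P : Place K F, P.ord (t P) = 1)
    (W : Divisor K F) (u : Fin e → F) (hu : ∀ b, u b ∈ riemannRochSpace W)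
    (hG : (Matrix.of fun k b => ρ k (u b)).det ≠ 0) :
    -∑ k : Fin e, ram k * W (T k) +
        ∑ k : Fin e, ∑ k' ∈ Finset.univ.filter (fun k' : Fin e => k' < k ∧ T k' = T k),
          c.ord (ρ k (t (T k)) - ρ k' (t (T k))) ≤
      c.ord (Matrix.of fun k b => ρ k (u b)).det := by
  obtain ⟨ϖ, hϖ⟩ := Deg.exists_ord_eq_one c
  have hϖm : ϖ ∈ c.toValuationSubring :=
    Fermat.Agent.S24.FF.mem_of_ord_pos c (by rw [hϖ]; exact one_pos)
  have hτcϖ : R.taylor htrM c ϖ hϖ ⟨ϖ, hϖm⟩ = PowerSeries.X := R.taylor_unif htrM c ϖ hϖ hϖm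
  have htm : ∀ P : Place K F, t P ∈ P.toValuationSubring := fun P => mem_of_ord_one P (ht P)
  have hρt : ∀ k, ρ k (t (T k)) ∈ c.toValuationSubring := fun k =>
    Loc2.map_mem_of_comap_eq (ρ k) c (T k) (hT k) _ (htm (T k))
  have hexp := fun k => Loc2.rTaylor_map_eq_subst htr htrM (ρ k) c (T k) (hT k) (t (T k))
    (ht (T k)) ϖ hϖ (htm (T k)) (hρt k)
  have ha : ∀ (P : Place K F) (b : Fin e), t P ^ (W P) * u b ∈ P.toValuationSubring :=
    fun P b => unif_zpow_mul_mem W (hu b) P (ht P)
  have hρa : ∀ k b, ρ k (t (T k) ^ (W (T k)) * u b) ∈ c.toValuationSubring := fun k b =>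
    Loc2.map_mem_of_comap_eq (ρ k) c (T k) (hT k) _ (ha (T k) b)
  -- the matrix of the scaled rows, over the local ring of `c`
  let B : Matrix (Fin e) (Fin e) ↥c.toValuationSubring := Matrix.of fun k b =>
    (⟨ρ k (t (T k) ^ (W (T k)) * u b), hρa k b⟩ : ↥c.toValuationSubring)
  have hBdet : ((B.det : ↥c.toValuationSubring) : M) =
      (∏ k, ρ k (t (T k) ^ (W (T k)))) * (Matrix.of fun k b => ρ k (u b)).det := by
    have h2 : c.toValuationSubring.subtype.mapMatrix B =
        Matrix.of fun k b => ρ k (t (T k) ^ (W (T k))) * (Matrix.of fun k b => ρ k (u b)) k b := by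
      ext k b
      show ρ k (t (T k) ^ (W (T k)) * u b) = ρ k (t (T k) ^ (W (T k))) * ρ k (u b)
      rw [map_mul]
    calc ((B.det : ↥c.toValuationSubring) : M)
        = (c.toValuationSubring.subtype.mapMatrix B).det :=
          RingHom.map_det c.toValuationSubring.subtype B
      _ = (Matrix.of fun k b =>
            ρ k (t (T k) ^ (W (T k))) * (Matrix.of fun k b => ρ k (u b)) k b).det := by rw [h2]
      _ = _ := Matrix.det_mul_column (fun k => ρ k (t (T k) ^ (W (T k))))
            (Matrix.of fun k b => ρ k (u b))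
  have hP0 : ∀ k ∈ (Finset.univ : Finset (Fin e)), ρ k (t (T k) ^ (W (T k))) ≠ 0 :=
    fun k _ => (map_ne_zero (ρ k)).mpr (zpow_ne_zero _ (ne_zero_of_ord_one (T k) (ht (T k))))
  have hP : (∏ k, ρ k (t (T k) ^ (W (T k)))) ≠ 0 := Finset.prod_ne_zero_iff.mpr hP0
  have hD0 : ((B.det : ↥c.toValuationSubring) : M) ≠ 0 := by
    rw [hBdet]
    exact mul_ne_zero hP hG
  have hordD : c.ord ((B.det : ↥c.toValuationSubring) : M) =
      ∑ k : Fin e, ram k * W (T k) + c.ord (Matrix.of fun k b => ρ k (u b)).det := by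
    rw [hBdet, c.ord_mul hP hG, ord_prod c _ _ hP0]
    congr 1
    refine Finset.sum_congr rfl fun k _ => ?_
    rw [hram k, Place.ord_zpow, ht (T k), mul_one]
  -- the differences of the local coordinates
  have hdiff : ∀ k k', T k' = T k →
      (PowerSeries.X : PowerSeries K) ^ (c.ord (ρ k (t (T k)) - ρ k' (t (T k)))).toNat ∣
        R.taylor htrM c ϖ hϖ ⟨ρ k (t (T k)), hρt k⟩ -
          R.taylor htrM c ϖ hϖ ⟨ρ k' (t (T k')), hρt k'⟩ := by
    intro k k' hkk
    have hmem' : ρ k' (t (T k)) ∈ c.toValuationSubring := by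
      rw [← hkk]
      exact hρt k'
    have hr' : (⟨ρ k' (t (T k')), hρt k'⟩ : ↥c.toValuationSubring) =
        ⟨ρ k' (t (T k)), hmem'⟩ :=
      Subtype.ext (show ρ k' (t (T k')) = ρ k' (t (T k)) by rw [hkk])
    rw [hr', ← map_sub]
    by_cases hd0 : ρ k (t (T k)) - ρ k' (t (T k)) = 0
    · have h0 : (⟨ρ k (t (T k)), hρt k⟩ - ⟨ρ k' (t (T k)), hmem'⟩ :
          ↥c.toValuationSubring) = 0 := Subtype.ext hd0
      rw [h0, map_zero]
      exact dvd_zero _
    · rw [Loc2.X_pow_dvd_iff htrM c ⟨ϖ, hϖm⟩ hϖ (R.taylor htrM c ϖ hϖ) hτcϖ _ hd0]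
      have hnn : 0 ≤ c.ord (ρ k (t (T k)) - ρ k' (t (T k))) :=
        Fermat.Agent.S24.FF.ord_nonneg_of_mem c (c.toValuationSubring.sub_mem (hρt k) hmem')
      rw [Int.toNat_of_nonneg hnn]
      exact le_refl _
  have hmain := sum_le_ord_det htrM c ϖ hϖ T
    (fun k => R.taylor htrM c ϖ hϖ ⟨ρ k (t (T k)), hρt k⟩) (fun k => (hexp k).1)
    (fun P b => R.taylor htr P (t P) (ht P) ⟨t P ^ (W P) * u b, ha P b⟩) B
    (fun k b => (hexp k).2 _ (ha (T k) b) (hρa k b))
    (fun k k' => (c.ord (ρ k (t (T k)) - ρ k' (t (T k)))).toNat) hdiff hD0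
  rw [hordD] at hmain
  have hsum : ((∑ k : Fin e, ∑ k' ∈ Finset.univ.filter (fun k' : Fin e => k' < k ∧ T k' = T k),
      (c.ord (ρ k (t (T k)) - ρ k' (t (T k)))).toNat : ℕ) : ℤ) =
      ∑ k : Fin e, ∑ k' ∈ Finset.univ.filter (fun k' : Fin e => k' < k ∧ T k' = T k),
        c.ord (ρ k (t (T k)) - ρ k' (t (T k))) := by
    rw [Nat.cast_sum]
    refine Finset.sum_congr rfl fun k _ => ?_
    rw [Nat.cast_sum]
    refine Finset.sum_congr rfl fun k' hk' => ?_
    have hkk := (Finset.mem_filter.mp hk').2.2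
    have hmem' : ρ k' (t (T k)) ∈ c.toValuationSubring := by
      rw [← hkk]
      exact hρt k'
    exact Int.toNat_of_nonneg
      (Fermat.Agent.S24.FF.ord_nonneg_of_mem c (c.toValuationSubring.sub_mem (hρt k) hmem'))
  rw [hsum] at hmain
  linarith

open Classical in
/-- **DB, generic form, with the uniformisers `HB.Deg.unif`.** -/
theorem ord_det_ge (htr : Algebra.trdeg K F = 1) (htrM : Algebra.trdeg K M = 1) {e : ℕ}
    (ρ : Fin e → (F →ₐ[K] M)) (c : Place K M) (T : Fin e → Place K F)
    (hT : ∀ k, (T k).toValuationSubring = c.toValuationSubring.comap (ρ k : F →+* M))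
    (ram : Fin e → ℤ) (hram : ∀ k f, c.ord (ρ k f) = ram k * (T k).ord f)
    (W : Divisor K F) (u : Fin e → F) (hu : ∀ b, u b ∈ riemannRochSpace W)
    (hG : (Matrix.of fun k b => ρ k (u b)).det ≠ 0) :
    -∑ k : Fin e, ram k * W (T k) +
        ∑ k : Fin e, ∑ k' ∈ Finset.univ.filter (fun k' : Fin e => k' < k ∧ T k' = T k),
          c.ord (ρ k (Deg.unif (T k)) - ρ k' (Deg.unif (T k))) ≤
      c.ord (Matrix.of fun k b => ρ k (u b)).det :=
  ord_det_ge_of_unif htr htrM ρ c T hT ram hram Deg.unif Deg.ord_unif W u hu hG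

end Curve

end Fermat.Agent.S27.L.DetBound
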