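import Mathlib
import Fermat.Agent.S17.H.Glob.Eval
import Fermat.Agent.S17.HB.Loc2Eval
import Fermat.Agent.S27.M.CanEff
import Fermat.Agent.S27.L.Final

/-!
# Program PJ (statement S27), strand L: the local theorem from ONE good place

The exits `bound_G`, `bound_F` of the strand need an evaluation determinant that is non-zero in
`M`.  This file produces it from ONE place `w` of `M` at which the centres of the points of a class
are pairwise distinct and form a non-special set:

* `Good.evalHom` : the value at a place as a ring homomorphism on its valuation ring;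
* `Good.evalDet_ne_zero` : sections regular at the centres whose value matrix at the centres has
  trivial kernel have a non-zero evaluation determinant in `M` (regular with non-zero value at
  `w`, hence non-zero);
* `Good.exists_sections` : the sections of `M/CanEff` (an effective canonical system through the
  centres) at such a place: a divisor `W` of degree `≤ g + e - 2`, `e` sections of `L(W)` and
  a non-zero determinant;
* `bounds_of_place` : both inequalities of the local theorem on a profile configuration of type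
  `(e1, e2)` with one good place; `nat_bounds_of_place` : the same in `ℕ` with one constant.
-/

set_option autoImplicit false

open AlgebraicCurve

namespace Fermat.Agent.S27.L

open Fermat.Agent.S17 Fermat.Agent.S17.HB

variable {K F M : Type*} [Field K] [Field F] [Algebra K F] [Field M] [Algebra K M]
variable [IsAlgClosed K] [CharZero K] [Algebra.EssFiniteType K F] [Algebra.EssFiniteType K M]

namespace Good

omit [CharZero K] [Algebra.EssFiniteType K M] in
/-- The value at a place, as a ring homomorphism on the valuation ring. -/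
noncomputable def evalHom (htrM : Algebra.trdeg K M = 1) (w : Place K M) :
    ↥w.toValuationSubring →+* K where
  toFun x := H.Glob.evalAt w (x : M)
  map_one' := (H.Glob.isEval_evalAt htrM).map_one w
  map_mul' x y := (H.Glob.isEval_evalAt htrM).map_mul x.2 y.2
  map_zero' := (H.Glob.isEval_evalAt htrM).map_zero w
  map_add' x y := (H.Glob.isEval_evalAt htrM).map_add x.2 y.2

/-- Sections regular at the centres of the embeddings `σ i` at the place `w`, whose value matrix
at these centres has trivial kernel, have a non-zero evaluation determinant in `M`. -/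
theorem evalDet_ne_zero (htr : Algebra.trdeg K F = 1) (htrM : Algebra.trdeg K M = 1) {e : ℕ}
    (σ : Fin e → (F →ₐ[K] M)) (u : Fin e → F) (w : Place K M)
    (hreg : ∀ i b, u b ∈ (cen htr htrM (σ i) w).toValuationSubring)
    (hinj : ∀ c : Fin e → K,
      (∀ i, ∑ b, c b * H.Glob.evalAt (cen htr htrM (σ i) w) (u b) = 0) → c = 0) :
    (Matrix.of fun i b => σ i (u b)).det ≠ 0 := by
  intro hdet
  have hmem : ∀ i b, σ i (u b) ∈ w.toValuationSubring := fun i b =>
    (mem_cen_iff htr htrM (σ i) w (u b)).mp (hreg i b)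
  set A₀ : Matrix (Fin e) (Fin e) ↥w.toValuationSubring :=
    Matrix.of fun i b => ⟨σ i (u b), hmem i b⟩ with hA₀
  have hA : (Matrix.of fun i b => σ i (u b)) = A₀.map w.toValuationSubring.subtype := by
    ext i b
    rfl
  have h0 : A₀.det = 0 := by
    have h1 : w.toValuationSubring.subtype A₀.det = 0 := by
      rw [RingHom.map_det, RingHom.mapMatrix_apply, ← hA, hdet]
    exact Subtype.ext h1
  have h1 : (A₀.map (evalHom htrM w)).det = 0 := by
    rw [← RingHom.mapMatrix_apply, ← RingHom.map_det, h0, map_zero]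
  obtain ⟨c, hc, hcv⟩ := Matrix.exists_mulVec_eq_zero_iff.mpr h1
  refine hc (hinj c fun i => ?_)
  have h2 : ∑ b, (A₀.map (evalHom htrM w)) i b * c b = 0 := by
    have h := congrFun hcv i
    rw [Pi.zero_apply] at h
    exact h
  refine Eq.trans (Finset.sum_congr rfl fun b _ => ?_) h2
  have h3 : (A₀.map (evalHom htrM w)) i b = H.Glob.evalAt (cen htr htrM (σ i) w) (u b) :=
    Loc2Eval.evalAt_map_centre htr htrM (σ i) (Loc2.algHom_isIntegral htr htrM (σ i)) w (u b)
      (hreg i b)
  rw [h3, mul_comm]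

/-- At a place `w` of `M` where the centres of the embeddings `σ i` are pairwise distinct and
form a non-special set: a divisor `W` of degree `≤ g + e - 2`, `e` sections of `L(W)` and a
non-zero evaluation determinant. -/
theorem exists_sections (htr : Algebra.trdeg K F = 1) (htrM : Algebra.trdeg K M = 1) {e : ℕ}
    (he : 0 < e) (σ : Fin e → (F →ₐ[K] M)) (w : Place K M)
    (hinj : Function.Injective fun i : Fin e => cen htr htrM (σ i) w)
    (hns : Module.finrank K ↥(riemannRochSpace
      (∑ i : Fin e, Finsupp.single (cen htr htrM (σ i) w) (1 : ℤ))) = 1) :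
    ∃ (W : Divisor K F) (u : Fin e → F), Divisor.degree W ≤ (R.gR K F : ℤ) + e - 2 ∧
      (∀ b, u b ∈ riemannRochSpace W) ∧ (Matrix.of fun i b => σ i (u b)).det ≠ 0 := by
  classical
  set P : Finset (Place K F) := Finset.univ.image (fun i : Fin e => cen htr htrM (σ i) w)
    with hP
  have hcard : P.card = e := by
    rw [hP, Finset.card_image_of_injective _ hinj, Finset.card_univ, Fintype.card_fin]
  have hsum : ∑ v ∈ P, Finsupp.single v (1 : ℤ) =
      ∑ i : Fin e, Finsupp.single (cen htr htrM (σ i) w) (1 : ℤ) := by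
    rw [hP, Finset.sum_image fun i _ j _ h => hinj h]
  obtain ⟨W, u, -, hWdeg, -, hWP, -, hspan, hker⟩ :=
    Fermat.Agent.S27.M.CanEff.exists_effective_canonical_basis htr ∅ P
      (by rw [hcard]; exact he) (by rw [hsum]; exact hns)
  have huL : ∀ b, u b ∈ riemannRochSpace W := fun b => by
    rw [← hspan]
    exact Submodule.subset_span (Set.mem_range_self b)
  have hreg : ∀ (i : Fin e) (b : Fin P.card),
      u b ∈ (cen htr htrM (σ i) w).toValuationSubring := by
    intro i b
    have hi : cen htr htrM (σ i) w ∈ P := by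
      rw [hP]
      exact Finset.mem_image_of_mem _ (Finset.mem_univ i)
    by_cases h0 : u b = 0
    · rw [h0]
      exact zero_mem _
    · have h1 := (R.mem_L_of_ne_zero h0).mp (huL b) (cen htr htrM (σ i) w)
      rw [hWP _ hi, neg_zero] at h1
      exact (Fermat.Agent.S24.FF.ord_nonneg_iff _ h0).mp h1
  refine ⟨W, fun b => u ((finCongr hcard).symm b), by rw [hWdeg, hcard], fun b => huL _, ?_⟩
  refine evalDet_ne_zero htr htrM σ _ w (fun i b => hreg i _) fun c hc => ?_
  have hev := H.Glob.isEval_evalAt (K := K) (F := F) htr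
  have h0 : (fun b : Fin P.card => c (finCongr hcard b)) = 0 := by
    refine hker _ fun v hv => ?_
    rw [hP, Finset.mem_image] at hv
    obtain ⟨i, -, rfl⟩ := hv
    have hmem : ∀ b ∈ (Finset.univ : Finset (Fin P.card)),
        c (finCongr hcard b) • u b ∈ (cen htr htrM (σ i) w).toValuationSubring := fun b _ => by
      rw [Algebra.smul_def]
      exact mul_mem ((cen htr htrM (σ i) w).algebraMap_mem' _) (hreg i b)
    refine (hev.eq_zero_iff (Subring.sum_mem _ hmem)).mp ?_
    rw [hev.map_sum _ _ hmem, ← hc i, ← Equiv.sum_comp (finCongr hcard).symm]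
    refine Finset.sum_congr rfl fun b _ => ?_
    rw [hev.map_smul _ (hreg i _), Equiv.apply_symm_apply]
  funext b
  have h1 := congrFun h0 ((finCongr hcard).symm b)
  simpa using h1

end Good

/-- **The local theorem from one good place.**  On a profile configuration of type `(e1, e2)`
with a place `w` of `M` at which the centres of the simple points are pairwise distinct and
non-special, and likewise the centres of the points of multiplicity `n`: both inequalities. -/
theorem bounds_of_place (htr : Algebra.trdeg K F = 1) (htrM : Algebra.trdeg K M = 1)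
    {e1 e2 n m : ℕ} (hn : 0 < n) (he1 : 0 < e1) (he2 : 0 < e2) {B : Divisor K F}
    {δ : Derivation K F F}
    (d : Data htr M (Fin e1 ⊕ Fin e2) (Sum.elim (fun _ => 1) (fun _ => n)) m B δ)
    (Dδ : Divisor K F)
    (hDδ : ∀ (v : Place K F) (π : F), v.ord π = 1 → v.ord (δ π) = -Dδ v)
    (hκ : 2 * (R.gR K F : ℤ) - 2 ≤ Divisor.degree Dδ) (w : Place K M)
    (hG : Function.Injective fun i : Fin e1 => cen htr htrM (d.ρ (Sum.inl i)) w)
    (hGns : Module.finrank K ↥(riemannRochSpace
      (∑ i : Fin e1, Finsupp.single (cen htr htrM (d.ρ (Sum.inl i)) w) (1 : ℤ))) = 1)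
    (hF : Function.Injective fun j : Fin e2 => cen htr htrM (d.ρ (Sum.inr j)) w)
    (hFns : Module.finrank K ↥(riemannRochSpace
      (∑ j : Fin e2, Finsupp.single (cen htr htrM (d.ρ (Sum.inr j)) w) (1 : ℤ))) = 1) :
    2 * ∑ i : Fin e1, (finrankAlong K (d.ρ (Sum.inl i)) : ℤ) ≤
        (n : ℤ) ^ 2 * (Divisor.degree Dδ + 2 * e2) *
          ∑ j : Fin e2, (finrankAlong K (d.ρ (Sum.inr j)) : ℤ) ∧
      2 * (n : ℤ) ^ 2 * ∑ j : Fin e2, (finrankAlong K (d.ρ (Sum.inr j)) : ℤ) ≤
        (Divisor.degree Dδ + 2 * e1) *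
          ∑ i : Fin e1, (finrankAlong K (d.ρ (Sum.inl i)) : ℤ) := by
  obtain ⟨WG, uG, hWG, huG, hdetG⟩ :=
    Good.exists_sections htr htrM he1 (fun i => d.ρ (Sum.inl i)) w hG hGns
  obtain ⟨WF, uF, hWF, huF, hdetF⟩ :=
    Good.exists_sections htr htrM he2 (fun j => d.ρ (Sum.inr j)) w hF hFns
  exact ⟨bound_G htr htrM hn d Dδ hDδ hκ WG hWG uG huG hdetG,
    bound_F htr htrM hn d Dδ hDδ hκ WF hWF uF huF hdetF⟩

/-- **The local theorem from one good place, in `ℕ`.**  With a constant `C` such that
`deg Dδ + 2 e1 ≤ 2 C` and `deg Dδ + 2 e2 ≤ 2 C`: `I_G ≤ C n² I_F` and `n² I_F ≤ C I_G`. -/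
theorem nat_bounds_of_place (htr : Algebra.trdeg K F = 1) (htrM : Algebra.trdeg K M = 1)
    {e1 e2 n m : ℕ} (hn : 0 < n) (he1 : 0 < e1) (he2 : 0 < e2) {B : Divisor K F}
    {δ : Derivation K F F}
    (d : Data htr M (Fin e1 ⊕ Fin e2) (Sum.elim (fun _ => 1) (fun _ => n)) m B δ)
    (Dδ : Divisor K F)
    (hDδ : ∀ (v : Place K F) (π : F), v.ord π = 1 → v.ord (δ π) = -Dδ v)
    (hκ : 2 * (R.gR K F : ℤ) - 2 ≤ Divisor.degree Dδ) (C : ℕ)
    (hC1 : Divisor.degree Dδ + 2 * e1 ≤ 2 * C) (hC2 : Divisor.degree Dδ + 2 * e2 ≤ 2 * C)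
    (w : Place K M)
    (hG : Function.Injective fun i : Fin e1 => cen htr htrM (d.ρ (Sum.inl i)) w)
    (hGns : Module.finrank K ↥(riemannRochSpace
      (∑ i : Fin e1, Finsupp.single (cen htr htrM (d.ρ (Sum.inl i)) w) (1 : ℤ))) = 1)
    (hF : Function.Injective fun j : Fin e2 => cen htr htrM (d.ρ (Sum.inr j)) w)
    (hFns : Module.finrank K ↥(riemannRochSpace
      (∑ j : Fin e2, Finsupp.single (cen htr htrM (d.ρ (Sum.inr j)) w) (1 : ℤ))) = 1) :
    ∑ i : Fin e1, finrankAlong K (d.ρ (Sum.inl i)) ≤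
        C * n ^ 2 * ∑ j : Fin e2, finrankAlong K (d.ρ (Sum.inr j)) ∧
      n ^ 2 * ∑ j : Fin e2, finrankAlong K (d.ρ (Sum.inr j)) ≤
        C * ∑ i : Fin e1, finrankAlong K (d.ρ (Sum.inl i)) := by
  obtain ⟨h1, h2⟩ := bounds_of_place htr htrM hn he1 he2 d Dδ hDδ hκ w hG hGns hF hFns
  have hIG : (0 : ℤ) ≤ ∑ i : Fin e1, (finrankAlong K (d.ρ (Sum.inl i)) : ℤ) :=
    Finset.sum_nonneg fun i _ => Int.natCast_nonneg _
  have hIF : (0 : ℤ) ≤ ∑ j : Fin e2, (finrankAlong K (d.ρ (Sum.inr j)) : ℤ) :=
    Finset.sum_nonneg fun j _ => Int.natCast_nonneg _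
  have hn2 : (0 : ℤ) ≤ (n : ℤ) ^ 2 := by positivity
  constructor
  · have h3 : (n : ℤ) ^ 2 * (Divisor.degree Dδ + 2 * e2) *
        ∑ j : Fin e2, (finrankAlong K (d.ρ (Sum.inr j)) : ℤ) ≤
        (n : ℤ) ^ 2 * (2 * C) * ∑ j : Fin e2, (finrankAlong K (d.ρ (Sum.inr j)) : ℤ) :=
      mul_le_mul_of_nonneg_right (mul_le_mul_of_nonneg_left hC2 hn2) hIF
    have h4 : (∑ i : Fin e1, (finrankAlong K (d.ρ (Sum.inl i)) : ℤ)) ≤
        (C : ℤ) * (n : ℤ) ^ 2 * ∑ j : Fin e2, (finrankAlong K (d.ρ (Sum.inr j)) : ℤ) := by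
      nlinarith
    exact_mod_cast h4
  · have h3 : (Divisor.degree Dδ + 2 * e1) *
        ∑ i : Fin e1, (finrankAlong K (d.ρ (Sum.inl i)) : ℤ) ≤
        (2 * C) * ∑ i : Fin e1, (finrankAlong K (d.ρ (Sum.inl i)) : ℤ) :=
      mul_le_mul_of_nonneg_right hC1 hIG
    have h4 : (n : ℤ) ^ 2 * ∑ j : Fin e2, (finrankAlong K (d.ρ (Sum.inr j)) : ℤ) ≤
        (C : ℤ) * ∑ i : Fin e1, (finrankAlong K (d.ρ (Sum.inl i)) : ℤ) := by
      nlinarith
    exact_mod_cast h4

end Fermat.Agent.S27.L
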