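import Mathlib
import Fermat.Agent.S27.L.Loc3
import Fermat.Agent.S17.HB.CarPos

/-!
# Program PJ (statement S27), strand L: the tangent lemma (T)

Setting of `S27/L/Loc3.lean`: a profile configuration `d : Loc3.Config htr M ι μ B` over the
function field `M` of a configuration curve, a place `c` of `M` with uniformiser `ϖ` and the
normalising exponent `e`, the centres `cen x` at `c` of the points `ρ x`.

The local series at `c` of the normalised coefficient vector is
`C j = tay_c (ϖ ^ e * cM j) = C j (0) + C j '(0) ϖ + ...`; the specialised function is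
`psi0 = ∑ j, C j (0) • v j` and its first-order companion is `psi1 = ∑ j, C j '(0) • v j`
(the derivative along the configuration curve at `c` of the function of the configuration).

**Lemma (T)** (`ord_first`).  Assume the centres are pairwise distinct (`hinj`) and `0 < μ x`.
* if `ρ x` is unramified at `c` (`HB.Loc2.ram (d.ρ x) c = 1`; equivalently `c.ord (ρ x t) = 1`
  for one/every uniformiser `t` at `cen x`, `ram_eq_one_iff`), then `psi1 ≠ 0` and
  `ord_{cen x} psi1 = ord_{cen x} psi0 - 1`;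
* otherwise `psi1 = 0` or `ord_{cen x} psi0 ≤ ord_{cen x} psi1`.
At a place `T` which is not a centre of a point of positive multiplicity
(`ord_first_of_mult_zero`, `ord_first_off`): `psi1 = 0` or `ord_T psi0 ≤ ord_T psi1`.

So the tangent function `psi1 / psi0` lies in `L(∑ x, cen x)`, with a simple pole exactly at the
centres of the unramified points of positive multiplicity (`tangent_mem`, `ord_tangent`).

**Consequences.**
* (T1) `unramified_of_nonspecial`: if one point `x₀` (of positive multiplicity) is unramified at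
  `c` and `l(∑_{x' ≠ x} cen x') = 1`, then `ρ x` is unramified at `c`.
* (T2) `nonspecial_of_unramified`: if `ρ x` is unramified at `c` (`0 < μ x`) and
  `l(∑ x', cen x') = 2`, then `l(∑_{x' ≠ x} cen x') = 1`.

Proof of (T).  By `Loc3.jets_loc` the local series satisfies
`∑ j, C j (s) * (∂^(i) W j)(r (s)) = 0` for `i < μ x`, `W j` the expansion at `cen x` of
`t ^ q * v j` and `r` the expansion at `c` of `ρ x t` (`r (0) = 0`).  The coefficient of `s`
(`first_order`) is `(P1)_i = - (i + 1) r'(0) (P0)_(i + 1)`, `P0`, `P1` the expansions of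
`t ^ q * psi0`, `t ^ q * psi1`.  By `Loc3.ord_spec` and the injectivity of `cen`, `P0` has order
exactly `μ x`; so `P1` has order exactly `μ x - 1` when `r'(0) ≠ 0` and order `≥ μ x` when
`r'(0) = 0`, and `r'(0) ≠ 0` exactly when `ρ x` is unramified at `c`
(`coeff_one_tay_ne_zero_iff`).
-/

set_option autoImplicit false

open AlgebraicCurve

namespace Fermat.Agent.S27.L.Tangent

open Fermat.Agent.S17 Fermat.Agent.S17.D Fermat.Agent.S17.HB.Loc3

variable {K F M : Type*} [Field K] [Field F] [Algebra K F] [Field M] [Algebra K M]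
variable [IsAlgClosed K] [CharZero K] [Algebra.EssFiniteType K F] [Algebra.EssFiniteType K M]
variable {htr : Algebra.trdeg K F = 1} {ι : Type*} [Fintype ι] {X : Type*} [Fintype X]
  {μ : X → ℕ} {B : Divisor K F}

/-- The specialised function at the place `c` (the function of `Loc3.divOf_spec`). -/
noncomputable def psi0 (htrM : Algebra.trdeg K M = 1) (d : Loc3.Config htr M ι μ B)
    (c : Place K M) (ϖ : M) (hϖ : c.ord ϖ = 1) (e : ℕ) : F :=
  ∑ j, PowerSeries.constantCoeff (tay htrM c ϖ hϖ (ϖ ^ e * d.cM j)) • d.v j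

/-- The first-order companion of the specialised function at the place `c`. -/
noncomputable def psi1 (htrM : Algebra.trdeg K M = 1) (d : Loc3.Config htr M ι μ B)
    (c : Place K M) (ϖ : M) (hϖ : c.ord ϖ = 1) (e : ℕ) : F :=
  ∑ j, PowerSeries.coeff 1 (tay htrM c ϖ hϖ (ϖ ^ e * d.cM j)) • d.v j

theorem psi0_def (htrM : Algebra.trdeg K M = 1) (d : Loc3.Config htr M ι μ B)
    (c : Place K M) (ϖ : M) (hϖ : c.ord ϖ = 1) (e : ℕ) :
    psi0 htrM d c ϖ hϖ e =
      ∑ j, PowerSeries.constantCoeff (tay htrM c ϖ hϖ (ϖ ^ e * d.cM j)) • d.v j := rfl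

theorem psi1_def (htrM : Algebra.trdeg K M = 1) (d : Loc3.Config htr M ι μ B)
    (c : Place K M) (ϖ : M) (hϖ : c.ord ϖ = 1) (e : ℕ) :
    psi1 htrM d c ϖ hϖ e =
      ∑ j, PowerSeries.coeff 1 (tay htrM c ϖ hϖ (ϖ ^ e * d.cM j)) • d.v j := rfl

/-! ### Power series: the first-order part of a family of Hasse jets -/

section PowerSeriesPart

omit [IsAlgClosed K] [CharZero K] in
theorem coeff_one_mul (a b : PowerSeries K) :
    PowerSeries.coeff 1 (a * b) =
      PowerSeries.constantCoeff a * PowerSeries.coeff 1 b +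
        PowerSeries.coeff 1 a * PowerSeries.constantCoeff b := by
  rw [PowerSeries.coeff_mul]
  simp [Finset.Nat.antidiagonal_succ]

omit [IsAlgClosed K] [CharZero K] in
theorem constantCoeff_subst_of_zero {r : PowerSeries K} (hr : PowerSeries.constantCoeff r = 0)
    (φ : PowerSeries K) :
    PowerSeries.constantCoeff (φ.subst r) = PowerSeries.constantCoeff φ := by
  have hs : PowerSeries.HasSubst r := PowerSeries.HasSubst.of_constantCoeff_zero' hr
  conv_lhs => rw [PowerSeries.eq_X_mul_shift_add_const φ]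
  rw [PowerSeries.subst_add hs, PowerSeries.subst_mul hs, PowerSeries.subst_X hs,
    PowerSeries.subst_C, map_add, map_mul, hr, zero_mul, zero_add]
  exact PowerSeries.constantCoeff_C _

omit [IsAlgClosed K] [CharZero K] in
theorem coeff_one_subst_of_zero {r : PowerSeries K} (hr : PowerSeries.constantCoeff r = 0)
    (φ : PowerSeries K) :
    PowerSeries.coeff 1 (φ.subst r) = PowerSeries.coeff 1 φ * PowerSeries.coeff 1 r := by
  have hs : PowerSeries.HasSubst r := PowerSeries.HasSubst.of_constantCoeff_zero' hr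
  conv_lhs => rw [PowerSeries.eq_X_mul_shift_add_const φ]
  rw [PowerSeries.subst_add hs, PowerSeries.subst_mul hs, PowerSeries.subst_X hs,
    PowerSeries.subst_C, map_add, coeff_one_mul, hr, zero_mul, zero_add,
    constantCoeff_subst_of_zero hr]
  have h1 : PowerSeries.coeff 1
      (MvPowerSeries.C (PowerSeries.constantCoeff φ) : PowerSeries K) = 0 :=
    (PowerSeries.coeff_C 1 _).trans (if_neg one_ne_zero)
  rw [h1, add_zero, mul_comm]
  congr 1

omit [IsAlgClosed K] [CharZero K] in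
/-- The first-order part of a family of Hasse jets: if `∑ j, C j (s) * (∂^(i) W j)(r (s)) = 0`
with `r (0) = 0`, then the coefficient of `s` gives
`(∑ j, C j '(0) W j)_i = - (i + 1) r'(0) (∑ j, C j (0) W j)_(i + 1)`. -/
theorem first_order {ι : Type*} [Fintype ι] (C W : ι → PowerSeries K) (r : PowerSeries K)
    (hr : PowerSeries.constantCoeff r = 0) (i : ℕ)
    (h : ∑ j, C j * (hasse i (W j)).subst r = 0) :
    PowerSeries.coeff i (∑ j, PowerSeries.coeff 1 (C j) • W j) =
      -(((i + 1 : ℕ) : K) * PowerSeries.coeff 1 r *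
        PowerSeries.coeff (i + 1) (∑ j, PowerSeries.constantCoeff (C j) • W j)) := by
  have h1 := congrArg (PowerSeries.coeff 1) h
  rw [map_sum, map_zero] at h1
  have h2 : ∀ j, PowerSeries.coeff 1 (C j * (hasse i (W j)).subst r) =
      PowerSeries.coeff 1 (C j) * PowerSeries.coeff i (W j) +
        ((i + 1 : ℕ) : K) * PowerSeries.coeff 1 r *
          (PowerSeries.constantCoeff (C j) * PowerSeries.coeff (i + 1) (W j)) := by
    intro j
    rw [coeff_one_mul, coeff_one_subst_of_zero hr, constantCoeff_subst_of_zero hr,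
      constantCoeff_hasse, coeff_hasse, Nat.add_comm 1 i, Nat.choose_succ_self_right]
    ring
  simp only [h2] at h1
  rw [Finset.sum_add_distrib, ← Finset.mul_sum] at h1
  rw [map_sum, map_sum]
  simp only [PowerSeries.coeff_smul, smul_eq_mul]
  linear_combination h1

end PowerSeriesPart

/-! ### Ramification and the expansion of a uniformiser -/

omit [IsAlgClosed K] [CharZero K] [Algebra.EssFiniteType K F] [Algebra.EssFiniteType K M] in
/-- The order at `c` of the image of a uniformiser at the centre is the ramification index. -/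
theorem ord_map_unif (htr : Algebra.trdeg K F = 1) (htrM : Algebra.trdeg K M = 1)
    {ρ : F →ₐ[K] M} {c : Place K M} {T : Place K F} (h : IsCentre ρ c T) {t : F}
    (ht : T.ord t = 1) : c.ord (ρ t) = (HB.Loc2.ram ρ c : ℤ) := by
  have hρ := HB.Loc2.algHom_isIntegral htr htrM ρ
  have hT : HB.Loc2.centre ρ hρ c = T :=
    HB.Loc2.centre_eq_of_forall_mem ρ hρ c T fun f hf => h.map_mem hf
  rw [HB.Loc2.ord_map ρ hρ c t, hT, ht, mul_one]

omit [IsAlgClosed K] [CharZero K] [Algebra.EssFiniteType K F] [Algebra.EssFiniteType K M] in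
/-- Unramifiedness in terms of one uniformiser at the centre. -/
theorem ram_eq_one_iff (htr : Algebra.trdeg K F = 1) (htrM : Algebra.trdeg K M = 1)
    {ρ : F →ₐ[K] M} {c : Place K M} {T : Place K F} (h : IsCentre ρ c T) {t : F}
    (ht : T.ord t = 1) : HB.Loc2.ram ρ c = 1 ↔ c.ord (ρ t) = 1 := by
  rw [ord_map_unif htr htrM h ht]
  exact ⟨fun h1 => by rw [h1]; rfl, fun h1 => by exact_mod_cast h1⟩

/-- The linear coefficient of the expansion at `c` of the image of a uniformiser at the centre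
is non-zero exactly when `ρ` is unramified at `c`. -/
theorem coeff_one_tay_ne_zero_iff (htr : Algebra.trdeg K F = 1) (htrM : Algebra.trdeg K M = 1)
    {ρ : F →ₐ[K] M} {c : Place K M} {T : Place K F} (h : IsCentre ρ c T) {t : F}
    (ht : T.ord t = 1) (ϖ : M) (hϖ : c.ord ϖ = 1) :
    PowerSeries.coeff 1 (tay htrM c ϖ hϖ (ρ t)) ≠ 0 ↔ HB.Loc2.ram ρ c = 1 := by
  have htm : t ∈ T.toValuationSubring := R.Taylor.unif_mem T ht
  have hmem : ρ t ∈ c.toValuationSubring := h.map_mem htm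
  have hne : ρ t ≠ 0 := (map_ne_zero ρ).mpr (R.Taylor.unif_ne_zero T ht)
  have h0 := (tay_map_eq_subst htr htrM h t ht ϖ hϖ).1
  have hord := ord_map_unif htr htrM h ht
  have h2 := X_pow_dvd_tay_iff htrM c ϖ hϖ hmem 2
  rw [PowerSeries.X_pow_dvd_iff] at h2
  have hpos : 0 < c.ord (ρ t) :=
    ((constantCoeff_tay_eq_zero_iff htrM c ϖ hϖ hmem).mp h0).resolve_left hne
  constructor
  · intro h1
    by_contra hram
    have h3 : ((2 : ℕ) : ℤ) ≤ c.ord (ρ t) := by
      rw [hord] at hpos ⊢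
      push_cast
      omega
    exact h1 (h2.mpr (Or.inr h3) 1 (by norm_num))
  · intro hram h1
    have h4 : ∀ m < 2, PowerSeries.coeff m (tay htrM c ϖ hϖ (ρ t)) = 0 := by
      intro m hm
      interval_cases m
      · rwa [PowerSeries.coeff_zero_eq_constantCoeff_apply]
      · exact h1
    rcases h2.mp h4 with h5 | h5
    · exact hne h5
    · rw [hord, hram] at h5
      norm_num at h5

/-! ### The lemma (T) -/

omit [IsAlgClosed K] [CharZero K] [Algebra.EssFiniteType K F] [Fintype X] in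
theorem sum_centre_eq {cen : X → Place K F} (hinj : Function.Injective cen) (μ : X → ℕ) (x : X)
    [Fintype {x' : X // cen x' = cen x}] :
    (∑ x' : {x' : X // cen x' = cen x}, μ x'.1) = μ x := by
  rw [Fintype.sum_eq_single (⟨x, rfl⟩ : {x' : X // cen x' = cen x})]
  intro y hy
  exact absurd (Subtype.ext (hinj y.2)) hy

omit [IsAlgClosed K] [CharZero K] [Algebra.EssFiniteType K F] [Fintype X] in
theorem sum_centre_eq_zero {cen : X → Place K F} {T : Place K F} {μ : X → ℕ}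
    (hT : ∀ x, cen x = T → μ x = 0) [Fintype {x' : X // cen x' = T}] :
    (∑ x' : {x' : X // cen x' = T}, μ x'.1) = 0 :=
  Finset.sum_eq_zero fun y _ => hT y.1 y.2

/-- **Lemma (T)** at a centre of positive multiplicity. -/
theorem ord_first (htr : Algebra.trdeg K F = 1) (htrM : Algebra.trdeg K M = 1)
    (d : Loc3.Config htr M ι μ B)
    (c : Place K M) (cen : X → Place K F) (hcen : ∀ x, IsCentre (d.ρ x) c (cen x))
    (ϖ : M) (hϖ : c.ord ϖ = 1) (e : ℕ) (he : ∀ j, ϖ ^ e * d.cM j ∈ c.toValuationSubring)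
    (he0 : ∃ j, d.cM j ≠ 0 ∧ c.ord (ϖ ^ e * d.cM j) = 0)
    (hinj : Function.Injective cen) (x : X) (hμ : 0 < μ x) :
    (HB.Loc2.ram (d.ρ x) c = 1 →
      psi1 htrM d c ϖ hϖ e ≠ 0 ∧
      (cen x).ord (psi1 htrM d c ϖ hϖ e) = (cen x).ord (psi0 htrM d c ϖ hϖ e) - 1) ∧
    (HB.Loc2.ram (d.ρ x) c ≠ 1 →
      psi1 htrM d c ϖ hϖ e = 0 ∨
      (cen x).ord (psi0 htrM d c ϖ hϖ e) ≤ (cen x).ord (psi1 htrM d c ϖ hϖ e)) := by
  classical
  obtain ⟨t, ht⟩ := exists_unif (cen x)
  have hΨ0 : psi0 htrM d c ϖ hϖ e ≠ 0 := Loc3.psi_ne_zero htrM d c ϖ hϖ e he he0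
  have hspec : B (cen x) + (cen x).ord (psi0 htrM d c ϖ hϖ e) = (μ x : ℤ) := by
    have h := Loc3.ord_spec htr htrM d c cen hcen ϖ hϖ e he he0 (cen x)
    rw [sum_centre_eq hinj μ x] at h
    exact h
  have hq : (((B (cen x)).toNat : ℕ) : ℤ) = B (cen x) :=
    Int.toNat_of_nonneg (d.B_nonneg (cen x))
  have hm0 : t ^ (B (cen x)).toNat * psi0 htrM d c ϖ hϖ e ∈ (cen x).toValuationSubring :=
    Loc3.toNat_pow_mul_mem d.B_nonneg (cen x) ht (Loc3.psi_mem d _)
  have hm1 : t ^ (B (cen x)).toNat * psi1 htrM d c ϖ hϖ e ∈ (cen x).toValuationSubring :=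
    Loc3.toNat_pow_mul_mem d.B_nonneg (cen x) ht (Loc3.psi_mem d _)
  have ht0 : t ^ (B (cen x)).toNat ≠ 0 := pow_ne_zero _ (R.Taylor.unif_ne_zero (cen x) ht)
  have hr0 := (tay_map_eq_subst htr htrM (hcen x) t ht ϖ hϖ).1
  have e0 : tay htr (cen x) t ht (t ^ (B (cen x)).toNat * psi0 htrM d c ϖ hϖ e) =
      ∑ j, PowerSeries.constantCoeff (tay htrM c ϖ hϖ (ϖ ^ e * d.cM j)) •
        tay htr (cen x) t ht (t ^ (B (cen x)).toNat * d.v j) :=
    Loc3.tay_psi d _ (cen x) t ht
  have e1 : tay htr (cen x) t ht (t ^ (B (cen x)).toNat * psi1 htrM d c ϖ hϖ e) =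
      ∑ j, PowerSeries.coeff 1 (tay htrM c ϖ hϖ (ϖ ^ e * d.cM j)) •
        tay htr (cen x) t ht (t ^ (B (cen x)).toNat * d.v j) :=
    Loc3.tay_psi d _ (cen x) t ht
  -- the first-order relation
  have hrel : ∀ i < μ x,
      PowerSeries.coeff i (tay htr (cen x) t ht
        (t ^ (B (cen x)).toNat * psi1 htrM d c ϖ hϖ e)) =
      -(((i + 1 : ℕ) : K) * PowerSeries.coeff 1 (tay htrM c ϖ hϖ (d.ρ x t)) *
        PowerSeries.coeff (i + 1) (tay htr (cen x) t ht
          (t ^ (B (cen x)).toNat * psi0 htrM d c ϖ hϖ e))) := by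
    intro i hi
    rw [e0, e1]
    exact first_order (fun j => tay htrM c ϖ hϖ (ϖ ^ e * d.cM j))
      (fun j => tay htr (cen x) t ht (t ^ (B (cen x)).toNat * d.v j)) _ hr0 i
      (Loc3.jets_loc htrM d c ϖ hϖ e he (cen x) t ht x (hcen x) i hi)
  -- the expansion of the specialised function has order exactly `μ x`
  have hord0 : (cen x).ord (t ^ (B (cen x)).toNat * psi0 htrM d c ϖ hϖ e) = (μ x : ℤ) := by
    rw [ord_pow_mul (cen x) ht _ hΨ0, hq]
    exact hspec
  have hlow : ∀ k < μ x, PowerSeries.coeff k (tay htr (cen x) t ht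
      (t ^ (B (cen x)).toNat * psi0 htrM d c ϖ hϖ e)) = 0 :=
    PowerSeries.X_pow_dvd_iff.mp
      ((X_pow_dvd_tay_iff htr (cen x) t ht hm0 (μ x)).mpr (Or.inr hord0.ge))
  have htop : PowerSeries.coeff (μ x) (tay htr (cen x) t ht
      (t ^ (B (cen x)).toNat * psi0 htrM d c ϖ hϖ e)) ≠ 0 := by
    intro h0
    have h1 : (PowerSeries.X : PowerSeries K) ^ (μ x + 1) ∣ tay htr (cen x) t ht
        (t ^ (B (cen x)).toNat * psi0 htrM d c ϖ hϖ e) := by
      rw [PowerSeries.X_pow_dvd_iff]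
      intro k hk
      rcases Nat.lt_succ_iff_lt_or_eq.mp hk with hk | rfl
      · exact hlow k hk
      · exact h0
    rcases (X_pow_dvd_tay_iff htr (cen x) t ht hm0 (μ x + 1)).mp h1 with h2 | h2
    · exact (mul_ne_zero ht0 hΨ0) h2
    · rw [hord0] at h2
      push_cast at h2
      omega
  have hram := coeff_one_tay_ne_zero_iff htr htrM (hcen x) ht ϖ hϖ
  constructor
  · intro hun
    have hc1 : PowerSeries.coeff 1 (tay htrM c ϖ hϖ (d.ρ x t)) ≠ 0 := hram.mpr hun
    have hμ' : μ x - 1 + 1 = μ x := Nat.sub_add_cancel hμ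
    have hne : PowerSeries.coeff (μ x - 1) (tay htr (cen x) t ht
        (t ^ (B (cen x)).toNat * psi1 htrM d c ϖ hϖ e)) ≠ 0 := by
      rw [hrel (μ x - 1) (by omega), hμ']
      exact neg_ne_zero.mpr (mul_ne_zero (mul_ne_zero (Nat.cast_ne_zero.mpr (by omega)) hc1) htop)
    have hΨ1 : psi1 htrM d c ϖ hϖ e ≠ 0 := by
      intro h0
      apply hne
      rw [h0, mul_zero, tay_zero, map_zero]
    have hdvd : (PowerSeries.X : PowerSeries K) ^ (μ x - 1) ∣ tay htr (cen x) t ht
        (t ^ (B (cen x)).toNat * psi1 htrM d c ϖ hϖ e) := by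
      rw [PowerSeries.X_pow_dvd_iff]
      intro k hk
      rw [hrel k (by omega), hlow (k + 1) (by omega), mul_zero, neg_zero]
    have h1 := ((X_pow_dvd_tay_iff htr (cen x) t ht hm1 (μ x - 1)).mp hdvd).resolve_left
      (mul_ne_zero ht0 hΨ1)
    have h2 : ¬ ((μ x : ℤ) ≤ (cen x).ord (t ^ (B (cen x)).toNat * psi1 htrM d c ϖ hϖ e)) := by
      intro h3
      have h4 := (X_pow_dvd_tay_iff htr (cen x) t ht hm1 (μ x)).mpr (Or.inr h3)
      exact hne (PowerSeries.X_pow_dvd_iff.mp h4 (μ x - 1) (by omega))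
    rw [ord_pow_mul (cen x) ht _ hΨ1, hq] at h1 h2
    refine ⟨hΨ1, ?_⟩
    rw [Nat.cast_sub hμ] at h1
    push_cast at h1
    omega
  · intro hram'
    have hc1 : PowerSeries.coeff 1 (tay htrM c ϖ hϖ (d.ρ x t)) = 0 := by
      by_contra h
      exact hram' (hram.mp h)
    have hdvd : (PowerSeries.X : PowerSeries K) ^ (μ x) ∣ tay htr (cen x) t ht
        (t ^ (B (cen x)).toNat * psi1 htrM d c ϖ hϖ e) := by
      rw [PowerSeries.X_pow_dvd_iff]
      intro k hk
      rw [hrel k hk, hc1, mul_zero, zero_mul, neg_zero]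
    by_cases hΨ1 : psi1 htrM d c ϖ hϖ e = 0
    · exact Or.inl hΨ1
    · right
      have h1 := ((X_pow_dvd_tay_iff htr (cen x) t ht hm1 (μ x)).mp hdvd).resolve_left
        (mul_ne_zero ht0 hΨ1)
      rw [ord_pow_mul (cen x) ht _ hΨ1, hq] at h1
      omega

/-- **Lemma (T)** at a place which is not the centre of a point of positive multiplicity. -/
theorem ord_first_of_mult_zero (htr : Algebra.trdeg K F = 1) (htrM : Algebra.trdeg K M = 1)
    (d : Loc3.Config htr M ι μ B)
    (c : Place K M) (cen : X → Place K F) (hcen : ∀ x, IsCentre (d.ρ x) c (cen x))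
    (ϖ : M) (hϖ : c.ord ϖ = 1) (e : ℕ) (he : ∀ j, ϖ ^ e * d.cM j ∈ c.toValuationSubring)
    (he0 : ∃ j, d.cM j ≠ 0 ∧ c.ord (ϖ ^ e * d.cM j) = 0)
    (T : Place K F) (hT : ∀ x, cen x = T → μ x = 0) :
    psi1 htrM d c ϖ hϖ e = 0 ∨
      T.ord (psi0 htrM d c ϖ hϖ e) ≤ T.ord (psi1 htrM d c ϖ hϖ e) := by
  classical
  by_cases hΨ1 : psi1 htrM d c ϖ hϖ e = 0
  · exact Or.inl hΨ1
  · right
    have hspec : B T + T.ord (psi0 htrM d c ϖ hϖ e) = 0 := by
      have h := Loc3.ord_spec htr htrM d c cen hcen ϖ hϖ e he he0 T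
      rw [sum_centre_eq_zero hT] at h
      exact_mod_cast h
    have hmem : psi1 htrM d c ϖ hϖ e ∈ riemannRochSpace B := Loc3.psi_mem d _
    have h1 := (R.mem_L_of_ne_zero hΨ1).mp hmem T
    omega

/-- **Lemma (T)** off the centres. -/
theorem ord_first_off (htr : Algebra.trdeg K F = 1) (htrM : Algebra.trdeg K M = 1)
    (d : Loc3.Config htr M ι μ B)
    (c : Place K M) (cen : X → Place K F) (hcen : ∀ x, IsCentre (d.ρ x) c (cen x))
    (ϖ : M) (hϖ : c.ord ϖ = 1) (e : ℕ) (he : ∀ j, ϖ ^ e * d.cM j ∈ c.toValuationSubring)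
    (he0 : ∃ j, d.cM j ≠ 0 ∧ c.ord (ϖ ^ e * d.cM j) = 0)
    (T : Place K F) (hT : ∀ x, cen x ≠ T) :
    psi1 htrM d c ϖ hϖ e = 0 ∨
      T.ord (psi0 htrM d c ϖ hϖ e) ≤ T.ord (psi1 htrM d c ϖ hϖ e) :=
  ord_first_of_mult_zero htr htrM d c cen hcen ϖ hϖ e he he0 T fun x hx => absurd hx (hT x)

/-! ### The tangent function `psi1 / psi0` -/

/-- The tangent function `psi1 / psi0` has at most simple poles, at the centres of the
unramified points of positive multiplicity. -/
theorem tangent_mem (htr : Algebra.trdeg K F = 1) (htrM : Algebra.trdeg K M = 1)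
    (d : Loc3.Config htr M ι μ B)
    (c : Place K M) (cen : X → Place K F) (hcen : ∀ x, IsCentre (d.ρ x) c (cen x))
    (ϖ : M) (hϖ : c.ord ϖ = 1) (e : ℕ) (he : ∀ j, ϖ ^ e * d.cM j ∈ c.toValuationSubring)
    (he0 : ∃ j, d.cM j ≠ 0 ∧ c.ord (ϖ ^ e * d.cM j) = 0)
    (hinj : Function.Injective cen) (S : Finset X)
    (hS : ∀ x, 0 < μ x → HB.Loc2.ram (d.ρ x) c = 1 → x ∈ S) :
    psi1 htrM d c ϖ hϖ e / psi0 htrM d c ϖ hϖ e ∈
      riemannRochSpace (∑ x ∈ S, Finsupp.single (cen x) (1 : ℤ)) := by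
  classical
  have hΨ0 : psi0 htrM d c ϖ hϖ e ≠ 0 := Loc3.psi_ne_zero htrM d c ϖ hϖ e he he0
  by_cases hΨ1 : psi1 htrM d c ϖ hϖ e = 0
  · rw [hΨ1, zero_div]
    exact zero_mem _
  have hne : psi1 htrM d c ϖ hϖ e / psi0 htrM d c ϖ hϖ e ≠ 0 := div_ne_zero hΨ1 hΨ0
  rw [R.mem_L_of_ne_zero hne]
  intro T
  have hordT : T.ord (psi1 htrM d c ϖ hϖ e / psi0 htrM d c ϖ hϖ e) =
      T.ord (psi1 htrM d c ϖ hϖ e) - T.ord (psi0 htrM d c ϖ hϖ e) := by
    rw [div_eq_mul_inv, T.ord_mul hΨ1 (inv_ne_zero hΨ0), T.ord_inv]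
    ring
  have hE : ∀ x ∈ S, (0 : ℤ) ≤ (Finsupp.single (cen x) (1 : ℤ)) T := fun x _ => by
    rw [Finsupp.single_apply]
    split_ifs <;> norm_num
  have hE0 : (0 : ℤ) ≤ (∑ x ∈ S, Finsupp.single (cen x) (1 : ℤ)) T := by
    rw [Finsupp.finsetSum_apply]
    exact Finset.sum_nonneg hE
  by_cases hx : ∃ x, cen x = T ∧ 0 < μ x ∧ HB.Loc2.ram (d.ρ x) c = 1
  · obtain ⟨x, rfl, hμ, hram⟩ := hx
    have h1 := ((ord_first htr htrM d c cen hcen ϖ hϖ e he he0 hinj x hμ).1 hram).2
    have h2 : (1 : ℤ) ≤ (∑ x' ∈ S, Finsupp.single (cen x') (1 : ℤ)) (cen x) := by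
      rw [Finsupp.finsetSum_apply]
      have h3 := Finset.single_le_sum (f := fun x' => (Finsupp.single (cen x') (1 : ℤ)) (cen x))
        (fun x' hx' => hE x' hx') (hS x hμ hram)
      simpa using h3
    rw [hordT]
    omega
  · have h1 : T.ord (psi0 htrM d c ϖ hϖ e) ≤ T.ord (psi1 htrM d c ϖ hϖ e) := by
      by_cases hT : ∃ x, cen x = T ∧ 0 < μ x
      · obtain ⟨x, rfl, hμ⟩ := hT
        have hram : HB.Loc2.ram (d.ρ x) c ≠ 1 := fun h => hx ⟨x, rfl, hμ, h⟩
        exact ((ord_first htr htrM d c cen hcen ϖ hϖ e he he0 hinj x hμ).2 hram).resolve_left hΨ1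
      · have hT' : ∀ x, cen x = T → μ x = 0 := fun x hxT => by
          by_contra h
          exact hT ⟨x, hxT, Nat.pos_of_ne_zero h⟩
        exact (ord_first_of_mult_zero htr htrM d c cen hcen ϖ hϖ e he he0 T hT').resolve_left hΨ1
    rw [hordT]
    omega

/-- The tangent function has a simple pole at the centre of an unramified point of positive
multiplicity. -/
theorem ord_tangent (htr : Algebra.trdeg K F = 1) (htrM : Algebra.trdeg K M = 1)
    (d : Loc3.Config htr M ι μ B)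
    (c : Place K M) (cen : X → Place K F) (hcen : ∀ x, IsCentre (d.ρ x) c (cen x))
    (ϖ : M) (hϖ : c.ord ϖ = 1) (e : ℕ) (he : ∀ j, ϖ ^ e * d.cM j ∈ c.toValuationSubring)
    (he0 : ∃ j, d.cM j ≠ 0 ∧ c.ord (ϖ ^ e * d.cM j) = 0)
    (hinj : Function.Injective cen) (x : X) (hμ : 0 < μ x)
    (hx : HB.Loc2.ram (d.ρ x) c = 1) :
    psi1 htrM d c ϖ hϖ e / psi0 htrM d c ϖ hϖ e ≠ 0 ∧
      (cen x).ord (psi1 htrM d c ϖ hϖ e / psi0 htrM d c ϖ hϖ e) = -1 := by
  have hΨ0 : psi0 htrM d c ϖ hϖ e ≠ 0 := Loc3.psi_ne_zero htrM d c ϖ hϖ e he he0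
  obtain ⟨hΨ1, h1⟩ := (ord_first htr htrM d c cen hcen ϖ hϖ e he he0 hinj x hμ).1 hx
  refine ⟨div_ne_zero hΨ1 hΨ0, ?_⟩
  rw [div_eq_mul_inv, (cen x).ord_mul hΨ1 (inv_ne_zero hΨ0), (cen x).ord_inv, h1]
  ring

/-! ### The two consequences -/

/-- **(T1)** One unramified point and `l(∑_{x' ≠ x} cen x') = 1` force `ρ x` unramified. -/
theorem unramified_of_nonspecial [DecidableEq X] (htr : Algebra.trdeg K F = 1)
    (htrM : Algebra.trdeg K M = 1) (d : Loc3.Config htr M ι μ B)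
    (c : Place K M) (cen : X → Place K F) (hcen : ∀ x, IsCentre (d.ρ x) c (cen x))
    (ϖ : M) (hϖ : c.ord ϖ = 1) (e : ℕ) (he : ∀ j, ϖ ^ e * d.cM j ∈ c.toValuationSubring)
    (he0 : ∃ j, d.cM j ≠ 0 ∧ c.ord (ϖ ^ e * d.cM j) = 0)
    (hinj : Function.Injective cen) (x₀ : X) (hμ₀ : 0 < μ x₀)
    (h₀ : HB.Loc2.ram (d.ρ x₀) c = 1) (x : X)
    (hns : Module.finrank K ↥(riemannRochSpace
      (∑ x' ∈ Finset.univ.erase x, Finsupp.single (cen x') (1 : ℤ))) = 1) :
    HB.Loc2.ram (d.ρ x) c = 1 := by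
  by_contra hne
  have hmem := tangent_mem htr htrM d c cen hcen ϖ hϖ e he he0 hinj (Finset.univ.erase x)
    (fun x' _ hx' => Finset.mem_erase.mpr ⟨fun h => hne (h ▸ hx'), Finset.mem_univ _⟩)
  have hD : (0 : Divisor K F) ≤ ∑ x' ∈ Finset.univ.erase x, Finsupp.single (cen x') (1 : ℤ) :=
    Finset.sum_nonneg fun x' _ => R.NonSpecialStep.single_one_nonneg (cen x')
  obtain ⟨a, ha⟩ := HB.CarPos.eq_algebraMap_of_finrank_eq_one htr hD hns hmem
  obtain ⟨-, h1⟩ := ord_tangent htr htrM d c cen hcen ϖ hϖ e he he0 hinj x₀ hμ₀ h₀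
  rw [ha, Fermat.Agent.S24.FF.ord_algebraMap] at h1
  norm_num at h1

/-- **(T2)** An unramified point `x` and `l(∑ x', cen x') = 2` give `l(∑_{x' ≠ x} cen x') = 1`. -/
theorem nonspecial_of_unramified [DecidableEq X] (htr : Algebra.trdeg K F = 1)
    (htrM : Algebra.trdeg K M = 1) (d : Loc3.Config htr M ι μ B)
    (c : Place K M) (cen : X → Place K F) (hcen : ∀ x, IsCentre (d.ρ x) c (cen x))
    (ϖ : M) (hϖ : c.ord ϖ = 1) (e : ℕ) (he : ∀ j, ϖ ^ e * d.cM j ∈ c.toValuationSubring)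
    (he0 : ∃ j, d.cM j ≠ 0 ∧ c.ord (ϖ ^ e * d.cM j) = 0)
    (hinj : Function.Injective cen) (x : X) (hμ : 0 < μ x)
    (hx : HB.Loc2.ram (d.ρ x) c = 1)
    (h2 : Module.finrank K ↥(riemannRochSpace
      (∑ x', Finsupp.single (cen x') (1 : ℤ))) = 2) :
    Module.finrank K ↥(riemannRochSpace
      (∑ x' ∈ Finset.univ.erase x, Finsupp.single (cen x') (1 : ℤ))) = 1 := by
  classical
  have hmem := tangent_mem htr htrM d c cen hcen ϖ hϖ e he he0 hinj Finset.univ
    (fun x' _ _ => Finset.mem_univ _)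
  obtain ⟨hne, h1⟩ := ord_tangent htr htrM d c cen hcen ϖ hϖ e he he0 hinj x hμ hx
  have hEx : (∑ x' ∈ Finset.univ.erase x, Finsupp.single (cen x') (1 : ℤ)) (cen x) = 0 := by
    rw [Finsupp.finsetSum_apply]
    refine Finset.sum_eq_zero fun x' hx' => ?_
    rw [Finsupp.single_apply, if_neg]
    intro h
    exact (Finset.mem_erase.mp hx').1 (hinj h)
  have hnot : psi1 htrM d c ϖ hϖ e / psi0 htrM d c ϖ hϖ e ∉
      riemannRochSpace (∑ x' ∈ Finset.univ.erase x, Finsupp.single (cen x') (1 : ℤ)) := by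
    intro h
    have h3 := (R.mem_L_of_ne_zero hne).mp h (cen x)
    rw [hEx, h1] at h3
    norm_num at h3
  have hDE : (∑ x', Finsupp.single (cen x') (1 : ℤ)) =
      Finsupp.single (cen x) (1 : ℤ) +
        ∑ x' ∈ Finset.univ.erase x, Finsupp.single (cen x') (1 : ℤ) :=
    (Finset.add_sum_erase Finset.univ (fun x' => Finsupp.single (cen x') (1 : ℤ))
      (Finset.mem_univ x)).symm
  have hle : (∑ x' ∈ Finset.univ.erase x, Finsupp.single (cen x') (1 : ℤ) : Divisor K F) ≤
      ∑ x', Finsupp.single (cen x') (1 : ℤ) := by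
    rw [hDE]
    exact le_add_of_nonneg_left (R.NonSpecialStep.single_one_nonneg (cen x))
  have hE0 : (0 : Divisor K F) ≤ ∑ x' ∈ Finset.univ.erase x, Finsupp.single (cen x') (1 : ℤ) :=
    Finset.sum_nonneg fun x' _ => R.NonSpecialStep.single_one_nonneg (cen x')
  have hlt : riemannRochSpace (∑ x' ∈ Finset.univ.erase x, Finsupp.single (cen x') (1 : ℤ)) <
      riemannRochSpace (∑ x', Finsupp.single (cen x') (1 : ℤ)) :=
    lt_of_le_of_ne (R.L_mono hle) fun heq => hnot (heq ▸ hmem)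
  have hfin := R.finite_L htr (∑ x', Finsupp.single (cen x') (1 : ℤ))
  have hfin' := R.finite_L htr (∑ x' ∈ Finset.univ.erase x, Finsupp.single (cen x') (1 : ℤ))
  have h3 := Submodule.finrank_lt_finrank_of_lt hlt
  have h4 := Submodule.finrank_mono (R.L_mono hE0)
  rw [R.NonSpecialStep.finrank_L_zero htr] at h4
  omega

end Fermat.Agent.S27.L.Tangent
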