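import Mathlib
import Fermat.Agent.S27.L.Loc
import Fermat.Agent.S27.L.Tangent

/-!
# Program PJ (statement S27), strand L: the tangent lemma for a profile configuration `L.Data`

The exits of `S27/L/Tangent.lean` in the vocabulary of `S27/L/Defs.lean`: a profile
configuration `d : L.Data htr M ι μ m B δ`, a place `w` of `M`, the centres
`L.cen htr htrM (d.ρ z) w`.  No uniformiser and no normalising exponent in the statements.

* `unramified_of_nonspecial` (T1): distinct centres at `w`, one point `z₀` of positive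
  multiplicity unramified at `w`, `l(∑_{z' ≠ z} centre z') = 1`  ⟹  `ρ z` is unramified at `w`;
* `ram_eq_one` : the same in the literal (C-E2) of the exit of strand C ("every point moves");
* `nonspecial_of_unramified` (T2): distinct centres at `w`, `ρ z` unramified at `w`, `0 < μ z`,
  `l(∑ z', centre z') = 2`  ⟹  `l(∑_{z' ≠ z} centre z') = 1`.
-/

set_option autoImplicit false

open AlgebraicCurve

namespace Fermat.Agent.S27.L.TangentData

open Fermat.Agent.S17 Fermat.Agent.S17.HB

variable {K F M : Type*} [Field K] [Field F] [Algebra K F] [Field M] [Algebra K M]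
variable [IsAlgClosed K] [CharZero K] [Algebra.EssFiniteType K F] [Algebra.EssFiniteType K M]

/-- **(T1) for `L.Data`.**  One unramified point of positive multiplicity and
`l(∑_{z' ≠ z} centre z') = 1` force `ρ z` unramified at `w`. -/
theorem unramified_of_nonspecial (htr : Algebra.trdeg K F = 1) (htrM : Algebra.trdeg K M = 1)
    {ι : Type*} [Fintype ι] [DecidableEq ι] {μ : ι → ℕ} {m : ℕ} {B : Divisor K F}
    {δ : Derivation K F F} (d : L.Data htr M ι μ m B δ) (w : Place K M)
    (hT : Function.Injective fun z => L.cen htr htrM (d.ρ z) w)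
    (z₀ : ι) (hμ₀ : 0 < μ z₀) (hram : Loc2.ram (d.ρ z₀) w = 1) (z : ι)
    (hns : Module.finrank K ↥(riemannRochSpace
      (∑ z' ∈ Finset.univ.erase z, Finsupp.single (L.cen htr htrM (d.ρ z') w) (1 : ℤ))) = 1) :
    Loc2.ram (d.ρ z) w = 1 := by
  obtain ⟨ϖ, hϖ⟩ := Loc3.exists_unif w
  obtain ⟨e, he, he0⟩ := L.Loc.exists_exponent d w ϖ hϖ
  exact Tangent.unramified_of_nonspecial htr htrM (L.Loc.toConfig d) w
    (fun z => L.cen htr htrM (d.ρ z) w) (fun z => L.isCentre_cen htr htrM (d.ρ z) w)
    ϖ hϖ e he he0 hT z₀ hμ₀ hram z hns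

set_option linter.unusedVariables false in
/-- **(C-E2) Every point moves**, in the literal of the exit of strand C. -/
theorem ram_eq_one (htr : Algebra.trdeg K F = 1) (htrM : Algebra.trdeg K M = 1)
    {ι : Type} [Fintype ι] [DecidableEq ι]
    (hcard : Fintype.card ι = R.gR K F + 1) (z₀ : ι) {μ : ι → ℕ} (hμ : ∀ z, 0 < μ z)
    {m : ℕ} {B : Divisor K F} {δ : Derivation K F F} (hδ : δ ≠ 0)
    (d : L.Data htr M ι μ m B δ) (w : Place K M)
    (hT : Function.Injective fun z => L.cen htr htrM (d.ρ z) w)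
    (hns : ∀ z, Module.finrank K ↥(riemannRochSpace
      (∑ z' ∈ Finset.univ.erase z, Finsupp.single (L.cen htr htrM (d.ρ z') w) (1 : ℤ))) = 1)
    (hram : Loc2.ram (d.ρ z₀) w = 1) (z : ι) : Loc2.ram (d.ρ z) w = 1 :=
  unramified_of_nonspecial htr htrM d w hT z₀ (hμ z₀) hram z (hns z)

/-- **(T2) for `L.Data`.**  An unramified point `z` of positive multiplicity and
`l(∑ z', centre z') = 2` give `l(∑_{z' ≠ z} centre z') = 1`. -/
theorem nonspecial_of_unramified (htr : Algebra.trdeg K F = 1) (htrM : Algebra.trdeg K M = 1)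
    {ι : Type*} [Fintype ι] [DecidableEq ι] {μ : ι → ℕ} {m : ℕ} {B : Divisor K F}
    {δ : Derivation K F F} (d : L.Data htr M ι μ m B δ) (w : Place K M)
    (hT : Function.Injective fun z => L.cen htr htrM (d.ρ z) w)
    (z : ι) (hμ : 0 < μ z) (hram : Loc2.ram (d.ρ z) w = 1)
    (h2 : Module.finrank K ↥(riemannRochSpace
      (∑ z', Finsupp.single (L.cen htr htrM (d.ρ z') w) (1 : ℤ))) = 2) :
    Module.finrank K ↥(riemannRochSpace
      (∑ z' ∈ Finset.univ.erase z, Finsupp.single (L.cen htr htrM (d.ρ z') w) (1 : ℤ))) = 1 := by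
  obtain ⟨ϖ, hϖ⟩ := Loc3.exists_unif w
  obtain ⟨e, he, he0⟩ := L.Loc.exists_exponent d w ϖ hϖ
  exact Tangent.nonspecial_of_unramified htr htrM (L.Loc.toConfig d) w
    (fun z => L.cen htr htrM (d.ρ z) w) (fun z => L.isCentre_cen htr htrM (d.ρ z) w)
    ϖ hϖ e he he0 hT z hμ hram h2

end Fermat.Agent.S27.L.TangentData
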